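import Mathlib
import Fermat.Agent.S28.IntegralDescent

/-!
# GATE-J / J1-AUX / M-DEG : base change of linear independence along `coeffMap`

`K / K₀` any field extension, `s ∈ K₀((q))`, `z i ∈ K₀((q))`.  If the `z i` are linearly independent
over `K₀(s)` then their images in `K((q))` are linearly independent over `K(s)`.
(No transcendence of `s`, no finiteness of `K / K₀` is needed.)
-/

set_option autoImplicit false

noncomputable section

namespace Fermat.Agent.GJ.AuxLevel.Deg

open ModularCurve HahnSeries Polynomial IntermediateField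
open Fermat.Agent.S28.IntegralDescent

variable {K₀ K : Type*} [Field K₀] [Field K] [Algebra K₀ K]

/-- a Laurent series killed coefficientwise by every functional vanishes -/
theorem eq_zero_of_forall_coeffFun (x : LaurentSeries K)
    (h : ∀ lam : K →ₗ[K₀] K₀, coeffFun lam x = 0) : x = 0 := by
  ext n
  rw [HahnSeries.coeff_zero]
  apply (Module.forall_dual_apply_eq_zero_iff K₀ (x.coeff n)).mp
  intro lam
  have := congrArg (fun y => y.coeff n) (h lam)
  simpa using this

/-- elements of a simple adjoin as fractions with nonvanishing denominator -/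
theorem exists_fraction_of_mem_adjoin_simple {E : Type*} [Field E] [Algebra K E] (α : E)
    (g : IntermediateField.adjoin K {α}) :
    ∃ p q : K[X], aeval α q ≠ 0 ∧ (g : E) * aeval α q = aeval α p := by
  obtain ⟨r, s, hrs⟩ := (IntermediateField.mem_adjoin_simple_iff K (g : E)).mp g.2
  by_cases hs : aeval α s = 0
  · refine ⟨0, 1, by simp, ?_⟩
    rw [hrs, hs, div_zero]
    simp
  · refine ⟨r, s, hs, ?_⟩
    rw [hrs, div_mul_cancel₀ _ hs]

/-- polynomial relations descend: if `∑ P_i(s') z_i' = 0` over `K` then every `P_i(s') = 0`. -/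
theorem aeval_eq_zero_of_sum_eq_zero (s : LaurentSeries K₀) {ι : Type*}
    (z : ι → LaurentSeries K₀)
    (h : LinearIndependent (IntermediateField.adjoin K₀ {s}) z)
    (t : Finset ι) (P : ι → K[X])
    (hsum : ∑ i ∈ t, aeval (coeffMap (algebraMap K₀ K) s) (P i) *
      coeffMap (algebraMap K₀ K) (z i) = 0) :
    ∀ i ∈ t, aeval (coeffMap (algebraMap K₀ K) s) (P i) = 0 := by
  classical
  intro i hi
  apply eq_zero_of_forall_coeffFun (K₀ := K₀)
  intro lam
  rw [coeffFun_aeval]
  -- apply the functional to the relation
  have h1 : ∑ j ∈ t, aeval s (lamPoly lam (P j)) * z j = 0 := by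
    have := congrArg (coeffFun lam) hsum
    rw [map_sum, map_zero] at this
    rw [← this]
    refine Finset.sum_congr rfl fun j _ => ?_
    rw [coeffFun_mul_coeffMap, coeffFun_aeval]
  -- coefficients in `K₀(s)`
  have hmem : ∀ j, aeval s (lamPoly lam (P j)) ∈ IntermediateField.adjoin K₀ {s} := fun j =>
    (IntermediateField.algebra_adjoin_le_adjoin K₀ {s})
      (by
        rw [Algebra.adjoin_singleton_eq_range_aeval]
        exact ⟨_, rfl⟩)
  have h2 : ∑ j ∈ t, (⟨aeval s (lamPoly lam (P j)), hmem j⟩ : IntermediateField.adjoin K₀ {s}) •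
      z j = 0 := by
    rw [← h1]
    refine Finset.sum_congr rfl fun j _ => ?_
    rfl
  have h3 := linearIndependent_iff'.mp h t _ h2 i hi
  exact congrArg Subtype.val h3

/-- **Base change of independence.** -/
theorem linearIndependent_coeffMap (s : LaurentSeries K₀) {ι : Type*}
    (z : ι → LaurentSeries K₀)
    (h : LinearIndependent (IntermediateField.adjoin K₀ {s}) z) :
    LinearIndependent (IntermediateField.adjoin K {coeffMap (algebraMap K₀ K) s})
      (fun i => coeffMap (algebraMap K₀ K) (z i)) := by
  classical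
  set s' := coeffMap (algebraMap K₀ K) s with hs'
  rw [linearIndependent_iff']
  intro t g hg i hi
  choose p q hq hpq using fun j => exists_fraction_of_mem_adjoin_simple (K := K) s' (g j)
  -- common denominator
  set D : K[X] := ∏ j ∈ t, q j with hD
  have hD0 : aeval s' D ≠ 0 := by
    rw [hD, map_prod]
    exact Finset.prod_ne_zero_iff.mpr fun j _ => hq j
  set P : ι → K[X] := fun j => p j * ∏ l ∈ t.erase j, q l with hP
  have hPj : ∀ j ∈ t, aeval s' (P j) = (g j : LaurentSeries K) * aeval s' D := by
    intro j hj
    rw [hP, hD]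
    simp only [map_mul, map_prod]
    rw [← hpq j, mul_assoc, ← Finset.mul_prod_erase t (fun l => aeval s' (q l)) hj]
  have hsum : ∑ j ∈ t, aeval s' (P j) * coeffMap (algebraMap K₀ K) (z j) = 0 := by
    have : ∑ j ∈ t, aeval s' (P j) * coeffMap (algebraMap K₀ K) (z j) =
        aeval s' D * ∑ j ∈ t, g j • coeffMap (algebraMap K₀ K) (z j) := by
      rw [Finset.mul_sum]
      refine Finset.sum_congr rfl fun j hj => ?_
      rw [hPj j hj]
      change _ = aeval s' D * ((g j : LaurentSeries K) * coeffMap (algebraMap K₀ K) (z j))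
      ring
    rw [this, hg, mul_zero]
  have h0 := aeval_eq_zero_of_sum_eq_zero s z h t P hsum i hi
  rw [hPj i hi] at h0
  have h1 : (g i : LaurentSeries K) = 0 := (mul_eq_zero.mp h0).resolve_right hD0
  exact Subtype.ext h1

end Fermat.Agent.GJ.AuxLevel.Deg
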