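import Mathlib
import Fermat.Agent.GJ.AuxLevel.DegBaseChange

/-!
# GATE-J / J1-AUX / M-DEG : the degree over the chart is invariant under base change of constants

* adapters between the simple intermediate field `k(s)` of `F / k` ("internal") and the simple
  intermediate field `k(s)` of the ambient `E / k` ("ambient") for `F ≤ E`;
* `finrank_baseChange_le` : `[K(φ s) ⊗ … : ] ` the compositum `F = K · φ(F₀)` is spanned over
  `K(φ s)` by the image of a `K₀(s)`-basis of `F₀`, so `[F : K(φ s)] ≤ [F₀ : K₀(s)]`;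
* `finrank_le_baseChange` (Laurent series, `φ = coeffMap`) : the reverse inequality, from
  `linearIndependent_coeffMap`.
-/

set_option autoImplicit false

noncomputable section

namespace Fermat.Agent.GJ.AuxLevel.Deg

open IntermediateField Polynomial

section Adapters

variable {k E : Type*} [Field k] [Field E] [Algebra k E] (F : IntermediateField k E) (s : F)

/-- elements of the internal simple field are in the ambient one -/
theorem coe_mem_ambient (g : k⟮s⟯) : (((g : k⟮s⟯) : F) : E) ∈ k⟮(s : E)⟯ := by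
  have h1 : F.val (g : F) ∈ (k⟮s⟯).map F.val := ⟨(g : F), g.2, rfl⟩
  rw [IntermediateField.adjoin_map, Set.image_singleton] at h1
  exact h1

/-- elements of the ambient simple field come from the internal one -/
theorem exists_internal_of_ambient (g : k⟮(s : E)⟯) : ∃ g' : k⟮s⟯, (((g' : k⟮s⟯) : F) : E) = g := by
  have h1 : (g : E) ∈ (k⟮s⟯).map F.val := by
    rw [IntermediateField.adjoin_map, Set.image_singleton]
    exact g.2
  obtain ⟨x, hx, hxg⟩ := h1
  exact ⟨⟨x, hx⟩, hxg⟩

/-- ambient independence ⟹ internal independence -/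
theorem linearIndependent_internal_of_ambient {ι : Type*} (v : ι → F)
    (h : LinearIndependent k⟮(s : E)⟯ (fun i => (v i : E))) : LinearIndependent k⟮s⟯ v := by
  classical
  rw [linearIndependent_iff'] at h ⊢
  intro t g hsum i hi
  have hsum' : ∑ j ∈ t, (⟨((g j : F) : E), coe_mem_ambient F s (g j)⟩ : k⟮(s : E)⟯) • (v j : E)
      = 0 := by
    have := congrArg (fun y : F => (y : E)) hsum
    simp only [AddSubmonoidClass.coe_finsetSum, ZeroMemClass.coe_zero] at this
    rw [← this]
    refine Finset.sum_congr rfl fun j _ => ?_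
    rfl
  have h0 := h t _ hsum' i hi
  have h1 : ((g i : F) : E) = 0 := congrArg (fun y : k⟮(s : E)⟯ => (y : E)) h0
  exact Subtype.ext (Subtype.ext h1)

/-- internal independence ⟹ ambient independence -/
theorem linearIndependent_ambient_of_internal {ι : Type*} (v : ι → F)
    (h : LinearIndependent k⟮s⟯ v) : LinearIndependent k⟮(s : E)⟯ (fun i => (v i : E)) := by
  classical
  rw [linearIndependent_iff'] at h ⊢
  intro t g hsum i hi
  choose g' hg' using fun j => exists_internal_of_ambient F s (g j)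
  have hsum' : ∑ j ∈ t, g' j • v j = 0 := by
    apply Subtype.ext
    simp only [AddSubmonoidClass.coe_finsetSum, ZeroMemClass.coe_zero]
    rw [← hsum]
    refine Finset.sum_congr rfl fun j _ => ?_
    change (((g' j : k⟮s⟯) : F) : E) * (v j : E) = (g j : E) * (v j : E)
    rw [hg' j]
  have h0 := h t g' hsum' i hi
  apply Subtype.ext
  rw [← hg' i, h0]
  rfl

/-- ambient spanning ⟹ internal spanning -/
theorem span_eq_top_of_ambient {ι : Type*} [Fintype ι] (w : ι → F)
    (h : ∀ y : F, (y : E) ∈ Submodule.span k⟮(s : E)⟯ (Set.range fun i => (w i : E))) :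
    Submodule.span k⟮s⟯ (Set.range w) = ⊤ := by
  classical
  rw [eq_top_iff]
  intro y _
  obtain ⟨c, hc⟩ := (Submodule.mem_span_range_iff_exists_fun _).mp (h y)
  choose c' hc' using fun j => exists_internal_of_ambient F s (c j)
  rw [Submodule.mem_span_range_iff_exists_fun]
  refine ⟨c', ?_⟩
  apply Subtype.ext
  simp only [AddSubmonoidClass.coe_finsetSum]
  rw [← hc]
  refine Finset.sum_congr rfl fun j _ => ?_
  change (((c' j : k⟮s⟯) : F) : E) * (w j : E) = (c j : E) * (w j : E)
  rw [hc' j]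

/-- internal spanning ⟹ ambient spanning -/
theorem mem_ambient_span_of_internal {ι : Type*} [Fintype ι] (w : ι → F)
    (h : Submodule.span k⟮s⟯ (Set.range w) = ⊤) (y : F) :
    (y : E) ∈ Submodule.span k⟮(s : E)⟯ (Set.range fun i => (w i : E)) := by
  classical
  have hy : y ∈ Submodule.span k⟮s⟯ (Set.range w) := by rw [h]; trivial
  obtain ⟨c, hc⟩ := (Submodule.mem_span_range_iff_exists_fun _).mp hy
  rw [Submodule.mem_span_range_iff_exists_fun]
  refine ⟨fun j => ⟨((c j : F) : E), coe_mem_ambient F s (c j)⟩, ?_⟩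
  rw [← hc]
  simp only [AddSubmonoidClass.coe_finsetSum]
  refine Finset.sum_congr rfl fun j _ => ?_
  rfl

end Adapters

section Span

variable {K₀ K E₀ E : Type*} [Field K₀] [Field K] [Field E₀] [Field E] [Algebra K₀ K]
  [Algebra K₀ E₀] [Algebra K E] (φ : E₀ →+* E)
  (hφ : ∀ c : K₀, φ (algebraMap K₀ E₀ c) = algebraMap K E (algebraMap K₀ K c))

include hφ in
theorem map_aeval_eq (s : E₀) (r : K₀[X]) :
    φ (aeval s r) = aeval (φ s) (r.map (algebraMap K₀ K)) := by
  rw [aeval_def, aeval_def, Polynomial.hom_eval₂, Polynomial.eval₂_map]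
  congr 1
  ext c
  exact hφ c

include hφ in
/-- `φ` maps `K₀(s)` into `K(φ s)` -/
theorem map_mem_adjoin_simple (s : E₀) {c : E₀} (hc : c ∈ K₀⟮s⟯) : φ c ∈ K⟮φ s⟯ := by
  obtain ⟨r, t, hrt⟩ := (IntermediateField.mem_adjoin_simple_iff K₀ c).mp hc
  rw [hrt, map_div₀, map_aeval_eq φ hφ, map_aeval_eq φ hφ]
  exact (IntermediateField.mem_adjoin_simple_iff K _).mpr ⟨_, _, rfl⟩

include hφ in
/-- **Spanning after base change (ambient form).** -/
theorem mem_span_of_mem_adjoin_image (F₀ : IntermediateField K₀ E₀) (s : E₀) {n : ℕ}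
    (b : Fin n → E₀) (hb : ∀ i, b i ∈ F₀)
    (hspan : ∀ x ∈ F₀, x ∈ Submodule.span K₀⟮s⟯ (Set.range b))
    (y : E) (hy : y ∈ IntermediateField.adjoin K (φ '' (F₀ : Set E₀))) :
    y ∈ Submodule.span K⟮φ s⟯ (Set.range fun i => φ (b i)) := by
  classical
  set V : Submodule K⟮φ s⟯ E := Submodule.span K⟮φ s⟯ (Set.range fun i => φ (b i)) with hV
  -- (i) the image of `F₀` lies in `V`
  have hi' : ∀ x, x ∈ Submodule.span K₀⟮s⟯ (Set.range b) → φ x ∈ V := by
    intro x hx'
    induction hx' using Submodule.span_induction with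
    | mem z hz =>
      obtain ⟨i, rfl⟩ := hz
      exact Submodule.subset_span ⟨i, rfl⟩
    | zero => rw [map_zero]; exact V.zero_mem
    | add z w _ _ hz hw => rw [map_add]; exact V.add_mem hz hw
    | smul c z _ hz =>
      have : φ (c • z) = (⟨φ (c : E₀), map_mem_adjoin_simple φ hφ s c.2⟩ : K⟮φ s⟯) • φ z := by
        rw [Algebra.smul_def, map_mul]
        rfl
      rw [this]
      exact V.smul_mem _ hz
  have hi : ∀ x ∈ F₀, φ x ∈ V := fun x hx => hi' x (hspan x hx)
  -- (ii) `V` is a subalgebra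
  have h1 : (1 : E) ∈ V := by
    have := hi 1 F₀.one_mem
    rwa [map_one] at this
  have hmul : ∀ x y, x ∈ V → y ∈ V → x * y ∈ V := by
    intro x y hx hy
    have hle : V * V ≤ V := by
      rw [hV, Submodule.span_mul_span, Submodule.span_le]
      rintro _ ⟨_, ⟨i, rfl⟩, _, ⟨j, rfl⟩, rfl⟩
      have := hi (b i * b j) (F₀.mul_mem (hb i) (hb j))
      rwa [map_mul] at this
    exact hle (Submodule.mul_mem_mul hx hy)
  set Valg : Subalgebra K⟮φ s⟯ E := V.toSubalgebra h1 hmul with hValg
  have hfg : (Subalgebra.toSubmodule Valg).FG := by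
    have : Subalgebra.toSubmodule Valg = V := rfl
    rw [this, hV]
    exact Submodule.fg_span (Set.finite_range _)
  have hinv : ∀ x ∈ Valg.restrictScalars K, x⁻¹ ∈ Valg.restrictScalars K := by
    intro x hx
    have hx' : x ∈ Valg := hx
    have hint : IsIntegral K⟮φ s⟯ x := IsIntegral.of_mem_of_fg Valg hfg x hx'
    exact Valg.inv_mem_of_algebraic (x := ⟨x, hx'⟩) hint.isAlgebraic
  set VF : IntermediateField K E := (Valg.restrictScalars K).toIntermediateField hinv with hVF
  have hle : IntermediateField.adjoin K (φ '' (F₀ : Set E₀)) ≤ VF := by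
    rw [IntermediateField.adjoin_le_iff]
    rintro _ ⟨x, hx, rfl⟩
    exact hi x hx
  exact hle hy

end Span

section Degree

variable {K₀ K E₀ E : Type*} [Field K₀] [Field K] [Field E₀] [Field E] [Algebra K₀ K]
  [Algebra K₀ E₀] [Algebra K E] (φ : E₀ →+* E)
  (hφ : ∀ c : K₀, φ (algebraMap K₀ E₀ c) = algebraMap K E (algebraMap K₀ K c))

include hφ in
/-- **(c2)** the degree over the chart does not grow under base change of the constants. -/
theorem finrank_baseChange_le (F₀ : IntermediateField K₀ E₀) (s₀ : F₀)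
    [FiniteDimensional K₀⟮s₀⟯ F₀] (F : IntermediateField K E)
    (hF : F = IntermediateField.adjoin K (φ '' (F₀ : Set E₀)))
    (s' : F) (hs' : (s' : E) = φ (s₀ : E₀)) :
    FiniteDimensional K⟮s'⟯ F ∧ Module.finrank K⟮s'⟯ F ≤ Module.finrank K₀⟮s₀⟯ F₀ := by
  classical
  have hfree : Module.Free K₀⟮s₀⟯ F₀ := Module.Free.of_divisionRing _ _
  set n := Module.finrank K₀⟮s₀⟯ F₀ with hn
  let b₀ : Module.Basis (Fin n) K₀⟮s₀⟯ F₀ := Module.finBasis K₀⟮s₀⟯ F₀
  have hmemF : ∀ x ∈ F₀, φ x ∈ F := by
    intro x hx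
    rw [hF]
    exact IntermediateField.subset_adjoin K _ ⟨x, hx, rfl⟩
  set w : Fin n → F := fun i => ⟨φ ((b₀ i : F₀) : E₀), hmemF _ (b₀ i).2⟩ with hw
  have hspan₀ : ∀ x ∈ F₀, x ∈ Submodule.span K₀⟮(s₀ : E₀)⟯
      (Set.range fun i => ((b₀ i : F₀) : E₀)) := fun x hx =>
    mem_ambient_span_of_internal F₀ s₀ (fun i => b₀ i) b₀.span_eq ⟨x, hx⟩
  have hamb : ∀ y : F, (y : E) ∈ Submodule.span K⟮(s' : E)⟯ (Set.range fun i => (w i : E)) := by
    intro y
    have hy : (y : E) ∈ IntermediateField.adjoin K (φ '' (F₀ : Set E₀)) := by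
      rw [← hF]; exact y.2
    have := mem_span_of_mem_adjoin_image φ hφ F₀ (s₀ : E₀) (fun i => ((b₀ i : F₀) : E₀))
      (fun i => (b₀ i).2) hspan₀ (y : E) hy
    rw [← hs'] at this
    exact this
  have htop := span_eq_top_of_ambient F s' w hamb
  have hfin : Module.Finite K⟮s'⟯ F :=
    Module.finite_def.mpr (by rw [← htop]; exact Submodule.fg_span (Set.finite_range w))
  refine ⟨hfin, ?_⟩
  calc Module.finrank K⟮s'⟯ F
      = Module.finrank K⟮s'⟯ (⊤ : Submodule K⟮s'⟯ F) := by simp
    _ = (Set.range w).finrank K⟮s'⟯ := by rw [← htop]; rfl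
    _ ≤ Fintype.card (Fin n) := finrank_range_le_card w
    _ = n := Fintype.card_fin n

end Degree

section Laurent

open ModularCurve

variable {K₀ K : Type*} [Field K₀] [Field K] [Algebra K₀ K]

/-- **(c1)** the degree over the chart does not drop under base change of the constants
(Laurent series, coefficientwise map). -/
theorem finrank_le_baseChange (F₀ : IntermediateField K₀ (LaurentSeries K₀)) (s₀ : F₀)
    (F : IntermediateField K (LaurentSeries K))
    (hF : ∀ x ∈ F₀, coeffMap (algebraMap K₀ K) x ∈ F) (s' : F)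
    (hs' : (s' : LaurentSeries K) = coeffMap (algebraMap K₀ K) (s₀ : LaurentSeries K₀))
    [FiniteDimensional K⟮s'⟯ F] :
    FiniteDimensional K₀⟮s₀⟯ F₀ ∧ Module.finrank K₀⟮s₀⟯ F₀ ≤ Module.finrank K⟮s'⟯ F := by
  classical
  have hbound : ∀ t : Finset F₀, LinearIndependent K₀⟮s₀⟯ (fun v : t => (v : F₀)) →
      t.card ≤ Module.finrank K⟮s'⟯ F := by
    intro t ht
    have h1 := linearIndependent_ambient_of_internal F₀ s₀ (fun v : t => (v : F₀)) ht
    have h2 := linearIndependent_coeffMap (K := K) (s₀ : LaurentSeries K₀)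
      (fun v : t => (((v : F₀)) : LaurentSeries K₀)) h1
    rw [← hs'] at h2
    have h3 := linearIndependent_internal_of_ambient F s'
      (fun v : t => (⟨coeffMap (algebraMap K₀ K) ((v : F₀) : LaurentSeries K₀),
        hF _ (v : F₀).2⟩ : F)) h2
    simpa using h3.fintype_card_le_finrank
  have hrank : Module.rank K₀⟮s₀⟯ F₀ ≤ (Module.finrank K⟮s'⟯ F : Cardinal) := rank_le hbound
  have hfree : Module.Free K₀⟮s₀⟯ F₀ := Module.Free.of_divisionRing _ _
  have hfd : FiniteDimensional K₀⟮s₀⟯ F₀ :=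
    Module.rank_lt_aleph0_iff.mp (lt_of_le_of_lt hrank (Cardinal.natCast_lt_aleph0))
  exact ⟨hfd, Module.finrank_le_of_rank_le hrank⟩

/-- `coeffMap` is compatible with the constants -/
theorem coeffMap_algebraMap_const (c : K₀) :
    coeffMap (algebraMap K₀ K) (algebraMap K₀ (LaurentSeries K₀) c) =
      algebraMap K (LaurentSeries K) (algebraMap K₀ K c) := by
  rw [algebraMap_laurentSeries_eq_single, algebraMap_laurentSeries_eq_single, coeffMap_single]

/-- **Invariance of the degree over the chart** under base change of the constants, for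
`F = K · coeffMap(F₀)`. -/
theorem finrank_baseChange_eq (F₀ : IntermediateField K₀ (LaurentSeries K₀)) (s₀ : F₀)
    (F : IntermediateField K (LaurentSeries K))
    (hF : F = IntermediateField.adjoin K
      (⇑(coeffMap (algebraMap K₀ K)) '' (F₀ : Set (LaurentSeries K₀))))
    (s' : F)
    (hs' : (s' : LaurentSeries K) = coeffMap (algebraMap K₀ K) (s₀ : LaurentSeries K₀))
    [FiniteDimensional K⟮s'⟯ F] :
    FiniteDimensional K₀⟮s₀⟯ F₀ ∧ Module.finrank K₀⟮s₀⟯ F₀ = Module.finrank K⟮s'⟯ F := by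
  have hmem : ∀ x ∈ F₀, coeffMap (algebraMap K₀ K) x ∈ F := by
    intro x hx
    rw [hF]
    exact IntermediateField.subset_adjoin K _ ⟨x, hx, rfl⟩
  obtain ⟨hfd, hle⟩ := finrank_le_baseChange F₀ s₀ F hmem s' hs'
  have hge := (finrank_baseChange_le (coeffMap (algebraMap K₀ K)) coeffMap_algebraMap_const
    F₀ s₀ F hF s' hs').2
  exact ⟨hfd, le_antisymm hle hge⟩

end Laurent

end Fermat.Agent.GJ.AuxLevel.Deg
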