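import Mathlib
import Fermat.Agent.S24.PlaceBasic

/-!
# GATE-J / J1-AUX / AUX-BR, part 2: generic ramification bookkeeping for `K(t) / K(j)`

`F / K` a field with the prelude's places, `t j : F` with `j · Q(t) = P(t)` (`P Q : K[X]`).
If `P - j₀ Q = (X - c)^e · G` with `Q(c) ≠ 0`, `G(c) ≠ 0`, then for every place `v` of `F` with
`v.ord (t - c) > 0` one has `v.ord (j - j₀) = e · v.ord (t - c)`.
-/

set_option autoImplicit false

noncomputable section

namespace Fermat.Agent.GJ.Aux.Branch

open AlgebraicCurve Polynomial Fermat.Agent.S24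

variable {K F : Type*} [Field K] [Field F] [Algebra K F] (v : Place K F)

theorem ne_zero_of_ord_pos {f : F} (h : 0 < v.ord f) : f ≠ 0 := by
  rintro rfl
  simp at h

theorem ne_zero_of_ord_neg {f : F} (h : v.ord f < 0) : f ≠ 0 := by
  rintro rfl
  simp at h

/-- the ultrametric equality: the term of smaller order wins -/
theorem ord_add_eq_of_lt {f g : F} (hf : f ≠ 0) (hg : g ≠ 0) (h : v.ord f < v.ord g) :
    f + g ≠ 0 ∧ v.ord (f + g) = v.ord f := by
  have hne : f + g ≠ 0 := by
    intro h0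
    have hgf : g = -f := by
      rw [eq_neg_iff_add_eq_zero, add_comm]
      exact h0
    rw [hgf, PlaceB.ord_neg] at h
    exact lt_irrefl _ h
  refine ⟨hne, le_antisymm ?_ ?_⟩
  · by_contra hlt
    push Not at hlt
    have hfg : f + g + -g = f := by ring
    have h1 := PlaceB.ord_add_ge v hne (neg_ne_zero.mpr hg) (by rw [hfg]; exact hf)
    rw [PlaceB.ord_neg, hfg] at h1
    have h2 := lt_min hlt h
    exact absurd h1 (not_le.mpr h2)
  · have h1 := PlaceB.ord_add_ge v hf hg hne
    rwa [min_eq_left h.le] at h1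

theorem aeval_mem {t : F} (ht : t ∈ v.toValuationSubring) (p : K[X]) :
    aeval t p ∈ v.toValuationSubring := by
  induction p using Polynomial.induction_on' with
  | add p q hp hq =>
    rw [map_add]
    exact add_mem hp hq
  | monomial n a =>
    rw [aeval_monomial]
    exact mul_mem (v.algebraMap_mem' a) (pow_mem ht n)

theorem mem_of_ord_sub_pos {t : F} {c : K} (h : 0 < v.ord (t - algebraMap K F c)) :
    t ∈ v.toValuationSubring := by
  have h1 : t - algebraMap K F c ∈ v.toValuationSubring :=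
    (PlaceB.ord_nonneg_iff v (ne_zero_of_ord_pos v h)).mp h.le
  have h2 := add_mem h1 (v.algebraMap_mem' c)
  rwa [sub_add_cancel] at h2

/-- a polynomial in `t` not vanishing at `c` is a unit at every place where `t ≡ c` -/
theorem aeval_ne_zero_and_ord_eq_zero {t : F} {c : K} (h : 0 < v.ord (t - algebraMap K F c))
    (p : K[X]) (hp : p.eval c ≠ 0) : aeval t p ≠ 0 ∧ v.ord (aeval t p) = 0 := by
  have hpq : p = C (p.eval c) + (X - C c) * (p /ₘ (X - C c)) := by
    have h1 := modByMonic_add_div p (X - C c)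
    rw [modByMonic_X_sub_C_eq_C_eval] at h1
    exact h1.symm
  have hev : aeval t p
      = algebraMap K F (p.eval c) + (t - algebraMap K F c) * aeval t (p /ₘ (X - C c)) := by
    conv_lhs => rw [hpq]
    simp only [map_add, map_mul, map_sub, aeval_C, aeval_X]
  have ha0 : algebraMap K F (p.eval c) ≠ 0 := by
    rwa [Ne, map_eq_zero_iff _ (algebraMap K F).injective]
  have ha : v.ord (algebraMap K F (p.eval c)) = 0 := PlaceB.ord_algebraMap v hp
  rw [hev]
  by_cases hq : aeval t (p /ₘ (X - C c)) = 0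
  · rw [hq, mul_zero, add_zero]
    exact ⟨ha0, ha⟩
  · have hq' : 0 ≤ v.ord (aeval t (p /ₘ (X - C c))) :=
      (PlaceB.ord_nonneg_iff v hq).mpr (aeval_mem v (mem_of_ord_sub_pos v h) _)
    have hb0 : (t - algebraMap K F c) * aeval t (p /ₘ (X - C c)) ≠ 0 :=
      mul_ne_zero (ne_zero_of_ord_pos v h) hq
    have hb : v.ord (algebraMap K F (p.eval c))
        < v.ord ((t - algebraMap K F c) * aeval t (p /ₘ (X - C c))) := by
      rw [ha, v.ord_mul (ne_zero_of_ord_pos v h) hq]
      omega
    obtain ⟨h1, h2⟩ := ord_add_eq_of_lt v ha0 hb0 hb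
    exact ⟨h1, h2.trans ha⟩

/-- **Ramification bookkeeping.** If `j · Q(t) = P(t)` and `P - j₀ Q = (X - c)^e G` with
`Q(c) ≠ 0 ≠ G(c)` then `ord_v (j - j₀) = e · ord_v (t - c)` at every place with `t ≡ c`. -/
theorem ord_sub_eq_mul {t j : F} {c j0 : K} {P Q G : K[X]} {e : ℕ}
    (hrel : j * aeval t Q = aeval t P)
    (hfac : P - C j0 * Q = (X - C c) ^ e * G)
    (hQ : Q.eval c ≠ 0) (hG : G.eval c ≠ 0)
    (h : 0 < v.ord (t - algebraMap K F c)) :
    v.ord (j - algebraMap K F j0) = e * v.ord (t - algebraMap K F c) := by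
  obtain ⟨hQ0, hQ1⟩ := aeval_ne_zero_and_ord_eq_zero v h Q hQ
  obtain ⟨hG0, hG1⟩ := aeval_ne_zero_and_ord_eq_zero v h G hG
  have htc := ne_zero_of_ord_pos v h
  have hkey : (j - algebraMap K F j0) * aeval t Q
      = (t - algebraMap K F c) ^ e * aeval t G := by
    have h1 := congrArg (aeval t) hfac
    simp only [map_sub, map_mul, map_pow, aeval_C, aeval_X] at h1
    rw [sub_mul, hrel, h1]
  have hne : j - algebraMap K F j0 ≠ 0 := by
    intro h0
    rw [h0, zero_mul] at hkey
    exact mul_ne_zero (pow_ne_zero e htc) hG0 hkey.symm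
  have h2 := congrArg v.ord hkey
  rw [v.ord_mul hne hQ0, v.ord_mul (pow_ne_zero e htc) hG0, hQ1, hG1, add_zero, add_zero,
    ← zpow_natCast, v.ord_zpow] at h2
  exact h2

/-- variant at a pole of `t`: if `ord_v t < 0` then `ord_v (aeval t p) = deg p · ord_v t`. -/
theorem ord_aeval_of_ord_neg {t : F} (h : v.ord t < 0) (p : K[X]) (hp : p ≠ 0) :
    aeval t p ≠ 0 ∧ v.ord (aeval t p) = p.natDegree * v.ord t := by
  have ht0 := ne_zero_of_ord_neg v h
  -- work with `s = t⁻¹` and the reversed polynomial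
  have hs : 0 < v.ord (t⁻¹ - algebraMap K F 0) := by
    rw [map_zero, sub_zero, v.ord_inv]
    omega
  have hrev : (p.reverse).eval 0 ≠ 0 := by
    rw [← coeff_zero_eq_eval_zero, coeff_zero_reverse]
    exact leadingCoeff_ne_zero.mpr hp
  obtain ⟨h1, h2⟩ := aeval_ne_zero_and_ord_eq_zero v hs p.reverse hrev
  have hkey : aeval t p = t ^ p.natDegree * aeval t⁻¹ p.reverse := by
    letI : Invertible t := invertibleOfNonzero ht0
    have h3 := eval₂_reverse_mul_pow (algebraMap K F) t p
    rw [invOf_eq_inv] at h3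
    rw [aeval_def, aeval_def, ← h3, mul_comm]
  rw [hkey]
  refine ⟨mul_ne_zero (pow_ne_zero _ ht0) h1, ?_⟩
  rw [v.ord_mul (pow_ne_zero _ ht0) h1, h2, add_zero, ← zpow_natCast, v.ord_zpow]

end Fermat.Agent.GJ.Aux.Branch
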