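import Mathlib
import Fermat.Agent.GJ.AuxLevel.BranchGen

/-!
# GATE-J / J1-AUX / AUX-BR, part 3: branch data of `F / K(t)` for the two Hauptmoduln

Abstract form: `F / K` (char `0`) with `j t : F`, the relation
`j · t² = (t + 256)³` (level `2`) resp. `j · t³ = (t + 27)(t + 243)³` (level `3`), and the
ramification behaviour `JRam` of `F / K(j)` at a place `v` (from T24: unramified outside
`0, 1728, ∞`, index `∣ 2` over `1728`, `∣ 3` over `0`).  Then `F / K(t)` is unramified at `v`
unless `t(v) ∈ {0, ∞, β}`, `β = 512` resp. `-27`, and over `β` the index divides `2` resp. `3`.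
-/

set_option autoImplicit false

noncomputable section

namespace Fermat.Agent.GJ.Aux.Branch

open AlgebraicCurve Polynomial Fermat.Agent.S24

variable {K F : Type*} [Field K] [Field F] [Algebra K F]

/-- the ramification behaviour of `F / K(j)` at the place `v` over the finite values of `j` -/
structure JRam (v : Place K F) (j : F) : Prop where
  gen : ∀ c : K, c ≠ 0 → c ≠ 1728 → 0 < v.ord (j - algebraMap K F c) →
    v.ord (j - algebraMap K F c) = 1
  at1728 : 0 < v.ord (j - algebraMap K F 1728) → v.ord (j - algebraMap K F 1728) ∣ 2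
  at0 : 0 < v.ord (j - algebraMap K F 0) → v.ord (j - algebraMap K F 0) ∣ 3

/-- non-critical points: if `c` is a simple root of `P - j₀ Q` then `ord (j - j₀) = ord (t - c)` -/
theorem ord_sub_eq_of_simple (v : Place K F) {t j : F} {c j0 : K} {P Q : K[X]}
    (hrel : j * aeval t Q = aeval t P)
    (hroot : P.eval c = j0 * Q.eval c) (hQ : Q.eval c ≠ 0)
    (hder : (derivative P).eval c ≠ j0 * (derivative Q).eval c)
    (h : 0 < v.ord (t - algebraMap K F c)) :
    v.ord (j - algebraMap K F j0) = v.ord (t - algebraMap K F c) := by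
  have hr : (P - C j0 * Q).IsRoot c := by
    rw [IsRoot.def, eval_sub, eval_mul, eval_C, hroot, sub_self]
  have hfac : P - C j0 * Q = (X - C c) ^ 1 * ((P - C j0 * Q) /ₘ (X - C c)) := by
    rw [pow_one]
    exact (mul_divByMonic_eq_iff_isRoot.mpr hr).symm
  have hG : ((P - C j0 * Q) /ₘ (X - C c)).eval c ≠ 0 := by
    intro h0
    apply hder
    have h1 := congrArg (fun p => (derivative p).eval c) hfac
    simp only [pow_one, derivative_mul, derivative_sub, derivative_X, derivative_C, sub_zero,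
      one_mul, eval_add, eval_mul, eval_sub, eval_X, eval_C, sub_self, zero_mul, add_zero,
      h0, zero_add] at h1
    exact sub_eq_zero.mp h1
  have := ord_sub_eq_mul v hrel hfac hQ hG h
  rwa [Nat.cast_one, one_mul] at this

theorem eq_one_of_mul_dvd {n : ℤ} {e : ℕ} (he : 0 < e) (hn : 0 < n) (h : (e : ℤ) * n ∣ e) :
    n = 1 := by
  obtain ⟨k, hk⟩ := h
  have he' : (e : ℤ) ≠ 0 := by exact_mod_cast he.ne'
  have h1 : n * k = 1 := by
    have : (e : ℤ) * (n * k) = e * 1 := by rw [mul_one, ← mul_assoc, ← hk]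
    exact mul_left_cancel₀ he' this
  exact Int.eq_one_of_mul_eq_one_right hn.le h1

section Two

variable [CharZero K] {v : Place K F} {j t : F}

theorem t2_rel (hrel : j * t ^ 2 = (t + 256) ^ 3) :
    j * aeval t (X ^ 2 : K[X]) = aeval t ((X + C 256) ^ 3 : K[X]) := by
  simp only [map_pow, map_add, aeval_X, aeval_C, map_ofNat]
  exact hrel

/-- level `2`, `c = -256` (`j = 0`, `e(t/j) = 3`) -/
theorem t2_ord_neg256 (hJ : JRam v j) (hrel : j * t ^ 2 = (t + 256) ^ 3)
    (h : 0 < v.ord (t - algebraMap K F (-256))) : v.ord (t - algebraMap K F (-256)) = 1 := by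
  have hfac : ((X + C 256) ^ 3 : K[X]) - C 0 * X ^ 2 = (X - C (-256)) ^ 3 * 1 := by
    simp only [map_zero, map_neg, zero_mul, sub_zero, mul_one, sub_neg_eq_add]
  have h1 := ord_sub_eq_mul v (t2_rel hrel) hfac (by simp) (by simp) h
  have h2 : 0 < v.ord (j - algebraMap K F 0) := by
    rw [h1]; exact mul_pos (by norm_num) h
  have h3 := hJ.at0 h2
  rw [h1] at h3
  exact eq_one_of_mul_dvd (e := 3) (by norm_num) h (by exact_mod_cast h3)

/-- level `2`, `c = 512` (`j = 1728`, `e(t/j) = 2`) -/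
theorem t2_ord_512 (hJ : JRam v j) (hrel : j * t ^ 2 = (t + 256) ^ 3)
    (h : 0 < v.ord (t - algebraMap K F 512)) : v.ord (t - algebraMap K F 512) = 1 := by
  have hfac : ((X + C 256) ^ 3 : K[X]) - C 1728 * X ^ 2 = (X - C 512) ^ 2 * (X + C 64) := by
    simp only [map_ofNat]
    ring
  have h1 := ord_sub_eq_mul v (t2_rel hrel) hfac (by simp) (by
    simp only [eval_add, eval_X, eval_C]; norm_num) h
  have h2 : 0 < v.ord (j - algebraMap K F 1728) := by
    rw [h1]; exact mul_pos (by norm_num) h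
  have h3 := hJ.at1728 h2
  rw [h1] at h3
  exact eq_one_of_mul_dvd (e := 2) (by norm_num) h (by exact_mod_cast h3)

/-- level `2`, the third branch value `β = -64` (`j = 1728`, `e(t/j) = 1`; this is the elliptic
point of order `2` of `Γ₀(2)`) -/
theorem t2_ord_beta_dvd (hJ : JRam v j) (hrel : j * t ^ 2 = (t + 256) ^ 3)
    (h : 0 < v.ord (t - algebraMap K F (-64))) : v.ord (t - algebraMap K F (-64)) ∣ 2 := by
  have hfac : ((X + C 256) ^ 3 : K[X]) - C 1728 * X ^ 2
      = (X - C (-64)) ^ 1 * (X - C 512) ^ 2 := by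
    simp only [map_neg, sub_neg_eq_add, map_ofNat]
    ring
  have h1 := ord_sub_eq_mul v (t2_rel hrel) hfac (by simp) (by
    simp only [eval_pow, eval_sub, eval_X, eval_C]; norm_num) h
  rw [Nat.cast_one, one_mul] at h1
  have h2 : 0 < v.ord (j - algebraMap K F 1728) := by
    rw [h1]; exact h
  have h3 := hJ.at1728 h2
  rwa [h1] at h3

/-- **level `2`: `F / K(t)` is unramified outside `t ∈ {0, ∞, -64}`.** -/
theorem t2_unramified_of_ne (hJ : JRam v j) (hrel : j * t ^ 2 = (t + 256) ^ 3) (c : K)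
    (hc0 : c ≠ 0) (hcb : c ≠ -64) (h : 0 < v.ord (t - algebraMap K F c)) :
    v.ord (t - algebraMap K F c) = 1 := by
  by_cases h256 : c = -256
  · subst h256; exact t2_ord_neg256 hJ hrel h
  by_cases h512 : c = 512
  · subst h512; exact t2_ord_512 hJ hrel h
  have h256' : c + 256 ≠ 0 := fun h0 => h256 (eq_neg_of_add_eq_zero_left h0)
  have h64' : c + 64 ≠ 0 := fun h0 => hcb (eq_neg_of_add_eq_zero_left h0)
  have h512' : c - 512 ≠ 0 := sub_ne_zero.mpr h512
  have hj0 : (c + 256) ^ 3 / c ^ 2 * c ^ 2 = (c + 256) ^ 3 := by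
    field_simp
  have h1 := ord_sub_eq_of_simple v (c := c) (j0 := (c + 256) ^ 3 / c ^ 2) (t2_rel hrel)
    (by simp only [eval_pow, eval_add, eval_X, eval_C]; exact hj0.symm)
    (by simp only [eval_pow, eval_X]; exact pow_ne_zero 2 hc0)
    (by
      simp only [derivative_pow, derivative_add, derivative_X, derivative_C, add_zero, mul_one,
        eval_mul, eval_pow, eval_add, eval_X, eval_C, Nat.cast_ofNat, Nat.add_one_sub_one,
        pow_one]
      intro h0
      have h2 : c * (3 * (c + 256) ^ 2) = (c + 256) ^ 2 * (c - 512) + 2 * (c + 256) ^ 3 := by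
        ring
      have h3 : c * ((c + 256) ^ 3 / c ^ 2 * (2 * c)) = 2 * (c + 256) ^ 3 := by
        field_simp
      have h4 : (c + 256) ^ 2 * (c - 512) = 0 := by
        have := congrArg (fun x => c * x) h0
        rw [h2, h3] at this
        exact add_eq_right.mp this
      exact mul_ne_zero (pow_ne_zero 2 h256') h512' h4) h
  have hj00 : (c + 256) ^ 3 / c ^ 2 ≠ 0 := div_ne_zero (pow_ne_zero 3 h256') (pow_ne_zero 2 hc0)
  have hj01 : (c + 256) ^ 3 / c ^ 2 ≠ 1728 := by
    intro h0
    rw [div_eq_iff (pow_ne_zero 2 hc0)] at h0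
    have h4 : (c - 512) ^ 2 * (c + 64) = 0 := by
      have : (c - 512) ^ 2 * (c + 64) = (c + 256) ^ 3 - 1728 * c ^ 2 := by ring
      rw [this, h0, sub_self]
    exact mul_ne_zero (pow_ne_zero 2 h512') h64' h4
  have h2 := hJ.gen _ hj00 hj01 (by rw [h1]; exact h)
  rw [← h1]
  exact h2

end Two

section Three

variable [CharZero K] {v : Place K F} {j t : F}

theorem t3_rel (hrel : j * t ^ 3 = (t + 27) * (t + 243) ^ 3) :
    j * aeval t (X ^ 3 : K[X]) = aeval t ((X + C 27) * (X + C 243) ^ 3 : K[X]) := by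
  simp only [map_pow, map_mul, map_add, aeval_X, aeval_C, map_ofNat]
  exact hrel

/-- level `3`, `c = -243` (`j = 0`, `e(t/j) = 3`) -/
theorem t3_ord_neg243 (hJ : JRam v j) (hrel : j * t ^ 3 = (t + 27) * (t + 243) ^ 3)
    (h : 0 < v.ord (t - algebraMap K F (-243))) : v.ord (t - algebraMap K F (-243)) = 1 := by
  have hfac : ((X + C 27) * (X + C 243) ^ 3 : K[X]) - C 0 * X ^ 3
      = (X - C (-243)) ^ 3 * (X + C 27) := by
    simp only [map_zero, map_neg, zero_mul, sub_zero, sub_neg_eq_add]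
    ring
  have h1 := ord_sub_eq_mul v (t3_rel hrel) hfac (by
    simp only [eval_pow, eval_X]; norm_num) (by
    simp only [eval_add, eval_X, eval_C]; norm_num) h
  have h2 : 0 < v.ord (j - algebraMap K F 0) := by
    rw [h1]; exact mul_pos (by norm_num) h
  have h3 := hJ.at0 h2
  rw [h1] at h3
  exact eq_one_of_mul_dvd (e := 3) (by norm_num) h (by exact_mod_cast h3)

/-- level `3`, the third branch value `β = -27` (`j = 0`, `e(t/j) = 1`; the elliptic point of
order `3` of `Γ₀(3)`) -/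
theorem t3_ord_beta_dvd (hJ : JRam v j) (hrel : j * t ^ 3 = (t + 27) * (t + 243) ^ 3)
    (h : 0 < v.ord (t - algebraMap K F (-27))) : v.ord (t - algebraMap K F (-27)) ∣ 3 := by
  have hfac : ((X + C 27) * (X + C 243) ^ 3 : K[X]) - C 0 * X ^ 3
      = (X - C (-27)) ^ 1 * (X + C 243) ^ 3 := by
    simp only [map_zero, map_neg, zero_mul, sub_zero, sub_neg_eq_add, pow_one]
  have h1 := ord_sub_eq_mul v (t3_rel hrel) hfac (by
    simp only [eval_pow, eval_X]; norm_num) (by
    simp only [eval_pow, eval_add, eval_X, eval_C]; norm_num) h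
  rw [Nat.cast_one, one_mul] at h1
  have h2 : 0 < v.ord (j - algebraMap K F 0) := by
    rw [h1]; exact h
  have h3 := hJ.at0 h2
  rwa [h1] at h3

/-- level `3`, the two critical points over `j = 1728`: the roots of `T² - 486 T - 19683`
(`e(t/j) = 2`) -/
theorem t3_ord_root (hJ : JRam v j) (hrel : j * t ^ 3 = (t + 27) * (t + 243) ^ 3) (c : K)
    (hr : c ^ 2 - 486 * c - 19683 = 0)
    (h : 0 < v.ord (t - algebraMap K F c)) : v.ord (t - algebraMap K F c) = 1 := by
  have hc0 : c ≠ 0 := by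
    rintro rfl
    norm_num at hr
  have hc243 : 2 * c - 486 ≠ 0 := by
    intro h0
    have hc : c = 243 := by
      have : 2 * c = 2 * 243 := by rw [sub_eq_zero.mp h0]; norm_num
      exact mul_left_cancel₀ two_ne_zero this
    rw [hc] at hr
    norm_num at hr
  have hr' : (C c : K[X]) ^ 2 - 486 * C c - 19683 = 0 := by
    have := congrArg (C : K → K[X]) hr
    simpa only [map_sub, map_mul, map_pow, map_ofNat, map_zero] using this
  have hfac : ((X + C 27) * (X + C 243) ^ 3 : K[X]) - C 1728 * X ^ 3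
      = (X - C c) ^ 2 * (X - C (486 - c)) ^ 2 := by
    have key : ((X + C 27) * (X + C 243) ^ 3 : K[X]) - C 1728 * X ^ 3
        - (X - C c) ^ 2 * (X - C (486 - c)) ^ 2
        = ((C c : K[X]) ^ 2 - 486 * C c - 19683)
          * (2 * (X ^ 2 - 486 * X - 19683) - ((C c : K[X]) ^ 2 - 486 * C c - 19683)) := by
      simp only [map_sub, map_ofNat]
      ring
    rw [hr', zero_mul] at key
    exact sub_eq_zero.mp key
  have h1 := ord_sub_eq_mul v (t3_rel hrel) hfac (by
    simp only [eval_pow, eval_X]; exact pow_ne_zero 3 hc0) (by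
    simp only [eval_pow, eval_sub, eval_X, eval_C]
    have : c - (486 - c) = 2 * c - 486 := by ring
    rw [this]
    exact pow_ne_zero 2 hc243) h
  have h2 : 0 < v.ord (j - algebraMap K F 1728) := by
    rw [h1]; exact mul_pos (by norm_num) h
  have h3 := hJ.at1728 h2
  rw [h1] at h3
  exact eq_one_of_mul_dvd (e := 2) (by norm_num) h (by exact_mod_cast h3)

/-- **level `3`: `F / K(t)` is unramified outside `t ∈ {0, ∞, -27}`.** -/
theorem t3_unramified_of_ne (hJ : JRam v j) (hrel : j * t ^ 3 = (t + 27) * (t + 243) ^ 3) (c : K)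
    (hc0 : c ≠ 0) (hcb : c ≠ -27) (h : 0 < v.ord (t - algebraMap K F c)) :
    v.ord (t - algebraMap K F c) = 1 := by
  by_cases h243 : c = -243
  · subst h243; exact t3_ord_neg243 hJ hrel h
  by_cases hr : c ^ 2 - 486 * c - 19683 = 0
  · exact t3_ord_root hJ hrel c hr h
  have h243' : c + 243 ≠ 0 := fun h0 => h243 (eq_neg_of_add_eq_zero_left h0)
  have h27' : c + 27 ≠ 0 := fun h0 => hcb (eq_neg_of_add_eq_zero_left h0)
  have hj0 : (c + 27) * (c + 243) ^ 3 / c ^ 3 * c ^ 3 = (c + 27) * (c + 243) ^ 3 := by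
    field_simp
  have hP : (derivative ((X + C 27) * (X + C 243) ^ 3 : K[X])).eval c
      = (c + 243) ^ 3 + 3 * (c + 27) * (c + 243) ^ 2 := by
    simp only [derivative_mul, derivative_pow, derivative_add, derivative_X, derivative_C,
      add_zero, mul_one, one_mul, eval_mul, eval_pow, eval_add, eval_X, eval_C, Nat.cast_ofNat,
      Nat.add_one_sub_one, eval_ofNat]
    ring
  have hQ : (derivative (X ^ 3 : K[X])).eval c = 3 * c ^ 2 := by
    simp only [derivative_X_pow, eval_mul, eval_pow, eval_X, Nat.cast_ofNat, Nat.add_one_sub_one,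
      eval_C]
  have h1 := ord_sub_eq_of_simple v (c := c) (j0 := (c + 27) * (c + 243) ^ 3 / c ^ 3)
    (t3_rel hrel)
    (by simp only [eval_mul, eval_pow, eval_add, eval_X, eval_C]; exact hj0.symm)
    (by simp only [eval_pow, eval_X]; exact pow_ne_zero 3 hc0)
    (by
      rw [hP, hQ]
      intro h0
      have h2 : c * ((c + 243) ^ 3 + 3 * (c + 27) * (c + 243) ^ 2)
          = (c + 243) ^ 2 * (c ^ 2 - 486 * c - 19683) + 3 * ((c + 27) * (c + 243) ^ 3) := by
        ring
      have h3 : c * ((c + 27) * (c + 243) ^ 3 / c ^ 3 * (3 * c ^ 2))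
          = 3 * ((c + 27) * (c + 243) ^ 3) := by
        field_simp
      have h4 : (c + 243) ^ 2 * (c ^ 2 - 486 * c - 19683) = 0 := by
        have := congrArg (fun x => c * x) h0
        rw [h2, h3] at this
        exact add_eq_right.mp this
      exact mul_ne_zero (pow_ne_zero 2 h243') hr h4) h
  have hj00 : (c + 27) * (c + 243) ^ 3 / c ^ 3 ≠ 0 :=
    div_ne_zero (mul_ne_zero h27' (pow_ne_zero 3 h243')) (pow_ne_zero 3 hc0)
  have hj01 : (c + 27) * (c + 243) ^ 3 / c ^ 3 ≠ 1728 := by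
    intro h0
    rw [div_eq_iff (pow_ne_zero 3 hc0)] at h0
    have h4 : (c ^ 2 - 486 * c - 19683) ^ 2 = 0 := by
      have : (c ^ 2 - 486 * c - 19683) ^ 2 = (c + 27) * (c + 243) ^ 3 - 1728 * c ^ 3 := by ring
      rw [this, h0, sub_self]
    exact pow_ne_zero 2 hr h4
  have h2 := hJ.gen _ hj00 hj01 (by rw [h1]; exact h)
  rw [← h1]
  exact h2

end Three

section Cusps

variable [CharZero K] {v : Place K F} {j t : F}

/-- level `2`, the cusp `t = 0`: `ord j = -2 ord t` -/
theorem t2_ord_j_of_ord_pos (hrel : j * t ^ 2 = (t + 256) ^ 3) (h : 0 < v.ord t) :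
    v.ord j = -2 * v.ord t := by
  have h' : 0 < v.ord (t - algebraMap K F 0) := by rwa [map_zero, sub_zero]
  obtain ⟨h1, h2⟩ := aeval_ne_zero_and_ord_eq_zero v h' ((X + C 256) ^ 3 : K[X]) (by
    simp only [eval_pow, eval_add, eval_X, eval_C]; norm_num)
  have ht0 := ne_zero_of_ord_pos v h
  have hrel' := t2_rel (K := K) hrel
  have hj0 : j ≠ 0 := by
    rintro rfl
    rw [zero_mul] at hrel'
    exact h1 hrel'.symm
  have hX : aeval t (X ^ 2 : K[X]) = t ^ 2 := by rw [map_pow, aeval_X]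
  rw [hX] at hrel'
  have h3 := congrArg v.ord hrel'
  rw [v.ord_mul hj0 (pow_ne_zero 2 ht0), ← zpow_natCast, v.ord_zpow, h2] at h3
  push_cast at h3
  linarith

/-- level `2`, the cusp `t = ∞`: `ord j = ord t` -/
theorem t2_ord_j_of_ord_neg (hrel : j * t ^ 2 = (t + 256) ^ 3) (h : v.ord t < 0) :
    v.ord j = v.ord t := by
  have hdeg : ((X + C 256) ^ 3 : K[X]).natDegree = 3 := by
    rw [natDegree_pow, natDegree_X_add_C]
  obtain ⟨h1, h2⟩ := ord_aeval_of_ord_neg v h ((X + C 256) ^ 3 : K[X])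
    (pow_ne_zero 3 (X_add_C_ne_zero 256))
  rw [hdeg] at h2
  have ht0 := ne_zero_of_ord_neg v h
  have hrel' := t2_rel (K := K) hrel
  have hj0 : j ≠ 0 := by
    rintro rfl
    rw [zero_mul] at hrel'
    exact h1 hrel'.symm
  have hX : aeval t (X ^ 2 : K[X]) = t ^ 2 := by rw [map_pow, aeval_X]
  rw [hX] at hrel'
  have h3 := congrArg v.ord hrel'
  rw [v.ord_mul hj0 (pow_ne_zero 2 ht0), ← zpow_natCast, v.ord_zpow, h2] at h3
  push_cast at h3
  linarith

/-- level `3`, the cusp `t = 0`: `ord j = -3 ord t` -/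
theorem t3_ord_j_of_ord_pos (hrel : j * t ^ 3 = (t + 27) * (t + 243) ^ 3) (h : 0 < v.ord t) :
    v.ord j = -3 * v.ord t := by
  have h' : 0 < v.ord (t - algebraMap K F 0) := by rwa [map_zero, sub_zero]
  obtain ⟨h1, h2⟩ := aeval_ne_zero_and_ord_eq_zero v h'
    ((X + C 27) * (X + C 243) ^ 3 : K[X]) (by
    simp only [eval_mul, eval_pow, eval_add, eval_X, eval_C]; norm_num)
  have ht0 := ne_zero_of_ord_pos v h
  have hrel' := t3_rel (K := K) hrel
  have hj0 : j ≠ 0 := by
    rintro rfl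
    rw [zero_mul] at hrel'
    exact h1 hrel'.symm
  have hX : aeval t (X ^ 3 : K[X]) = t ^ 3 := by rw [map_pow, aeval_X]
  rw [hX] at hrel'
  have h3 := congrArg v.ord hrel'
  rw [v.ord_mul hj0 (pow_ne_zero 3 ht0), ← zpow_natCast, v.ord_zpow, h2] at h3
  push_cast at h3
  linarith

/-- level `3`, the cusp `t = ∞`: `ord j = ord t` -/
theorem t3_ord_j_of_ord_neg (hrel : j * t ^ 3 = (t + 27) * (t + 243) ^ 3) (h : v.ord t < 0) :
    v.ord j = v.ord t := by
  have hdeg : ((X + C 27) * (X + C 243) ^ 3 : K[X]).natDegree = 4 := by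
    rw [natDegree_mul (X_add_C_ne_zero 27) (pow_ne_zero 3 (X_add_C_ne_zero 243)), natDegree_pow,
      natDegree_X_add_C, natDegree_X_add_C]
  obtain ⟨h1, h2⟩ := ord_aeval_of_ord_neg v h ((X + C 27) * (X + C 243) ^ 3 : K[X])
    (mul_ne_zero (X_add_C_ne_zero 27) (pow_ne_zero 3 (X_add_C_ne_zero 243)))
  rw [hdeg] at h2
  have ht0 := ne_zero_of_ord_neg v h
  have hrel' := t3_rel (K := K) hrel
  have hj0 : j ≠ 0 := by
    rintro rfl
    rw [zero_mul] at hrel'
    exact h1 hrel'.symm
  have hX : aeval t (X ^ 3 : K[X]) = t ^ 3 := by rw [map_pow, aeval_X]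
  rw [hX] at hrel'
  have h3 := congrArg v.ord hrel'
  rw [v.ord_mul hj0 (pow_ne_zero 3 ht0), ← zpow_natCast, v.ord_zpow, h2] at h3
  push_cast at h3
  linarith

end Cusps

end Fermat.Agent.GJ.Aux.Branch
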