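import Mathlib
import Fermat.Agent.GJ.J1.Val.GaussRedData
import Fermat.Agent.GJ.S37.ResidueDegree

/-!
# GATE-J / J1-AUX / M-DEG : final glue to the concrete reduction datum

For the Gauss reduction datum `Val.redData A F hGF` (helper45) and a chart `a ∈ A((q)) ∩ F` with
transcendental reduction: a family `z i ∈ A((q)) ∩ F` whose coefficientwise reductions are
linearly independent over `k(a~)` **inside `k((q))`** has at most `[Fres : k(red a)]` members, where
now `k(red a)` is the simple intermediate field of `Fres / k`.  Hence the consumer inequality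
`finrank L⟮t⟯ F ≤ finrank k⟮red t⟯ Fres` (input of `RedData.orth_of_finrank_le`).
-/

set_option autoImplicit false

noncomputable section

namespace Fermat.Agent.GJ.AuxLevel.Deg

open IntermediateField ModularCurve

/-- linear independence over `k(s)` can be tested in an ambient field -/
theorem linearIndependent_of_coe {k E : Type*} [Field k] [Field E] [Algebra k E]
    (F : IntermediateField k E) (s : F) {ι : Type*} (v : ι → F)
    (h : LinearIndependent k⟮(s : E)⟯ (fun i => (v i : E))) : LinearIndependent k⟮s⟯ v := by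
  classical
  rw [linearIndependent_iff'] at h ⊢
  intro t g hsum i hi
  have hmem : ∀ j, ((g j : F) : E) ∈ k⟮(s : E)⟯ := by
    intro j
    have h1 : F.val (g j : F) ∈ (k⟮s⟯).map F.val := ⟨(g j : F), (g j).2, rfl⟩
    rw [IntermediateField.adjoin_map, Set.image_singleton] at h1
    exact h1
  have hsum' : ∑ j ∈ t, (⟨((g j : F) : E), hmem j⟩ : k⟮(s : E)⟯) • (v j : E) = 0 := by
    have := congrArg (fun y : F => (y : E)) hsum
    simp only [AddSubmonoidClass.coe_finsetSum, ZeroMemClass.coe_zero] at this
    rw [← this]
    refine Finset.sum_congr rfl fun j _ => ?_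
    rfl
  have h0 := h t _ hsum' i hi
  have h1 : ((g i : F) : E) = 0 := congrArg (fun y : k⟮(s : E)⟯ => (y : E)) h0
  exact Subtype.ext (Subtype.ext h1)

open Fermat.Agent.GJ.J1 Fermat.Agent.GJ.J1.Val

section Generic

variable {L : Type*} [Field L] (A : ValuationSubring L)
  (F : IntermediateField L (LaurentSeries L)) (hGF : HasGaussFrac A F)

/-- the chart `a ∈ A((q)) ∩ F` as an element of the Gauss valuation ring -/
def chartRw {a : LaurentSeries A} (ha : emb A a ∈ F) : Rw A F hGF :=
  ⟨⟨emb A a, ha⟩, int_mem_Rw ha⟩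

theorem coe_red_chartRw {a : LaurentSeries A} (ha : emb A a ∈ F) :
    ((red A F hGF (chartRw A F hGF ha) : Fres A F hGF) :
      LaurentSeries (IsLocalRing.ResidueField A)) = rd A a :=
  redL_int ha

/-- **Counting**: independent coefficientwise reductions are bounded by the residue degree. -/
theorem card_le_finrank_Fres {a : LaurentSeries A} (ha : emb A a ∈ F)
    (htr : Transcendental (IsLocalRing.ResidueField A) (rd A a))
    [FiniteDimensional L⟮(⟨emb A a, ha⟩ : F)⟯ F] {n : ℕ} (z : Fin n → LaurentSeries A)
    (hz : ∀ i, emb A (z i) ∈ F)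
    (hli : LinearIndependent (IsLocalRing.ResidueField A)⟮rd A a⟯ (fun i => rd A (z i))) :
    n ≤ Module.finrank (IsLocalRing.ResidueField A)⟮red A F hGF (chartRw A F hGF ha)⟯
      (Fres A F hGF) := by
  classical
  set τ := red A F hGF (chartRw A F hGF ha) with hτ
  have hτcoe : ((τ : Fres A F hGF) : LaurentSeries (IsLocalRing.ResidueField A)) = rd A a :=
    coe_red_chartRw A F hGF ha
  have htrτ : Transcendental (IsLocalRing.ResidueField A) τ :=
    Fres.transcendental_of_coe A F hGF (by rw [hτcoe]; exact htr)
  -- finiteness of the residue extension (fundamental inequality, helper12)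
  have hfdF : FiniteDimensional L⟮((chartRw A F hGF ha : Rw A F hGF) : F)⟯ F :=
    ‹FiniteDimensional L⟮(⟨emb A a, ha⟩ : F)⟯ F›
  have hfd := (Fermat.Agent.GJ.S37.ResDeg.finrank_residue_le A (Rw A F hGF)
    (fun c hc => (algebraMap_mem_Rw_iff (hGF := hGF) c).mpr hc) (red A F hGF)
    (IsLocalRing.residue A) (redData A F hGF).red_algebraMap (red_surjective A F hGF)
    (chartRw A F hGF ha) htrτ).1
  -- the reductions as elements of `Fres`
  set y : Fin n → Fres A F hGF := fun i => red A F hGF (chartRw A F hGF (hz i)) with hy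
  have hycoe : ∀ i, ((y i : Fres A F hGF) : LaurentSeries (IsLocalRing.ResidueField A)) =
      rd A (z i) := fun i => coe_red_chartRw A F hGF (hz i)
  have hli' : LinearIndependent (IsLocalRing.ResidueField A)⟮(τ : LaurentSeries
      (IsLocalRing.ResidueField A))⟯ (fun i => ((y i : Fres A F hGF) :
        LaurentSeries (IsLocalRing.ResidueField A))) := by
    rw [hτcoe]
    simpa only [hycoe] using hli
  have hliF := linearIndependent_of_coe (Fres A F hGF) τ y hli'
  simpa using hliF.fintype_card_le_finrank

/-- **Degree preservation, consumer form** (input of `RedData.orth_of_finrank_le`). -/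
theorem finrank_le_finrank_Fres {a : LaurentSeries A} (ha : emb A a ∈ F)
    (htr : Transcendental (IsLocalRing.ResidueField A) (rd A a))
    [FiniteDimensional L⟮(⟨emb A a, ha⟩ : F)⟯ F]
    (z : Fin (Module.finrank L⟮(⟨emb A a, ha⟩ : F)⟯ F) → LaurentSeries A)
    (hz : ∀ i, emb A (z i) ∈ F)
    (hli : LinearIndependent (IsLocalRing.ResidueField A)⟮rd A a⟯ (fun i => rd A (z i))) :
    Module.finrank L⟮(⟨emb A a, ha⟩ : F)⟯ F ≤
      Module.finrank (IsLocalRing.ResidueField A)⟮(redData A F hGF).red
        ⟨⟨emb A a, ha⟩, int_mem_Rw (hGF := hGF) ha⟩⟯ (Fres A F hGF) :=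
  card_le_finrank_Fres A F hGF ha htr z hz hli

end Generic

end Fermat.Agent.GJ.AuxLevel.Deg
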