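import Mathlib

/-!
# GATE-J / J1-AUX / M-DEG : degree preservation, abstract core (Mathlib only)

`A` an integrally closed domain with fraction field `K`, `L / K` finite separable, `B` the integral
closure of `A` in `L`, `ϖ ∈ A` a prime element with finite multiplicities, and a ring hom
`red : B → Ω` into a domain whose kernel is `ϖ B` (this is the "core" statement of T28).

Then there is a `K`-basis `b` of `L` inside `B` which is *reduction independent*
(`∑ red(c i) * red(b i) = 0` with `c i ∈ A` forces `ϖ ∣ c i` for all `i`) and such that every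
`x ∈ B` is a combination `s • x = ∑ c i • b i` with `s ∈ A`, `¬ ϖ ∣ s`.
In other words `B_(ϖ) = ⊕ A_(ϖ) b i` and `B / ϖ B` has rank `[L : K]` over `A / ϖ A`.
-/

set_option autoImplicit false

noncomputable section

namespace Fermat.Agent.GJ.AuxLevel.Deg

open Matrix

variable {A K L Ω : Type*} [CommRing A] [IsDomain A] [IsIntegrallyClosed A] [Field K] [Algebra A K]
  [IsFractionRing A K] [Field L] [Algebra K L] [Algebra A L] [IsScalarTower A K L]
  [FiniteDimensional K L] [Algebra.IsSeparable K L] [CommRing Ω] [IsDomain Ω]

/-- reduction independence of a family of integral elements -/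
def RedIndep (ϖ : A) (red : integralClosure A L →+* Ω) {ι : Type*} [Fintype ι]
    (b : ι → integralClosure A L) : Prop :=
  ∀ c : ι → A, ∑ i, red (algebraMap A (integralClosure A L) (c i)) * red (b i) = 0 → ∀ i, ϖ ∣ c i

omit [IsIntegrallyClosed A] [IsFractionRing A K] [FiniteDimensional K L] [Algebra.IsSeparable K L]
  [IsDomain Ω] in
/-- a linearly independent family of the right cardinality is a basis: nonzero discriminant -/
theorem discr_ne_zero_of_li [FiniteDimensional K L] [Algebra.IsSeparable K L] {n : ℕ}
    (hn : n = Module.finrank K L) (b : Fin n → L)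
    (hli : LinearIndependent K b) : Algebra.discr K b ≠ 0 := by
  have hcard : Fintype.card (Fin n) = Module.finrank K L := by simp [hn]
  have : Nonempty (Fin n) := ⟨⟨0, by rw [hn]; exact Module.finrank_pos⟩⟩
  let B : Module.Basis (Fin n) K L := basisOfLinearIndependentOfCardEqFinrank hli hcard
  have hB : (B : Fin n → L) = b := coe_basisOfLinearIndependentOfCardEqFinrank hli hcard
  rw [← hB]
  exact Algebra.discr_not_zero_of_basis K B

omit [IsDomain A] [IsIntegrallyClosed A] [IsFractionRing A K] [FiniteDimensional K L]
  [Algebra.IsSeparable K L] [IsDomain Ω] in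
/-- replacing the `i₀`-th vector by `y = (∑ c i • b i)/ϖ` multiplies the discriminant by
`(c i₀ / ϖ)^2`. -/
theorem discr_update {n : ℕ} (b : Fin n → L) (i₀ : Fin n) (y : L) (c : Fin n → K) (p : K)
    (hp : p ≠ 0) (hy : p • y = ∑ i, c i • b i) :
    Algebra.discr K (Function.update b i₀ y) = (c i₀ / p) ^ 2 * Algebra.discr K b := by
  classical
  set P : Matrix (Fin n) (Fin n) K := (1 : Matrix (Fin n) (Fin n) K).updateRow i₀ (fun i => c i / p)
    with hP
  have hdet : P.det = c i₀ / p := by
    have h := Matrix.det_updateRow_sum (1 : Matrix (Fin n) (Fin n) K) i₀ (fun i => c i / p)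
    have hsum : (∑ k, (fun i => c i / p) k • (1 : Matrix (Fin n) (Fin n) K) k) =
        fun i => c i / p := by
      funext j
      simp [Finset.sum_apply, Matrix.one_apply]
    rw [hsum] at h
    rw [hP, h]
    simp
  have hvec : (P.map (algebraMap K L)) *ᵥ b = Function.update b i₀ y := by
    funext i
    by_cases hi : i = i₀
    · subst hi
      simp only [Matrix.mulVec, dotProduct, Matrix.map_apply, hP, Matrix.updateRow_self,
        Function.update_self]
      have hy' : y = ∑ j, (c j / p) • b j := by
        have : p • y = p • ∑ j, (c j / p) • b j := by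
          rw [hy, Finset.smul_sum]
          refine Finset.sum_congr rfl fun j _ => ?_
          rw [smul_smul, mul_div_cancel₀ _ hp]
        exact smul_right_injective L hp this
      rw [hy']
      refine Finset.sum_congr rfl fun j _ => ?_
      rw [Algebra.smul_def]
    · simp only [Matrix.mulVec, dotProduct, Matrix.map_apply, hP, Function.update_of_ne hi]
      rw [Finset.sum_eq_single i]
      · simp [Matrix.updateRow_ne hi]
      · intro j _ hj
        simp [Matrix.updateRow_ne hi, Matrix.one_apply_ne (Ne.symm hj)]
      · intro h
        exact absurd (Finset.mem_univ i) h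
  rw [← hvec, Algebra.discr_of_matrix_mulVec, hdet]

omit [IsDomain Ω] in
/-- **Existence of a reduction-independent integral basis.** -/
theorem exists_redIndep_basis (ϖ : A) (hϖ : Prime ϖ)
    (hfin : ∀ c : A, c ≠ 0 → FiniteMultiplicity ϖ c)
    (red : integralClosure A L →+* Ω)
    (hker : ∀ x : integralClosure A L, red x = 0 →
      ∃ y : integralClosure A L, x = algebraMap A (integralClosure A L) ϖ * y) :
    ∃ b : Fin (Module.finrank K L) → integralClosure A L,
      LinearIndependent K (fun i => (b i : L)) ∧ RedIndep ϖ red b := by
  classical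
  -- the induction statement
  have key : ∀ m : ℕ, ∀ (b : Fin (Module.finrank K L) → integralClosure A L) (d : A),
      LinearIndependent K (fun i => (b i : L)) →
      algebraMap A K d = Algebra.discr K (fun i => (b i : L)) → multiplicity ϖ d = m →
      ∃ b' : Fin (Module.finrank K L) → integralClosure A L,
        LinearIndependent K (fun i => (b' i : L)) ∧ RedIndep ϖ red b' := by
    intro m
    induction m using Nat.strong_induction_on with
    | _ m ih =>
      intro b d hli hd hm
      by_cases hgood : RedIndep ϖ red b
      · exact ⟨b, hli, hgood⟩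
      -- a bad relation
      unfold RedIndep at hgood
      push Not at hgood
      obtain ⟨c, hc0, i₀, hi₀⟩ := hgood
      -- the element x = ∑ c i • b i of B reduces to zero
      set x : integralClosure A L := ∑ i, algebraMap A (integralClosure A L) (c i) * b i with hx
      have hredx : red x = 0 := by
        rw [hx, map_sum]
        simpa [map_mul] using hc0
      obtain ⟨y, hy⟩ := hker x hredx
      -- new family
      set b' : Fin (Module.finrank K L) → integralClosure A L := Function.update b i₀ y with hb'
      have hb'L : (fun i => (b' i : L)) = Function.update (fun i => (b i : L)) i₀ (y : L) := by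
        funext i
        by_cases hi : i = i₀
        · subst hi; simp [hb']
        · simp [hb', Function.update_of_ne hi]
      have hϖK : algebraMap A K ϖ ≠ 0 := by
        rw [Ne, map_eq_zero_iff _ (IsFractionRing.injective A K)]
        exact hϖ.ne_zero
      have hyL : algebraMap A K ϖ • (y : L) = ∑ i, algebraMap A K (c i) • (b i : L) := by
        have h1 : ((x : integralClosure A L) : L) = algebraMap A L ϖ * (y : L) := by
          rw [hy]; rfl
        have h2 : ((x : integralClosure A L) : L) = ∑ i, algebraMap A L (c i) * (b i : L) := by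
          rw [hx]
          simp only [AddSubmonoidClass.coe_finsetSum, MulMemClass.coe_mul]
          rfl
        rw [Algebra.smul_def, ← IsScalarTower.algebraMap_apply A K L, ← h1, h2]
        refine Finset.sum_congr rfl fun i _ => ?_
        rw [Algebra.smul_def, ← IsScalarTower.algebraMap_apply A K L]
      have hdisc := discr_update (K := K) (fun i => (b i : L)) i₀ (y : L)
        (fun i => algebraMap A K (c i)) (algebraMap A K ϖ) hϖK hyL
      rw [← hb'L] at hdisc
      -- the discriminant of b' is integral
      have hint' : IsIntegral A (Algebra.discr K (fun i => (b' i : L))) :=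
        Algebra.discr_isIntegral K fun i => (b' i).2
      obtain ⟨d', hd'⟩ := IsIntegrallyClosed.isIntegral_iff.mp hint'
      have hdne : Algebra.discr K (fun i => (b i : L)) ≠ 0 := discr_ne_zero_of_li rfl _ hli
      have hd0 : d ≠ 0 := by
        rintro rfl
        rw [map_zero] at hd
        exact hdne hd.symm
      have hci₀ : algebraMap A K (c i₀) ≠ 0 := by
        rw [Ne, map_eq_zero_iff _ (IsFractionRing.injective A K)]
        rintro h0
        exact hi₀ (by rw [h0]; exact dvd_zero ϖ)
      have hci₀A : c i₀ ≠ 0 := fun h0 => hi₀ (by rw [h0]; exact dvd_zero ϖ)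
      -- the equation in `A`
      have heqA : ϖ ^ 2 * d' = c i₀ ^ 2 * d := by
        apply IsFractionRing.injective A K
        rw [map_mul, map_mul, map_pow, map_pow, hd', hd, hdisc]
        field_simp
      have hd'0 : d' ≠ 0 := by
        rintro rfl
        rw [mul_zero] at heqA
        have : c i₀ ^ 2 * d ≠ 0 := mul_ne_zero (pow_ne_zero 2 hci₀A) hd0
        exact this heqA.symm
      -- new family is linearly independent
      have hli' : LinearIndependent K (fun i => (b' i : L)) := by
        by_contra hnot
        have := Algebra.discr_zero_of_not_linearIndependent K hnot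
        rw [hdisc] at this
        have h3 : (algebraMap A K (c i₀) / algebraMap A K ϖ) ^ 2 ≠ 0 :=
          pow_ne_zero 2 (div_ne_zero hci₀ hϖK)
        exact (mul_ne_zero h3 hdne) this
      -- multiplicities
      have hmul1 : multiplicity ϖ (ϖ ^ 2 * d') = 2 + multiplicity ϖ d' := by
        rw [multiplicity_mul hϖ (hfin _ (mul_ne_zero (pow_ne_zero 2 hϖ.ne_zero) hd'0)),
          multiplicity_pow_self_of_prime hϖ]
      have hc2 : ¬ ϖ ∣ c i₀ ^ 2 := fun h => hi₀ (hϖ.dvd_of_dvd_pow h)
      have hmul2 : multiplicity ϖ (c i₀ ^ 2 * d) = multiplicity ϖ d := by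
        rw [multiplicity_mul hϖ (hfin _ (mul_ne_zero (pow_ne_zero 2 hci₀A) hd0)),
          multiplicity_eq_zero.mpr hc2, zero_add]
      have hlt : multiplicity ϖ d' < m := by
        rw [heqA, hmul2, hm] at hmul1
        omega
      exact ih _ hlt b' d' hli' hd' rfl
  -- an initial integral basis
  obtain ⟨s, bs, hbs⟩ := FiniteDimensional.exists_is_basis_integral A K L
  have hcard : Fintype.card s = Module.finrank K L := (Module.finrank_eq_card_basis bs).symm
  let e : Fin (Module.finrank K L) ≃ s := (Fintype.equivFinOfCardEq hcard).symm
  let b₀ : Fin (Module.finrank K L) → integralClosure A L := fun i => ⟨bs (e i), hbs (e i)⟩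
  have hli₀ : LinearIndependent K (fun i => (b₀ i : L)) := by
    have := bs.linearIndependent.comp e e.injective
    exact this
  have hint₀ : IsIntegral A (Algebra.discr K (fun i => (b₀ i : L))) :=
    Algebra.discr_isIntegral K fun i => (b₀ i).2
  obtain ⟨d₀, hd₀⟩ := IsIntegrallyClosed.isIntegral_iff.mp hint₀
  exact key _ b₀ d₀ hli₀ hd₀ rfl


variable (K) in
include K in
omit [IsDomain A] [FiniteDimensional K L] [Algebra.IsSeparable K L] [IsDomain Ω] in
/-- the kernel of `red` on `A` is `(ϖ)` -/
theorem dvd_of_red_algebraMap_eq_zero (ϖ : A) (hϖ : Prime ϖ)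
    (red : integralClosure A L →+* Ω)
    (hker : ∀ x : integralClosure A L, red x = 0 →
      ∃ y : integralClosure A L, x = algebraMap A (integralClosure A L) ϖ * y)
    (a : A) (ha : red (algebraMap A (integralClosure A L) a) = 0) : ϖ ∣ a := by
  obtain ⟨y, hy⟩ := hker _ ha
  have hyL : algebraMap A L a = algebraMap A L ϖ * (y : L) := by
    have := congrArg (fun z : integralClosure A L => (z : L)) hy
    simpa using this
  have hϖK : algebraMap A K ϖ ≠ 0 := by
    rw [Ne, map_eq_zero_iff _ (IsFractionRing.injective A K)]
    exact hϖ.ne_zero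
  -- `y = a/ϖ ∈ K` is integral over `A`, hence in `A`
  have hyK : (y : L) = algebraMap K L (algebraMap A K a / algebraMap A K ϖ) := by
    have hϖL : algebraMap A L ϖ ≠ 0 := by
      rw [IsScalarTower.algebraMap_apply A K L]
      exact (map_ne_zero (algebraMap K L)).mpr hϖK
    rw [map_div₀, ← IsScalarTower.algebraMap_apply A K L, ← IsScalarTower.algebraMap_apply A K L,
      hyL, mul_div_cancel_left₀ _ hϖL]
  have hint : IsIntegral A (algebraMap A K a / algebraMap A K ϖ) := by
    have h1 : IsIntegral A (y : L) := y.2
    rw [hyK] at h1
    exact (isIntegral_algHom_iff (IsScalarTower.toAlgHom A K L)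
      (algebraMap K L).injective).mp h1
  obtain ⟨z, hz⟩ := IsIntegrallyClosed.isIntegral_iff.mp hint
  refine ⟨z, ?_⟩
  apply IsFractionRing.injective A K
  rw [map_mul, hz, mul_div_cancel₀ _ hϖK]

omit [IsIntegrallyClosed A] [Algebra.IsSeparable K L] [IsDomain Ω] in
/-- **Spanning**: every integral element is an `A_(ϖ)`-combination of a reduction-independent
basis. -/
theorem exists_smul_eq_sum (ϖ : A) (hϖ : Prime ϖ)
    (hfin : ∀ c : A, c ≠ 0 → FiniteMultiplicity ϖ c)
    (red : integralClosure A L →+* Ω)
    (hϖred : red (algebraMap A (integralClosure A L) ϖ) = 0)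
    (b : Fin (Module.finrank K L) → integralClosure A L)
    (hli : LinearIndependent K (fun i => (b i : L))) (hb : RedIndep ϖ red b)
    (x : integralClosure A L) :
    ∃ s : A, ¬ ϖ ∣ s ∧ ∃ c : Fin (Module.finrank K L) → A,
      algebraMap A (integralClosure A L) s * x =
        ∑ i, algebraMap A (integralClosure A L) (c i) * b i := by
  classical
  -- descent on the power of ϖ
  have step : ∀ m : ℕ, ∀ (t₀ : A) (c : Fin (Module.finrank K L) → A),
      algebraMap A (integralClosure A L) (ϖ ^ m * t₀) * x =
        ∑ i, algebraMap A (integralClosure A L) (c i) * b i →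
      ∃ c' : Fin (Module.finrank K L) → A,
        algebraMap A (integralClosure A L) t₀ * x =
          ∑ i, algebraMap A (integralClosure A L) (c' i) * b i := by
    intro m
    induction m with
    | zero =>
      intro t₀ c h
      exact ⟨c, by simpa using h⟩
    | succ m ih =>
      intro t₀ c h
      have hred : ∑ i, red (algebraMap A (integralClosure A L) (c i)) * red (b i) = 0 := by
        have := congrArg red h
        rw [map_mul, map_sum] at this
        simp only [map_mul] at this
        rw [← this, pow_succ, map_mul (algebraMap A (integralClosure A L)) (ϖ ^ m) ϖ, map_mul red,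
          hϖred]
        ring
      have hdvd := hb c hred
      choose c' hc' using hdvd
      apply ih t₀ c'
      -- cancel ϖ
      have hϖB : algebraMap A (integralClosure A L) ϖ ≠ 0 := by
        intro h0
        have h1 : algebraMap A L ϖ = 0 := by
          have := congrArg (fun z : integralClosure A L => (z : L)) h0
          simpa using this
        rw [IsScalarTower.algebraMap_apply A K L, map_eq_zero,
          map_eq_zero_iff _ (IsFractionRing.injective A K)] at h1
        exact hϖ.ne_zero h1
      apply mul_left_cancel₀ hϖB
      rw [← mul_assoc, ← map_mul, Finset.mul_sum]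
      have h2 : ϖ * (ϖ ^ m * t₀) = ϖ ^ (m + 1) * t₀ := by ring
      rw [h2, h]
      refine Finset.sum_congr rfl fun i _ => ?_
      rw [hc' i, map_mul, mul_assoc]
  -- clear denominators
  have hcard : Fintype.card (Fin (Module.finrank K L)) = Module.finrank K L := by simp
  have : Nonempty (Fin (Module.finrank K L)) := ⟨⟨0, Module.finrank_pos⟩⟩
  let Bs : Module.Basis (Fin (Module.finrank K L)) K L :=
    basisOfLinearIndependentOfCardEqFinrank hli hcard
  have hBs : ∀ i, Bs i = (b i : L) := fun i => by
    simp [Bs, coe_basisOfLinearIndependentOfCardEqFinrank]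
  obtain ⟨t, ht⟩ := IsLocalization.exist_integer_multiples (nonZeroDivisors A) Finset.univ
    (fun i => Bs.repr (x : L) i)
  choose c hc using fun i => ht i (Finset.mem_univ i)
  have ht0 : (t : A) ≠ 0 := nonZeroDivisors.ne_zero t.2
  obtain ⟨t₀, ht₀, hnd⟩ := (hfin _ ht0).exists_eq_pow_mul_and_not_dvd
  refine ⟨t₀, hnd, ?_⟩
  apply step (multiplicity ϖ (t : A)) t₀ c
  rw [← ht₀]
  apply Subtype.ext
  simp only [MulMemClass.coe_mul, AddSubmonoidClass.coe_finsetSum]
  have hx : (x : L) = ∑ i, Bs.repr (x : L) i • (b i : L) := by
    conv_lhs => rw [← Bs.sum_repr (x : L)]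
    exact Finset.sum_congr rfl fun i _ => by rw [hBs]
  change algebraMap A L (t : A) * (x : L) = ∑ i, algebraMap A L (c i) * (b i : L)
  rw [hx, Finset.mul_sum]
  refine Finset.sum_congr rfl fun i _ => ?_
  have := hc i
  rw [Algebra.smul_def] at this
  rw [IsScalarTower.algebraMap_apply A K L, IsScalarTower.algebraMap_apply A K L (c i), this,
    Algebra.smul_def, map_mul, mul_assoc]

end Fermat.Agent.GJ.AuxLevel.Deg
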