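import Mathlib

/-!
# GATE-J / J1-AUX / AUX-DEG (D1), (D2): degree of a rational function field extension

`K` a field, `t` transcendental over `K` in a field `L`, `j ∈ L` with `j * Q(t) = P(t)` for
coprime `P, Q ∈ K[X]`, `Q ≠ 0`.  Then `[K(t) : K(j)] = max (deg P) (deg Q)`
(Mathlib's `RatFunc.finrank_eq_max_natDegree`, transported along `K(X) ≃ K(t)`), and consequently
`[L : K(j)] = max (deg P) (deg Q) * [L : K(t)]`.

Instances: `n = 3` for `P = (X + 256)^3`, `Q = X^2` (`2 ≠ 0` in `K`), and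
`n = 4` for `P = (X + 27) (X + 243)^3`, `Q = X^3` (`3 ≠ 0` in `K`).
-/

set_option autoImplicit false

noncomputable section

namespace Fermat.Agent.GJ.Aux.Degree

open Polynomial IntermediateField

variable {K L : Type*} [Field K] [Field L] [Algebra K L]

/-- The `K`-embedding `K(X) → L`, `X ↦ t`, for `t` transcendental over `K`. -/
def evalHom {t : L} (ht : Transcendental K t) : RatFunc K →ₐ[K] L :=
  (K⟮t⟯.val).comp (RatFunc.algEquivOfTranscendental t ht).toAlgHom

theorem evalHom_apply {t : L} (ht : Transcendental K t) (u : RatFunc K) :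
    evalHom ht u = aeval t u.num / aeval t u.denom := by
  simp [evalHom, RatFunc.algEquivOfTranscendental_apply]

theorem evalHom_X {t : L} (ht : Transcendental K t) : evalHom ht (RatFunc.X : RatFunc K) = t := by
  simp [evalHom]

theorem evalHom_algebraMap {t : L} (ht : Transcendental K t) (p : K[X]) :
    evalHom ht (algebraMap K[X] (RatFunc K) p) = aeval t p := by
  simp [evalHom]

theorem evalHom_div {t : L} (ht : Transcendental K t) (p q : K[X]) :
    evalHom ht (algebraMap K[X] (RatFunc K) p / algebraMap K[X] (RatFunc K) q)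
      = aeval t p / aeval t q := by
  rw [map_div₀, evalHom_algebraMap, evalHom_algebraMap]

theorem map_top_evalHom {t : L} (ht : Transcendental K t) :
    (⊤ : IntermediateField K (RatFunc K)).map (evalHom ht) = K⟮t⟯ := by
  rw [← RatFunc.adjoin_X, IntermediateField.adjoin_map, Set.image_singleton, evalHom_X]

theorem map_adjoin_evalHom {t : L} (ht : Transcendental K t) (f : RatFunc K) :
    (K⟮f⟯).map (evalHom ht) = K⟮evalHom ht f⟯ := by
  rw [IntermediateField.adjoin_map, Set.image_singleton]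

/-- `K(f(t)) ≤ K(t)`. -/
theorem adjoin_evalHom_le {t : L} (ht : Transcendental K t) (f : RatFunc K) :
    K⟮evalHom ht f⟯ ≤ K⟮t⟯ := by
  rw [← map_adjoin_evalHom, ← map_top_evalHom ht]
  exact IntermediateField.map_mono _ le_top

/-- **(D1), `RatFunc` form.** `[K(t) : K(f(t))] = max (deg num f) (deg denom f)`. -/
theorem relfinrank_adjoin_evalHom {t : L} (ht : Transcendental K t) (f : RatFunc K) :
    relfinrank K⟮evalHom ht f⟯ K⟮t⟯ = max f.num.natDegree f.denom.natDegree := by
  rw [← map_adjoin_evalHom, ← map_top_evalHom ht, relfinrank_map_map, relfinrank_top_right,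
    RatFunc.finrank_eq_max_natDegree]

/-! ### numerator / denominator degrees of `P / Q` for coprime `P`, `Q` -/

theorem natDegree_num_div_of_isCoprime {P Q : K[X]} (hcop : IsCoprime P Q) (hQ : Q ≠ 0) :
    (algebraMap K[X] (RatFunc K) P / algebraMap K[X] (RatFunc K) Q).num.natDegree
      = P.natDegree := by
  set f : RatFunc K := algebraMap K[X] (RatFunc K) P / algebraMap K[X] (RatFunc K) Q with hf
  have hcross : f.num * Q = P * f.denom := (RatFunc.num_mul_eq_mul_denom_iff hQ).mpr rfl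
  have h1 : f.num ∣ P :=
    (RatFunc.isCoprime_num_denom f).dvd_of_dvd_mul_right ⟨Q, hcross.symm⟩
  have h2 : P ∣ f.num := hcop.dvd_of_dvd_mul_right ⟨f.denom, hcross⟩
  exact natDegree_eq_of_degree_eq (degree_eq_degree_of_associated (associated_of_dvd_dvd h1 h2))

theorem natDegree_denom_div_of_isCoprime {P Q : K[X]} (hcop : IsCoprime P Q) (hQ : Q ≠ 0) :
    (algebraMap K[X] (RatFunc K) P / algebraMap K[X] (RatFunc K) Q).denom.natDegree
      = Q.natDegree := by
  set f : RatFunc K := algebraMap K[X] (RatFunc K) P / algebraMap K[X] (RatFunc K) Q with hf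
  have hcross : f.num * Q = P * f.denom := (RatFunc.num_mul_eq_mul_denom_iff hQ).mpr rfl
  have h1 : f.denom ∣ Q :=
    (RatFunc.isCoprime_num_denom f).symm.dvd_of_dvd_mul_left ⟨P, by rw [hcross, mul_comm]⟩
  have h2 : Q ∣ f.denom := hcop.symm.dvd_of_dvd_mul_left ⟨f.num, by rw [← hcross, mul_comm]⟩
  exact natDegree_eq_of_degree_eq (degree_eq_degree_of_associated (associated_of_dvd_dvd h1 h2))

/-! ### (D1) in polynomial form -/

theorem aeval_ne_zero_of_transcendental {t : L} (ht : Transcendental K t) {Q : K[X]}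
    (hQ : Q ≠ 0) : aeval t Q ≠ 0 := fun h => ht ⟨Q, hQ, h⟩

/-- `j = P(t)/Q(t)` as the image of the rational function `P/Q`. -/
theorem eq_evalHom_of_mul_eq {t j : L} (ht : Transcendental K t) {P Q : K[X]} (hQ : Q ≠ 0)
    (hj : j * aeval t Q = aeval t P) :
    j = evalHom ht (algebraMap K[X] (RatFunc K) P / algebraMap K[X] (RatFunc K) Q) := by
  rw [evalHom_div, eq_div_iff (aeval_ne_zero_of_transcendental ht hQ), hj]

/-- `K(j) ≤ K(t)` when `j * Q(t) = P(t)`, `Q ≠ 0`. -/
theorem adjoin_le_adjoin_of_mul_eq {t j : L} (ht : Transcendental K t) {P Q : K[X]} (hQ : Q ≠ 0)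
    (hj : j * aeval t Q = aeval t P) : K⟮j⟯ ≤ K⟮t⟯ := by
  rw [eq_evalHom_of_mul_eq ht hQ hj]
  exact adjoin_evalHom_le ht _

/-- **(D1).** `t` transcendental over `K`, `j * Q(t) = P(t)` with `P, Q` coprime, `Q ≠ 0`:
`[K(t) : K(j)] = max (deg P) (deg Q)`. -/
theorem relfinrank_adjoin_of_mul_eq {t j : L} (ht : Transcendental K t) {P Q : K[X]}
    (hcop : IsCoprime P Q) (hQ : Q ≠ 0) (hj : j * aeval t Q = aeval t P) :
    relfinrank K⟮j⟯ K⟮t⟯ = max P.natDegree Q.natDegree := by
  rw [eq_evalHom_of_mul_eq ht hQ hj, relfinrank_adjoin_evalHom,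
    natDegree_num_div_of_isCoprime hcop hQ, natDegree_denom_div_of_isCoprime hcop hQ]

/-- **(D1), `finrank` form** (with the `extendScalars` algebra structure). -/
theorem finrank_adjoin_of_mul_eq {t j : L} (ht : Transcendental K t) {P Q : K[X]}
    (hcop : IsCoprime P Q) (hQ : Q ≠ 0) (hj : j * aeval t Q = aeval t P) :
    Module.finrank K⟮j⟯ (extendScalars (adjoin_le_adjoin_of_mul_eq ht hQ hj))
      = max P.natDegree Q.natDegree := by
  rw [← relfinrank_eq_finrank_of_le, relfinrank_adjoin_of_mul_eq ht hcop hQ hj]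

/-- **(D1), tower form.** `[L : K(j)] = max (deg P) (deg Q) * [L : K(t)]`. -/
theorem finrank_adjoin_eq_mul {t j : L} (ht : Transcendental K t) {P Q : K[X]}
    (hcop : IsCoprime P Q) (hQ : Q ≠ 0) (hj : j * aeval t Q = aeval t P) :
    Module.finrank K⟮j⟯ L = max P.natDegree Q.natDegree * Module.finrank K⟮t⟯ L := by
  rw [← relfinrank_adjoin_of_mul_eq ht hcop hQ hj,
    relfinrank_mul_finrank_top (adjoin_le_adjoin_of_mul_eq ht hQ hj)]

/-- Transcendence of `t` from transcendence of `j = P(t)/Q(t)`. -/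
theorem transcendental_of_mul_eq {t j : L} (hjt : Transcendental K j) {P Q : K[X]}
    (hQt : aeval t Q ≠ 0) (hj : j * aeval t Q = aeval t P) : Transcendental K t := by
  intro halg
  apply hjt
  have hmem : j ∈ K⟮t⟯ := by
    have : j = aeval t P / aeval t Q := by rw [eq_div_iff hQt, hj]
    rw [this]
    exact div_mem (algebra_adjoin_le_adjoin K _ (Polynomial.aeval_mem_adjoin_singleton K t))
      (algebra_adjoin_le_adjoin K _ (Polynomial.aeval_mem_adjoin_singleton K t))
  have : Algebra.IsAlgebraic K K⟮t⟯ := isAlgebraic_adjoin_simple halg.isIntegral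
  have := (Algebra.IsAlgebraic.isAlgebraic (R := K) (⟨j, hmem⟩ : K⟮t⟯))
  exact (isAlgebraic_algebraMap_iff (A := L) (algebraMap K⟮t⟯ L).injective).mpr this

/-! ### (D2) the two instances -/

section Two

variable {t j : L}

theorem isCoprime_two (h2 : (2 : K) ≠ 0) :
    IsCoprime ((X + C (256 : K)) ^ 3 : K[X]) (X ^ 2 : K[X]) := by
  apply IsCoprime.pow
  have h256 : (256 : K) ≠ 0 := by
    have : (256 : K) = 2 ^ 8 := by norm_num
    rw [this]; exact pow_ne_zero _ h2
  refine ⟨C (256 : K)⁻¹, -C (256 : K)⁻¹, ?_⟩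
  have : C (256 : K)⁻¹ * C (256 : K) = 1 := by rw [← C_mul, inv_mul_cancel₀ h256, C_1]
  linear_combination this

theorem natDegree_P_two : ((X + C (256 : K)) ^ 3 : K[X]).natDegree = 3 := by
  rw [natDegree_pow, natDegree_X_add_C]

theorem aeval_P_two (t : L) : aeval t ((X + C (256 : K)) ^ 3 : K[X]) = (t + 256) ^ 3 := by
  have h : algebraMap K L 256 = 256 := map_ofNat _ 256
  simp [h]

theorem aeval_Q_two (t : L) : aeval t (X ^ 2 : K[X]) = t ^ 2 := by simp

theorem ne_zero_of_two (h2 : (2 : K) ≠ 0) (hj : j * t ^ 2 = (t + 256) ^ 3) : t ≠ 0 := by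
  rintro rfl
  have h2L : (2 : L) ≠ 0 := by
    have := (map_ne_zero (algebraMap K L)).mpr h2
    rwa [map_ofNat] at this
  have : (256 : L) ^ 3 = 0 := by simpa using hj.symm
  have h256 : (256 : L) = 2 ^ 8 := by norm_num
  rw [h256] at this
  exact pow_ne_zero _ (pow_ne_zero _ h2L) this

/-- **(D2), level 2.** `[K(t) : K(j)] = 3` for `j t² = (t + 256)³`, `2 ≠ 0`. -/
theorem relfinrank_two (h2 : (2 : K) ≠ 0) (ht : Transcendental K t)
    (hj : j * t ^ 2 = (t + 256) ^ 3) : relfinrank K⟮j⟯ K⟮t⟯ = 3 := by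
  have := relfinrank_adjoin_of_mul_eq (j := j) ht (isCoprime_two h2)
    (pow_ne_zero 2 X_ne_zero) (by rw [aeval_P_two, aeval_Q_two, hj])
  rw [this, natDegree_P_two, natDegree_X_pow]; rfl

theorem adjoin_le_two (ht : Transcendental K t) (hj : j * t ^ 2 = (t + 256) ^ 3) :
    K⟮j⟯ ≤ K⟮t⟯ :=
  adjoin_le_adjoin_of_mul_eq (P := (X + C (256 : K)) ^ 3) (Q := X ^ 2) ht
    (pow_ne_zero 2 X_ne_zero) (by rw [aeval_P_two, aeval_Q_two, hj])

/-- **(D2), level 2, tower form.** `[L : K(j)] = 3 [L : K(t)]`. -/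
theorem finrank_two (h2 : (2 : K) ≠ 0) (ht : Transcendental K t)
    (hj : j * t ^ 2 = (t + 256) ^ 3) :
    Module.finrank K⟮j⟯ L = 3 * Module.finrank K⟮t⟯ L := by
  rw [← relfinrank_two h2 ht hj, relfinrank_mul_finrank_top (adjoin_le_two ht hj)]

theorem transcendental_two (h2 : (2 : K) ≠ 0) (hjt : Transcendental K j)
    (hj : j * t ^ 2 = (t + 256) ^ 3) : Transcendental K t :=
  transcendental_of_mul_eq (P := (X + C (256 : K)) ^ 3) (Q := X ^ 2) hjt
    (by rw [aeval_Q_two]; exact pow_ne_zero 2 (ne_zero_of_two h2 hj))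
    (by rw [aeval_P_two, aeval_Q_two, hj])

end Two

section Three

variable {t j : L}

theorem isCoprime_three (h3 : (3 : K) ≠ 0) :
    IsCoprime ((X + C (27 : K)) * (X + C (243 : K)) ^ 3 : K[X]) (X ^ 3 : K[X]) := by
  have h27 : (27 : K) ≠ 0 := by
    have : (27 : K) = 3 ^ 3 := by norm_num
    rw [this]; exact pow_ne_zero _ h3
  have h243 : (243 : K) ≠ 0 := by
    have : (243 : K) = 3 ^ 5 := by norm_num
    rw [this]; exact pow_ne_zero _ h3
  have key : ∀ a : K, a ≠ 0 → IsCoprime (X + C a : K[X]) X := by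
    intro a ha
    refine ⟨C a⁻¹, -C a⁻¹, ?_⟩
    have : C a⁻¹ * C a = 1 := by rw [← C_mul, inv_mul_cancel₀ ha, C_1]
    linear_combination this
  exact IsCoprime.pow_right (IsCoprime.mul_left (key _ h27) ((key _ h243).pow_left))

theorem natDegree_P_three :
    ((X + C (27 : K)) * (X + C (243 : K)) ^ 3 : K[X]).natDegree = 4 := by
  rw [natDegree_mul (X_add_C_ne_zero _) (pow_ne_zero _ (X_add_C_ne_zero _)), natDegree_pow,
    natDegree_X_add_C, natDegree_X_add_C]

theorem aeval_P_three (t : L) :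
    aeval t ((X + C (27 : K)) * (X + C (243 : K)) ^ 3 : K[X]) = (t + 27) * (t + 243) ^ 3 := by
  have h : algebraMap K L 27 = 27 := map_ofNat _ 27
  have h' : algebraMap K L 243 = 243 := map_ofNat _ 243
  simp [h, h']

theorem aeval_Q_three (t : L) : aeval t (X ^ 3 : K[X]) = t ^ 3 := by simp

theorem ne_zero_of_three (h3 : (3 : K) ≠ 0) (hj : j * t ^ 3 = (t + 27) * (t + 243) ^ 3) :
    t ≠ 0 := by
  rintro rfl
  have h3L : (3 : L) ≠ 0 := by
    have := (map_ne_zero (algebraMap K L)).mpr h3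
    rwa [map_ofNat] at this
  have : (27 : L) * (243 : L) ^ 3 = 0 := by simpa using hj.symm
  have h : (27 : L) * (243 : L) ^ 3 = 3 ^ 18 := by norm_num
  rw [h] at this
  exact pow_ne_zero _ h3L this

/-- **(D2), level 3.** `[K(t) : K(j)] = 4` for `j t³ = (t + 27)(t + 243)³`, `3 ≠ 0`. -/
theorem relfinrank_three (h3 : (3 : K) ≠ 0) (ht : Transcendental K t)
    (hj : j * t ^ 3 = (t + 27) * (t + 243) ^ 3) : relfinrank K⟮j⟯ K⟮t⟯ = 4 := by
  have := relfinrank_adjoin_of_mul_eq (j := j) ht (isCoprime_three h3)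
    (pow_ne_zero 3 X_ne_zero) (by rw [aeval_P_three, aeval_Q_three, hj])
  rw [this, natDegree_P_three, natDegree_X_pow]; rfl

theorem adjoin_le_three (ht : Transcendental K t)
    (hj : j * t ^ 3 = (t + 27) * (t + 243) ^ 3) : K⟮j⟯ ≤ K⟮t⟯ :=
  adjoin_le_adjoin_of_mul_eq (P := (X + C (27 : K)) * (X + C (243 : K)) ^ 3) (Q := X ^ 3) ht
    (pow_ne_zero 3 X_ne_zero) (by rw [aeval_P_three, aeval_Q_three, hj])

/-- **(D2), level 3, tower form.** `[L : K(j)] = 4 [L : K(t)]`. -/
theorem finrank_three (h3 : (3 : K) ≠ 0) (ht : Transcendental K t)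
    (hj : j * t ^ 3 = (t + 27) * (t + 243) ^ 3) :
    Module.finrank K⟮j⟯ L = 4 * Module.finrank K⟮t⟯ L := by
  rw [← relfinrank_three h3 ht hj, relfinrank_mul_finrank_top (adjoin_le_three ht hj)]

theorem transcendental_three (h3 : (3 : K) ≠ 0) (hjt : Transcendental K j)
    (hj : j * t ^ 3 = (t + 27) * (t + 243) ^ 3) : Transcendental K t :=
  transcendental_of_mul_eq (P := (X + C (27 : K)) * (X + C (243 : K)) ^ 3) (Q := X ^ 3) hjt
    (by rw [aeval_Q_three]; exact pow_ne_zero 3 (ne_zero_of_three h3 hj))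
    (by rw [aeval_P_three, aeval_Q_three, hj])

end Three

end Fermat.Agent.GJ.Aux.Degree
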