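/-
GATE-J / J1 (C4) (helper83): transfer of the degree inequality from the `j`-chart to the
Hauptmodul charts `t` of level 2 and 3.

Setting: `R : RedData K F k Ft`, `j t : F` with `j` a Gauss chart and

* level 2: `j * t ^ 2 = (t + 256) ^ 3`, `(2 : k) ≠ 0`  (so `[K(t) : K(j)] = [k(t~) : k(j~)] = 3`),
* level 3: `j * t ^ 3 = (t + 27) * (t + 243) ^ 3`, `(3 : k) ≠ 0`  (degrees `4`).

Then `finrank K⟮j⟯ F ≤ finrank k⟮j~⟯ Ft` implies `finrank K⟮t⟯ F ≤ finrank k⟮t~⟯ Ft`, together with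
the by-products: `t ∈ Rw`, `t` is a Gauss chart, transcendence and finiteness on both fibres and
(with helper12's residue-degree inequality) the equalities of degrees.
-/
import Fermat.Agent.GJ.AuxLevel.Degree
import Fermat.Agent.GJ.S37.ResidueDegreeRed

set_option autoImplicit false

namespace Fermat.Agent.GJ.Aux.DegChart

open Polynomial IntermediateField Fermat.Agent.GJ.J1 Fermat.Agent.GJ.Aux.Degree

noncomputable section

variable {K F k Ft : Type*} [Field K] [Field F] [Algebra K F] [Field k] [Field Ft] [Algebra k Ft]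
/-! ### Generalities -/

/-- a natural number which is nonzero in the residue field is nonzero in `K` -/
theorem natCast_ne_zero_of_res (R : RedData K F k Ft) {n : ℕ} (hn : (n : k) ≠ 0) :
    (n : K) ≠ 0 := by
  intro h
  apply hn
  have h1 : ((n : R.A) : K) = 0 := by push_cast; exact h
  have h2 : (n : R.A) = 0 := Subtype.ext h1
  have := congrArg R.res h2
  simpa using this

theorem two_ne_zero_of_res (R : RedData K F k Ft) (h2 : (2 : k) ≠ 0) : (2 : K) ≠ 0 := by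
  have := natCast_ne_zero_of_res R (n := 2) (by exact_mod_cast h2)
  exact_mod_cast this

theorem three_ne_zero_of_res (R : RedData K F k Ft) (h3 : (3 : k) ≠ 0) : (3 : K) ≠ 0 := by
  have := natCast_ne_zero_of_res R (n := 3) (by exact_mod_cast h3)
  exact_mod_cast this

variable (R : RedData K F k Ft)

/-- a root of a monic polynomial with coefficients in `Rw` lies in `Rw` -/
theorem mem_Rw_of_monic_root {t : F} (p : R.Rw[X]) (hp : p.Monic)
    (ht : Polynomial.eval₂ (algebraMap R.Rw F) t p = 0) : t ∈ R.Rw := by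
  have hint : IsIntegral R.Rw t := ⟨p, hp, ht⟩
  have := IsIntegrallyClosed.isIntegral_iff (R := R.Rw) (K := F) |>.1 hint
  obtain ⟨y, hy⟩ := this
  rw [← hy]
  exact y.2

/-- finiteness goes up along `K⟮j⟯ ≤ K⟮t⟯` -/
theorem finiteDimensional_of_le {κ E : Type*} [Field κ] [Field E] [Algebra κ E] {j t : E}
    (hle : κ⟮j⟯ ≤ κ⟮t⟯) [FiniteDimensional κ⟮j⟯ E] : FiniteDimensional κ⟮t⟯ E := by
  let _ : Algebra κ⟮j⟯ κ⟮t⟯ := (IntermediateField.inclusion hle).toRingHom.toAlgebra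
  have : IsScalarTower κ⟮j⟯ κ⟮t⟯ E := IsScalarTower.of_algebraMap_eq (fun _ => rfl)
  exact FiniteDimensional.right κ⟮j⟯ κ⟮t⟯ E

/-- for a Gauss chart `s`, the inequality `[F : K(s)] ≤ [Ft : k(s~)]` is an equality (the other
inequality is helper12's residue-degree inequality), and the special fibre is finite over
`k(s~)`. -/
theorem finrank_eq_of_le {s : F} (hs : R.IsGaussChart s) [FiniteDimensional K⟮s⟯ F]
    (hdeg : Module.finrank K⟮s⟯ F ≤ Module.finrank k⟮R.red ⟨s, hs.1⟩⟯ Ft) :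
    FiniteDimensional k⟮R.red ⟨s, hs.1⟩⟯ Ft ∧
      Module.finrank K⟮s⟯ F = Module.finrank k⟮R.red ⟨s, hs.1⟩⟯ Ft := by
  obtain ⟨hfd, hle⟩ := Fermat.Agent.GJ.S37.ResDeg.RedData.finrank_red_le R hs.1 hs.2
  exact ⟨hfd, le_antisymm hdeg hle⟩

/-! ### Level 2 -/

section Two

variable {j t : F}

/-- `t` is integral over `Rw` by the level-2 relation, hence lies in `Rw` -/
theorem mem_Rw_two (hj : j ∈ R.Rw) (hrel : j * t ^ 2 = (t + 256) ^ 3) : t ∈ R.Rw := by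
  refine mem_Rw_of_monic_root R ((X + C 256) ^ 3 - C (⟨j, hj⟩ : R.Rw) * X ^ 2) ?_ ?_
  · have hdeg : ((X + C 256) ^ 3 : R.Rw[X]).degree = 3 := by
      rw [degree_pow, degree_X_add_C]; norm_num
    apply Polynomial.Monic.sub_of_left ((monic_X_add_C _).pow 3)
    rw [hdeg]
    exact lt_of_le_of_lt (degree_C_mul_X_pow_le 2 _) (by norm_num)
  · have h256 : algebraMap R.Rw F 256 = 256 := map_ofNat _ 256
    simp only [eval₂_sub, eval₂_pow, eval₂_add, eval₂_X, eval₂_C, eval₂_mul, h256]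
    rw [show algebraMap R.Rw F ⟨j, hj⟩ = j from rfl, hrel, sub_self]

/-- the level-2 relation on the special fibre -/
theorem red_rel_two (hj : j ∈ R.Rw) (ht : t ∈ R.Rw) (hrel : j * t ^ 2 = (t + 256) ^ 3) :
    R.red ⟨j, hj⟩ * R.red ⟨t, ht⟩ ^ 2 = (R.red ⟨t, ht⟩ + 256) ^ 3 := by
  have h : (⟨j, hj⟩ : R.Rw) * ⟨t, ht⟩ ^ 2 = (⟨t, ht⟩ + 256) ^ 3 := by
    apply Subtype.ext
    push_cast
    exact hrel
  have := congrArg R.red h
  simpa only [map_mul, map_pow, map_add, map_ofNat] using this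

/-- `t` is a Gauss chart as soon as `j` is -/
theorem isGaussChart_two (h2 : (2 : k) ≠ 0) (hjc : R.IsGaussChart j)
    (hrel : j * t ^ 2 = (t + 256) ^ 3) : R.IsGaussChart t :=
  ⟨mem_Rw_two R hjc.1 hrel,
    transcendental_two h2 hjc.2 (red_rel_two R hjc.1 (mem_Rw_two R hjc.1 hrel) hrel)⟩

theorem transcendental_K_two (h2 : (2 : k) ≠ 0) (hjc : R.IsGaussChart j)
    (hrel : j * t ^ 2 = (t + 256) ^ 3) : Transcendental K t :=
  transcendental_two (two_ne_zero_of_res R h2)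
    (Fermat.Agent.GJ.S37.ResDeg.RedData.transcendental_of_isGaussChart R hjc) hrel

theorem transcendental_k_two (h2 : (2 : k) ≠ 0) (hjc : R.IsGaussChart j) (ht : t ∈ R.Rw)
    (hrel : j * t ^ 2 = (t + 256) ^ 3) : Transcendental k (R.red ⟨t, ht⟩) :=
  transcendental_two h2 hjc.2 (red_rel_two R hjc.1 ht hrel)

/-- `[F : K(j)] = 3 [F : K(t)]` -/
theorem finrank_K_two (h2 : (2 : k) ≠ 0) (hjc : R.IsGaussChart j)
    (hrel : j * t ^ 2 = (t + 256) ^ 3) :
    Module.finrank K⟮j⟯ F = 3 * Module.finrank K⟮t⟯ F :=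
  finrank_two (two_ne_zero_of_res R h2) (transcendental_K_two R h2 hjc hrel) hrel

/-- `[Ft : k(j~)] = 3 [Ft : k(t~)]` -/
theorem finrank_k_two (h2 : (2 : k) ≠ 0) (hjc : R.IsGaussChart j) (ht : t ∈ R.Rw)
    (hrel : j * t ^ 2 = (t + 256) ^ 3) :
    Module.finrank k⟮R.red ⟨j, hjc.1⟩⟯ Ft = 3 * Module.finrank k⟮R.red ⟨t, ht⟩⟯ Ft :=
  finrank_two h2 (transcendental_k_two R h2 hjc ht hrel) (red_rel_two R hjc.1 ht hrel)

theorem adjoin_le_K_two (h2 : (2 : k) ≠ 0) (hjc : R.IsGaussChart j)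
    (hrel : j * t ^ 2 = (t + 256) ^ 3) : K⟮j⟯ ≤ K⟮t⟯ :=
  adjoin_le_two (transcendental_K_two R h2 hjc hrel) hrel

theorem adjoin_le_k_two (h2 : (2 : k) ≠ 0) (hjc : R.IsGaussChart j) (ht : t ∈ R.Rw)
    (hrel : j * t ^ 2 = (t + 256) ^ 3) : k⟮R.red ⟨j, hjc.1⟩⟯ ≤ k⟮R.red ⟨t, ht⟩⟯ :=
  adjoin_le_two (transcendental_k_two R h2 hjc ht hrel) (red_rel_two R hjc.1 ht hrel)

theorem finiteDimensional_K_two (h2 : (2 : k) ≠ 0) (hjc : R.IsGaussChart j)
    (hrel : j * t ^ 2 = (t + 256) ^ 3) [FiniteDimensional K⟮j⟯ F] :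
    FiniteDimensional K⟮t⟯ F :=
  finiteDimensional_of_le (adjoin_le_K_two R h2 hjc hrel)

theorem finiteDimensional_k_two (h2 : (2 : k) ≠ 0) (hjc : R.IsGaussChart j) (ht : t ∈ R.Rw)
    (hrel : j * t ^ 2 = (t + 256) ^ 3) [FiniteDimensional k⟮R.red ⟨j, hjc.1⟩⟯ Ft] :
    FiniteDimensional k⟮R.red ⟨t, ht⟩⟯ Ft :=
  finiteDimensional_of_le (adjoin_le_k_two R h2 hjc ht hrel)

/-- **(C4), level 2**: the degree inequality passes from the `j`-chart to the `t`-chart. -/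
theorem finrank_le_two (h2 : (2 : k) ≠ 0) (hjc : R.IsGaussChart j) (ht : t ∈ R.Rw)
    (hrel : j * t ^ 2 = (t + 256) ^ 3)
    (hdeg : Module.finrank K⟮j⟯ F ≤ Module.finrank k⟮R.red ⟨j, hjc.1⟩⟯ Ft) :
    Module.finrank K⟮t⟯ F ≤ Module.finrank k⟮R.red ⟨t, ht⟩⟯ Ft := by
  rw [finrank_K_two R h2 hjc hrel, finrank_k_two R h2 hjc ht hrel] at hdeg
  omega

end Two

/-! ### Level 3 -/

section Three

variable {j t : F}

/-- `t` is integral over `Rw` by the level-3 relation, hence lies in `Rw` -/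
theorem mem_Rw_three (hj : j ∈ R.Rw) (hrel : j * t ^ 3 = (t + 27) * (t + 243) ^ 3) :
    t ∈ R.Rw := by
  refine mem_Rw_of_monic_root R
    ((X + C 27) * (X + C 243) ^ 3 - C (⟨j, hj⟩ : R.Rw) * X ^ 3) ?_ ?_
  · have hdeg : ((X + C 27) * (X + C 243) ^ 3 : R.Rw[X]).degree = 4 := by
      rw [degree_mul, degree_pow, degree_X_add_C, degree_X_add_C]; norm_num
    apply Polynomial.Monic.sub_of_left ((monic_X_add_C _).mul ((monic_X_add_C _).pow 3))
    rw [hdeg]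
    exact lt_of_le_of_lt (degree_C_mul_X_pow_le 3 _) (by norm_num)
  · have h27 : algebraMap R.Rw F 27 = 27 := map_ofNat _ 27
    have h243 : algebraMap R.Rw F 243 = 243 := map_ofNat _ 243
    simp only [eval₂_sub, eval₂_pow, eval₂_add, eval₂_X, eval₂_C, eval₂_mul, h27, h243]
    rw [show algebraMap R.Rw F ⟨j, hj⟩ = j from rfl, hrel, sub_self]

/-- the level-3 relation on the special fibre -/
theorem red_rel_three (hj : j ∈ R.Rw) (ht : t ∈ R.Rw)
    (hrel : j * t ^ 3 = (t + 27) * (t + 243) ^ 3) :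
    R.red ⟨j, hj⟩ * R.red ⟨t, ht⟩ ^ 3 = (R.red ⟨t, ht⟩ + 27) * (R.red ⟨t, ht⟩ + 243) ^ 3 := by
  have h : (⟨j, hj⟩ : R.Rw) * ⟨t, ht⟩ ^ 3 = (⟨t, ht⟩ + 27) * (⟨t, ht⟩ + 243) ^ 3 := by
    apply Subtype.ext
    push_cast
    exact hrel
  have := congrArg R.red h
  simpa only [map_mul, map_pow, map_add, map_ofNat] using this

/-- `t` is a Gauss chart as soon as `j` is -/
theorem isGaussChart_three (h3 : (3 : k) ≠ 0) (hjc : R.IsGaussChart j)
    (hrel : j * t ^ 3 = (t + 27) * (t + 243) ^ 3) : R.IsGaussChart t :=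
  ⟨mem_Rw_three R hjc.1 hrel,
    transcendental_three h3 hjc.2 (red_rel_three R hjc.1 (mem_Rw_three R hjc.1 hrel) hrel)⟩

theorem transcendental_K_three (h3 : (3 : k) ≠ 0) (hjc : R.IsGaussChart j)
    (hrel : j * t ^ 3 = (t + 27) * (t + 243) ^ 3) : Transcendental K t :=
  transcendental_three (three_ne_zero_of_res R h3)
    (Fermat.Agent.GJ.S37.ResDeg.RedData.transcendental_of_isGaussChart R hjc) hrel

theorem transcendental_k_three (h3 : (3 : k) ≠ 0) (hjc : R.IsGaussChart j) (ht : t ∈ R.Rw)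
    (hrel : j * t ^ 3 = (t + 27) * (t + 243) ^ 3) : Transcendental k (R.red ⟨t, ht⟩) :=
  transcendental_three h3 hjc.2 (red_rel_three R hjc.1 ht hrel)

/-- `[F : K(j)] = 4 [F : K(t)]` -/
theorem finrank_K_three (h3 : (3 : k) ≠ 0) (hjc : R.IsGaussChart j)
    (hrel : j * t ^ 3 = (t + 27) * (t + 243) ^ 3) :
    Module.finrank K⟮j⟯ F = 4 * Module.finrank K⟮t⟯ F :=
  finrank_three (three_ne_zero_of_res R h3) (transcendental_K_three R h3 hjc hrel) hrel

/-- `[Ft : k(j~)] = 4 [Ft : k(t~)]` -/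
theorem finrank_k_three (h3 : (3 : k) ≠ 0) (hjc : R.IsGaussChart j) (ht : t ∈ R.Rw)
    (hrel : j * t ^ 3 = (t + 27) * (t + 243) ^ 3) :
    Module.finrank k⟮R.red ⟨j, hjc.1⟩⟯ Ft = 4 * Module.finrank k⟮R.red ⟨t, ht⟩⟯ Ft :=
  finrank_three h3 (transcendental_k_three R h3 hjc ht hrel) (red_rel_three R hjc.1 ht hrel)

theorem adjoin_le_K_three (h3 : (3 : k) ≠ 0) (hjc : R.IsGaussChart j)
    (hrel : j * t ^ 3 = (t + 27) * (t + 243) ^ 3) : K⟮j⟯ ≤ K⟮t⟯ :=
  adjoin_le_three (transcendental_K_three R h3 hjc hrel) hrel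

theorem adjoin_le_k_three (h3 : (3 : k) ≠ 0) (hjc : R.IsGaussChart j) (ht : t ∈ R.Rw)
    (hrel : j * t ^ 3 = (t + 27) * (t + 243) ^ 3) :
    k⟮R.red ⟨j, hjc.1⟩⟯ ≤ k⟮R.red ⟨t, ht⟩⟯ :=
  adjoin_le_three (transcendental_k_three R h3 hjc ht hrel) (red_rel_three R hjc.1 ht hrel)

theorem finiteDimensional_K_three (h3 : (3 : k) ≠ 0) (hjc : R.IsGaussChart j)
    (hrel : j * t ^ 3 = (t + 27) * (t + 243) ^ 3) [FiniteDimensional K⟮j⟯ F] :
    FiniteDimensional K⟮t⟯ F :=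
  finiteDimensional_of_le (adjoin_le_K_three R h3 hjc hrel)

theorem finiteDimensional_k_three (h3 : (3 : k) ≠ 0) (hjc : R.IsGaussChart j) (ht : t ∈ R.Rw)
    (hrel : j * t ^ 3 = (t + 27) * (t + 243) ^ 3) [FiniteDimensional k⟮R.red ⟨j, hjc.1⟩⟯ Ft] :
    FiniteDimensional k⟮R.red ⟨t, ht⟩⟯ Ft :=
  finiteDimensional_of_le (adjoin_le_k_three R h3 hjc ht hrel)

/-- **(C4), level 3**: the degree inequality passes from the `j`-chart to the `t`-chart. -/
theorem finrank_le_three (h3 : (3 : k) ≠ 0) (hjc : R.IsGaussChart j) (ht : t ∈ R.Rw)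
    (hrel : j * t ^ 3 = (t + 27) * (t + 243) ^ 3)
    (hdeg : Module.finrank K⟮j⟯ F ≤ Module.finrank k⟮R.red ⟨j, hjc.1⟩⟯ Ft) :
    Module.finrank K⟮t⟯ F ≤ Module.finrank k⟮R.red ⟨t, ht⟩⟯ Ft := by
  rw [finrank_K_three R h3 hjc hrel, finrank_k_three R h3 hjc ht hrel] at hdeg
  omega

end Three

end

end Fermat.Agent.GJ.Aux.DegChart
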