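import Fermat.Agent.GJ.AuxLevel.Degree
import Fermat.Agent.S24_helper62.CuspEmb

/-!
# GATE-J / J1-AUX / AUX-DEG, modular application: `[F_N : ℚ̄(t)] = ψ(N) / ψ(M)`

For any element `t` of `F_N = ℚ̄(X₀(N))` satisfying the level-2 identity `j t² = (t + 256)³`
(resp. the level-3 identity `j t³ = (t + 27)(t + 243)³`), `t` is transcendental over `ℚ̄`,
`F_N` is finite over `ℚ̄(t)` and `3 [F_N : ℚ̄(t)] = ψ(N)` (resp. `4 [F_N : ℚ̄(t)] = ψ(N)`).
Inputs: T24 `m9` (`[F_N : ℚ̄(j)] = ψ(N)`) and the rational-function degree of `Degree.lean`.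
-/

set_option autoImplicit false

noncomputable section

namespace Fermat.Agent.GJ.Aux.Degree

open Polynomial IntermediateField ModularCurve
open Fermat.Agent.S24

variable (N : ℕ) [NeZero N]

theorem dedekindPsi_two : dedekindPsi 2 = 3 := by
  unfold dedekindPsi; decide +kernel

theorem dedekindPsi_three : dedekindPsi 3 = 4 := by
  unfold dedekindPsi; decide +kernel

theorem dedekindPsi_pos_of_m9 : 0 < dedekindPsi N := by
  obtain ⟨_, hfin, hdeg⟩ := Fermat.Agent.S24_helper62.m9 N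
  rw [← hdeg]
  exact Module.finrank_pos

section Two

variable {N} {t : FN N}

theorem transcendental_t2 (hj : jF N * t ^ 2 = (t + 256) ^ 3) : Transcendental Kbar t :=
  transcendental_two (two_ne_zero) (Fermat.Agent.S24_helper62.m9 N).1 hj

/-- `3 [F_N : ℚ̄(t₂)] = ψ(N)`. -/
theorem three_mul_finrank_t2 (hj : jF N * t ^ 2 = (t + 256) ^ 3) :
    3 * Module.finrank Kbar⟮t⟯ (FN N) = dedekindPsi N := by
  rw [← finrank_two two_ne_zero (transcendental_t2 hj) hj]
  exact (Fermat.Agent.S24_helper62.m9 N).2.2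

theorem finrank_t2 (hj : jF N * t ^ 2 = (t + 256) ^ 3) :
    Module.finrank Kbar⟮t⟯ (FN N) = dedekindPsi N / dedekindPsi 2 := by
  rw [dedekindPsi_two, ← three_mul_finrank_t2 hj, Nat.mul_div_cancel_left _ (by norm_num)]

theorem finiteDimensional_t2 (hj : jF N * t ^ 2 = (t + 256) ^ 3) :
    FiniteDimensional Kbar⟮t⟯ (FN N) := by
  apply FiniteDimensional.of_finrank_pos
  have := three_mul_finrank_t2 hj
  have hpos := dedekindPsi_pos_of_m9 N
  omega

theorem adjoin_jF_le_t2 (hj : jF N * t ^ 2 = (t + 256) ^ 3) : Kbar⟮jF N⟯ ≤ Kbar⟮t⟯ :=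
  adjoin_le_two (transcendental_t2 hj) hj

theorem relfinrank_t2 (hj : jF N * t ^ 2 = (t + 256) ^ 3) :
    relfinrank Kbar⟮jF N⟯ Kbar⟮t⟯ = 3 :=
  relfinrank_two two_ne_zero (transcendental_t2 hj) hj

end Two

section Three

variable {N} {t : FN N}

theorem transcendental_t3 (hj : jF N * t ^ 3 = (t + 27) * (t + 243) ^ 3) :
    Transcendental Kbar t :=
  transcendental_three (three_ne_zero) (Fermat.Agent.S24_helper62.m9 N).1 hj

/-- `4 [F_N : ℚ̄(t₃)] = ψ(N)`. -/
theorem four_mul_finrank_t3 (hj : jF N * t ^ 3 = (t + 27) * (t + 243) ^ 3) :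
    4 * Module.finrank Kbar⟮t⟯ (FN N) = dedekindPsi N := by
  rw [← finrank_three three_ne_zero (transcendental_t3 hj) hj]
  exact (Fermat.Agent.S24_helper62.m9 N).2.2

theorem finrank_t3 (hj : jF N * t ^ 3 = (t + 27) * (t + 243) ^ 3) :
    Module.finrank Kbar⟮t⟯ (FN N) = dedekindPsi N / dedekindPsi 3 := by
  rw [dedekindPsi_three, ← four_mul_finrank_t3 hj, Nat.mul_div_cancel_left _ (by norm_num)]

theorem finiteDimensional_t3 (hj : jF N * t ^ 3 = (t + 27) * (t + 243) ^ 3) :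
    FiniteDimensional Kbar⟮t⟯ (FN N) := by
  apply FiniteDimensional.of_finrank_pos
  have := four_mul_finrank_t3 hj
  have hpos := dedekindPsi_pos_of_m9 N
  omega

theorem adjoin_jF_le_t3 (hj : jF N * t ^ 3 = (t + 27) * (t + 243) ^ 3) :
    Kbar⟮jF N⟯ ≤ Kbar⟮t⟯ :=
  adjoin_le_three (transcendental_t3 hj) hj

theorem relfinrank_t3 (hj : jF N * t ^ 3 = (t + 27) * (t + 243) ^ 3) :
    relfinrank Kbar⟮jF N⟯ Kbar⟮t⟯ = 4 :=
  relfinrank_three three_ne_zero (transcendental_t3 hj) hj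

end Three

end Fermat.Agent.GJ.Aux.Degree
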