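import Fermat.Agent.GJ.AuxLevel.BranchJ
import Fermat.Agent.GJ.AuxLevel.BranchT

/-!
# GATE-J / J1-AUX / AUX-BR: branch data of `F_N / ℚ̄(t)` for a Hauptmodul `t ∈ F_N`

`F_N = modularFunctionFieldBar N` (the T24 field `FN N`), `t ∈ F_N` with
`j · t² = (t + 256)³` (so `2 ∣ N` in practice) resp. `j · t³ = (t + 27)(t + 243)³` (`3 ∣ N`).
Then `F_N / ℚ̄(t)` is unramified outside `t ∈ {0, ∞, β}`, `β = -64` resp. `β = -27`, and the
ramification indices over `β` divide `2` resp. `3`.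
-/

set_option autoImplicit false

noncomputable section

namespace Fermat.Agent.GJ.Aux.Branch

open AlgebraicCurve Fermat.Agent.S24

variable (N : ℕ) [NeZero N]

/-- T24: the ramification behaviour of `F_N / ℚ̄(j)` over the finite values of `j`. -/
theorem jRam (v : Place Kbar (FN N)) : JRam v (jF N) :=
  ⟨fun c h0 h1 h => ord_j_sub_eq_one N v c h0 h1 h, ord_j_sub_1728_dvd N v,
    ord_j_sub_zero_dvd N v⟩

variable {N}

/-- **level `2 ∣ N`**: `F_N / ℚ̄(t₂)` is unramified outside `t₂ ∈ {0, ∞, -64}`. -/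
theorem unramified_of_ne_two {t : FN N} (hrel : jF N * t ^ 2 = (t + 256) ^ 3)
    (v : Place Kbar (FN N)) (c : Kbar) (hc0 : c ≠ 0) (hcb : c ≠ -64)
    (h : 0 < v.ord (t - algebraMap Kbar (FN N) c)) :
    v.ord (t - algebraMap Kbar (FN N) c) = 1 :=
  t2_unramified_of_ne (jRam N v) hrel c hc0 hcb h

/-- **level `2 ∣ N`**: over `t₂ = β = -64` the ramification indices divide `2`. -/
theorem ord_beta_dvd_two {t : FN N} (hrel : jF N * t ^ 2 = (t + 256) ^ 3)
    (v : Place Kbar (FN N)) (h : 0 < v.ord (t - algebraMap Kbar (FN N) (-64))) :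
    v.ord (t - algebraMap Kbar (FN N) (-64)) ∣ 2 :=
  t2_ord_beta_dvd (jRam N v) hrel h

/-- **level `3 ∣ N`**: `F_N / ℚ̄(t₃)` is unramified outside `t₃ ∈ {0, ∞, -27}`. -/
theorem unramified_of_ne_three {t : FN N} (hrel : jF N * t ^ 3 = (t + 27) * (t + 243) ^ 3)
    (v : Place Kbar (FN N)) (c : Kbar) (hc0 : c ≠ 0) (hcb : c ≠ -27)
    (h : 0 < v.ord (t - algebraMap Kbar (FN N) c)) :
    v.ord (t - algebraMap Kbar (FN N) c) = 1 :=
  t3_unramified_of_ne (jRam N v) hrel c hc0 hcb h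

/-- **level `3 ∣ N`**: over `t₃ = β = -27` the ramification indices divide `3`. -/
theorem ord_beta_dvd_three {t : FN N} (hrel : jF N * t ^ 3 = (t + 27) * (t + 243) ^ 3)
    (v : Place Kbar (FN N)) (h : 0 < v.ord (t - algebraMap Kbar (FN N) (-27))) :
    v.ord (t - algebraMap Kbar (FN N) (-27)) ∣ 3 :=
  t3_ord_beta_dvd (jRam N v) hrel h

/-- **level `1`** (`ℓ ≥ 5`, `t = j`): `F_N / ℚ̄(j)` is unramified outside `j ∈ {0, 1728, ∞}`. -/
theorem unramified_of_ne_one (v : Place Kbar (FN N)) (c : Kbar) (hc0 : c ≠ 0) (hc1 : c ≠ 1728)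
    (h : 0 < v.ord (jF N - algebraMap Kbar (FN N) c)) :
    v.ord (jF N - algebraMap Kbar (FN N) c) = 1 :=
  ord_j_sub_eq_one N v c hc0 hc1 h

end Fermat.Agent.GJ.Aux.Branch
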