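import Mathlib
import Fermat.Agent.S24.PlaceBasic

/-!
# GATE-J / J1-AUX: evaluation of polynomials at a place

For a place `v` of `F / K`, a constant `c : K` and `t : F` with `0 < ord_v (t - c)`:
`ord_v (G(t)) = 0` if `G(c) ≠ 0`, and `ord_v (P(t)) = k * ord_v (t - c)` if `P = (X - c)^k * G`,
`G(c) ≠ 0` (in particular for a simple root, detected by the derivative).
Everything is stated for the valuation `v.adicValuation` and then translated to `ord`.
-/

set_option autoImplicit false

noncomputable section

namespace Fermat.Agent.GJ.Aux.PlaceVal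

open AlgebraicCurve Polynomial WithZero
open Fermat.Agent.S24

variable {K F : Type*} [Field K] [Field F] [Algebra K F] (v : Place K F)

theorem val_algebraMap {a : K} (ha : a ≠ 0) : v.adicValuation (algebraMap K F a) = 1 := by
  have h1 : algebraMap K F a ≠ 0 := by simpa using ha
  have h := PlaceB.ord_algebraMap v ha
  rw [Place.ord, neg_eq_zero] at h
  have h2 := WithZero.exp_log (v.adicValuation_ne_zero h1)
  rw [h, WithZero.exp_zero] at h2
  exact h2.symm

theorem val_algebraMap_le_one (a : K) : v.adicValuation (algebraMap K F a) ≤ 1 := by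
  rcases eq_or_ne a 0 with rfl | ha
  · simp
  · exact (val_algebraMap v ha).le

theorem val_lt_one_of_ord_pos {f : F} (h : 0 < v.ord f) : v.adicValuation f < 1 := by
  have hf : f ≠ 0 := by
    rintro rfl
    simp at h
  exact (PlaceB.ord_pos_iff v hf).mp h

theorem ord_pos_of_val_lt_one {f : F} (hf : f ≠ 0) (h : v.adicValuation f < 1) : 0 < v.ord f :=
  (PlaceB.ord_pos_iff v hf).mpr h

/-- translation `valuation ↔ ord` for a power relation -/
theorem ord_eq_mul_of_val_eq_pow {f g : F} (hg : g ≠ 0) (k : ℕ)
    (h : v.adicValuation f = v.adicValuation g ^ k) : v.ord f = k * v.ord g := by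
  rw [Place.ord, Place.ord, h, WithZero.log_pow]
  simp

theorem val_le_one_of_sub_lt {t : F} {c : K} (h : v.adicValuation (t - algebraMap K F c) < 1) :
    v.adicValuation t ≤ 1 := by
  have : t = (t - algebraMap K F c) + algebraMap K F c := by ring
  rw [this]
  exact (v.adicValuation.map_add _ _).trans (max_le h.le (val_algebraMap_le_one v c))

theorem val_aeval_le_one {t : F} (ht : v.adicValuation t ≤ 1) (G : K[X]) :
    v.adicValuation (aeval t G) ≤ 1 := by
  induction G using Polynomial.induction_on with
  | C a => rw [aeval_C]; exact val_algebraMap_le_one v a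
  | add p q hp hq => rw [map_add]; exact (v.adicValuation.map_add _ _).trans (max_le hp hq)
  | monomial n a h =>
    rw [map_mul, aeval_C, map_pow, aeval_X, map_mul, map_pow]
    exact mul_le_one' (val_algebraMap_le_one v a) (pow_le_one' ht _)

/-- **unit criterion**: `G(t)` is a unit at `v` if `t ≡ c` and `G(c) ≠ 0`. -/
theorem val_aeval_eq_one (G : K[X]) {c : K} (hG : G.eval c ≠ 0) {t : F}
    (h : v.adicValuation (t - algebraMap K F c) < 1) : v.adicValuation (aeval t G) = 1 := by
  have hdecomp : G = C (G.eval c) + (X - C c) * (G /ₘ (X - C c)) := by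
    have := Polynomial.modByMonic_add_div G (X - C c)
    rw [Polynomial.modByMonic_X_sub_C_eq_C_eval] at this
    exact this.symm
  have ht := val_le_one_of_sub_lt v h
  have h1 : aeval t G = algebraMap K F (G.eval c) +
      (t - algebraMap K F c) * aeval t (G /ₘ (X - C c)) := by
    conv_lhs => rw [hdecomp]
    rw [map_add, map_mul, map_sub, aeval_C, aeval_X, aeval_C]
  have h2 : v.adicValuation ((t - algebraMap K F c) * aeval t (G /ₘ (X - C c))) < 1 := by
    rw [map_mul]
    exact mul_lt_one_of_lt_of_le h (val_aeval_le_one v ht _)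
  rw [h1, Valuation.map_add_eq_of_lt_left, val_algebraMap v hG]
  rw [val_algebraMap v hG]
  exact h2

/-- **root of exact multiplicity `k`**. -/
theorem val_aeval_pow_mul (k : ℕ) (G : K[X]) {c : K} (hG : G.eval c ≠ 0) {t : F}
    (h : v.adicValuation (t - algebraMap K F c) < 1) :
    v.adicValuation (aeval t ((X - C c) ^ k * G)) = v.adicValuation (t - algebraMap K F c) ^ k := by
  rw [map_mul, map_pow, map_sub, aeval_X, aeval_C, map_mul, map_pow, val_aeval_eq_one v G hG h,
    mul_one]

/-- **simple root**, detected by the derivative. -/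
theorem val_aeval_of_simple_root (P : K[X]) {c : K} (h0 : P.eval c = 0)
    (h1 : P.derivative.eval c ≠ 0) {t : F}
    (h : v.adicValuation (t - algebraMap K F c) < 1) :
    v.adicValuation (aeval t P) = v.adicValuation (t - algebraMap K F c) := by
  have hP : (X - C c) * (P /ₘ (X - C c)) = P :=
    Polynomial.mul_divByMonic_eq_iff_isRoot.mpr h0
  have hG : (P /ₘ (X - C c)).eval c ≠ 0 := by
    intro hz
    apply h1
    rw [← hP, derivative_mul, eval_add, eval_mul, eval_mul, hz]
    simp
  have := val_aeval_pow_mul v 1 (P /ₘ (X - C c)) hG h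
  rwa [pow_one, pow_one, hP] at this

end Fermat.Agent.GJ.Aux.PlaceVal
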