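import Fermat.Agent.GJ.AuxLevel.BranchT24
import Fermat.Agent.GJ.AuxLevel.PlaceVal

/-!
# GATE-J / J1-AUX / AUX-BR: branch data of `F_N / ℚ̄(t)` for the Hauptmoduln `t₂`, `t₃`

`t : FN N` is ANY element with `j · t² = (t+256)³` (level `2 ∣ N`, `t = t₂ = (η(z)/η(2z))^24`) resp.
`j · t³ = (t+27)(t+243)³` (level `3 ∣ N`, `t = t₃ = (η(z)/η(3z))^12`); the identity is a HYPOTHESIS
(delivered by AUX-HM).  Then, away from `t = 0, ∞`:

* `M = 2`: the only branch value is `β = -64` (the elliptic point of order 2 of `X₀(2)`), where the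
  ramification index divides `2`;   [`(t+256)³ - 1728 t² = (t-512)² (t+64)`]
* `M = 3`: the only branch value is `β = -27` (the elliptic point of order 3 of `X₀(3)`), where the
  ramification index divides `3`.   [`(t+27)(t+243)³ - 1728 t³ = (t² - 486 t - 19683)²`]

Pure algebra on top of the T24 facts `ord_jF_sub_eq_one`, `ord_jF_sub_1728_dvd`,
`ord_jF_sub_zero_dvd` (no Abhyankar: multiplicativity of `ord` along `j = R_M(t)`).
-/

set_option autoImplicit false

noncomputable section

namespace Fermat.Agent.GJ.Aux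

open AlgebraicCurve Polynomial
open Fermat.Agent.S24 Fermat.Agent.GJ.Aux.PlaceVal

variable (N : ℕ) [NeZero N]

local notation "ι" => algebraMap Kbar (FN N)

/-- small arithmetic helper: `a * n ∣ a`, `0 < n`, `0 < a`  ⟹  `n = 1` -/
private theorem eq_one_of_mul_dvd {a n : ℤ} (ha : 0 < a) (hn : 0 < n) (h : a * n ∣ a) : n = 1 := by
  obtain ⟨k, hk⟩ := h
  have h1 : a * (n * k) = a * 1 := by rw [← mul_assoc, ← hk, mul_one]
  have h2 : n * k = 1 := mul_left_cancel₀ ha.ne' h1
  have h3 := Int.eq_one_or_neg_one_of_mul_eq_one h2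
  omega

section Two

variable {N}
variable {t : FN N} (hj : jF N * t ^ 2 = (t + 256) ^ 3) (v : Place Kbar (FN N))
include hj

theorem two_sub_1728 : (jF N - ι 1728) * t ^ 2 = (t - 512) ^ 2 * (t + 64) := by
  rw [map_ofNat, sub_mul, hj]; ring

theorem two_t_ne_zero : t ≠ 0 := by
  rintro rfl
  norm_num at hj

omit hj in
/-- `ord_v t = 0` at every place where `t ≡ c ≠ 0` -/
theorem two_val_t {c : Kbar} (hc0 : c ≠ 0) (h : v.adicValuation (t - ι c) < 1) :
    v.adicValuation t = 1 := by
  have := val_aeval_eq_one v (X : Kbar[X]) (c := c) (by simpa using hc0) h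
  simpa using this

/-- generic value: `ord_v (j - R₂(c)) = ord_v (t - c)` -/
theorem two_val_generic {c : Kbar} (hc0 : c ≠ 0) (hc1 : c ≠ -256) (hc2 : c ≠ 512)
    (h : v.adicValuation (t - ι c) < 1) :
    v.adicValuation (jF N - ι ((c + 256) ^ 3 / c ^ 2)) = v.adicValuation (t - ι c) := by
  set P : Kbar[X] := C (c ^ 2) * (X + C 256) ^ 3 - C ((c + 256) ^ 3) * X ^ 2 with hP
  have hP0 : P.eval c = 0 := by
    simp only [hP, eval_sub, eval_mul, eval_C, eval_pow, eval_add, eval_X]; ring
  have hP1 : P.derivative.eval c ≠ 0 := by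
    have : P.derivative.eval c = c * (c + 256) ^ 2 * (c - 512) := by
      simp only [hP, derivative_sub, derivative_mul, derivative_C, derivative_pow, derivative_add,
        derivative_X, eval_sub, eval_mul, eval_C, eval_pow, eval_add, eval_X, eval_zero,
        eval_one, eval_natCast, zero_mul, zero_add, add_zero, mul_one]
      push_cast; ring
    rw [this]
    refine mul_ne_zero (mul_ne_zero hc0 (pow_ne_zero _ ?_)) (sub_ne_zero.mpr hc2)
    intro h0; exact hc1 (eq_neg_of_add_eq_zero_left h0)
  have key := val_aeval_of_simple_root v P hP0 hP1 h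
  have hcc : ι ((c + 256) ^ 3 / c ^ 2) * ι c ^ 2 = (ι c + 256) ^ 3 := by
    rw [← map_pow, ← map_mul, div_mul_cancel₀ _ (pow_ne_zero 2 hc0), map_pow, map_add, map_ofNat]
  have hev : aeval t P = (jF N - ι ((c + 256) ^ 3 / c ^ 2)) * t ^ 2 * ι c ^ 2 := by
    simp only [hP, map_sub, map_mul, map_pow, map_add, aeval_C, aeval_X, map_ofNat]
    rw [sub_mul, sub_mul, hj]
    have : ι ((c + 256) ^ 3 / c ^ 2) * t ^ 2 * ι c ^ 2
        = (ι ((c + 256) ^ 3 / c ^ 2) * ι c ^ 2) * t ^ 2 := by ring
    rw [this, hcc]; ring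
  rw [hev, map_mul, map_mul, map_pow, map_pow, two_val_t v hc0 h,
    val_algebraMap v hc0] at key
  simpa using key

/-- **AUX-BR, `M = 2`**: `F_N / ℚ̄(t₂)` is unramified above every `c ≠ 0, -64`. -/
theorem unramified_of_ne_two (c : Kbar) (hc0 : c ≠ 0) (hcb : c ≠ -64)
    (h : 0 < v.ord (t - ι c)) : v.ord (t - ι c) = 1 := by
  have hs : t - ι c ≠ 0 := by
    intro h0; rw [h0] at h; simp at h
  have hlt := val_lt_one_of_ord_pos v h
  have ht1 := two_val_t v hc0 hlt
  rcases eq_or_ne c (-256) with rfl | hc1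
  · -- over `j = 0`, `e(t/j) = 3`
    have h1 : v.adicValuation (jF N - ι 0) = v.adicValuation (t - ι (-256)) ^ 3 := by
      have := congrArg v.adicValuation hj
      rw [map_mul, map_pow, ht1, one_pow, mul_one, map_pow] at this
      rw [map_zero, sub_zero, this, map_neg, map_ofNat, sub_neg_eq_add]
    have h2 := ord_eq_mul_of_val_eq_pow v hs 3 h1
    have hpos : 0 < v.ord (jF N - ι 0) := by rw [h2]; positivity
    have h3 := ord_jF_sub_zero_dvd N v hpos
    rw [h2] at h3
    exact eq_one_of_mul_dvd (a := 3) (by norm_num) h (by simpa using h3)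
  rcases eq_or_ne c 512 with rfl | hc2
  · -- over `j = 1728`, `e(t/j) = 2`
    have hu : v.adicValuation (t + 64) = 1 := by
      have := val_aeval_eq_one v (X + C 64 : Kbar[X]) (c := 512) (by norm_num) hlt
      rwa [map_add, aeval_X, aeval_C, map_ofNat] at this
    have h1 : v.adicValuation (jF N - ι 1728) = v.adicValuation (t - ι 512) ^ 2 := by
      have := congrArg v.adicValuation (two_sub_1728 hj)
      rw [map_mul, map_pow, ht1, one_pow, mul_one, map_mul, map_pow, hu, mul_one] at this
      rw [this, map_ofNat]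
    have h2 := ord_eq_mul_of_val_eq_pow v hs 2 h1
    have hpos : 0 < v.ord (jF N - ι 1728) := by rw [h2]; positivity
    have h3 := ord_jF_sub_1728_dvd N v hpos
    rw [h2] at h3
    exact eq_one_of_mul_dvd (a := 2) (by norm_num) h (by simpa using h3)
  · -- generic
    have h1 := two_val_generic hj v hc0 hc1 hc2 hlt
    have h2 : v.ord (jF N - ι ((c + 256) ^ 3 / c ^ 2)) = v.ord (t - ι c) := by
      have := ord_eq_mul_of_val_eq_pow v (f := jF N - ι ((c + 256) ^ 3 / c ^ 2)) hs 1
        (by rw [pow_one]; exact h1)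
      rwa [Nat.cast_one, one_mul] at this
    have hc0' : (c + 256) ^ 3 / c ^ 2 ≠ 0 := by
      refine div_ne_zero (pow_ne_zero _ ?_) (pow_ne_zero _ hc0)
      intro h0; exact hc1 (eq_neg_of_add_eq_zero_left h0)
    have hc1728 : (c + 256) ^ 3 / c ^ 2 ≠ 1728 := by
      intro h0
      rw [div_eq_iff (pow_ne_zero 2 hc0)] at h0
      have : (c - 512) ^ 2 * (c + 64) = 0 := by linear_combination h0
      rcases mul_eq_zero.mp this with h5 | h5
      · exact hc2 (sub_eq_zero.mp (pow_eq_zero_iff (two_ne_zero)|>.mp h5))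
      · exact hcb (eq_neg_of_add_eq_zero_left h5)
    have := ord_jF_sub_eq_one N hc0' hc1728 v (by rw [h2]; exact h)
    rw [h2] at this
    exact this

/-- **AUX-BR, `M = 2`**: at the branch value `β = -64` the ramification index divides `2`. -/
theorem ord_beta_dvd_two (h : 0 < v.ord (t - ι (-64))) : v.ord (t - ι (-64)) ∣ 2 := by
  have hs : t - ι (-64) ≠ 0 := by
    intro h0; rw [h0] at h; simp at h
  have hlt := val_lt_one_of_ord_pos v h
  have ht1 := two_val_t v (by norm_num) hlt
  have hu : v.adicValuation (t - 512) = 1 := by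
    have := val_aeval_eq_one v (X - C 512 : Kbar[X]) (c := -64) (by norm_num) hlt
    rwa [map_sub, aeval_X, aeval_C, map_ofNat] at this
  have h1 : v.adicValuation (jF N - ι 1728) = v.adicValuation (t - ι (-64)) ^ 1 := by
    have := congrArg v.adicValuation (two_sub_1728 hj)
    rw [map_mul, map_pow, ht1, one_pow, mul_one, map_mul, map_pow, hu, one_pow, one_mul] at this
    rw [this, pow_one, map_neg, map_ofNat, sub_neg_eq_add]
  have h2 := ord_eq_mul_of_val_eq_pow v hs 1 h1
  rw [Nat.cast_one, one_mul] at h2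
  have h3 := ord_jF_sub_1728_dvd N v (by rw [h2]; exact h)
  rwa [h2] at h3

end Two

section Three

variable {N}
variable {t : FN N} (hj : jF N * t ^ 3 = (t + 27) * (t + 243) ^ 3) (v : Place Kbar (FN N))
include hj

theorem three_sub_1728 :
    (jF N - ι 1728) * t ^ 3 = (t ^ 2 - 486 * t - 19683) ^ 2 := by
  rw [map_ofNat, sub_mul, hj]; ring

theorem three_t_ne_zero : t ≠ 0 := by
  rintro rfl
  norm_num at hj

omit hj in
/-- `ord_v t = 0` at every place where `t ≡ c ≠ 0` -/
theorem three_val_t {c : Kbar} (hc0 : c ≠ 0) (h : v.adicValuation (t - ι c) < 1) :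
    v.adicValuation t = 1 := by
  have := val_aeval_eq_one v (X : Kbar[X]) (c := c) (by simpa using hc0) h
  simpa using this

/-- generic value: `ord_v (j - R₃(c)) = ord_v (t - c)` -/
theorem three_val_generic {c : Kbar} (hc0 : c ≠ 0) (hc1 : c ≠ -243)
    (hc2 : c ^ 2 - 486 * c - 19683 ≠ 0)
    (h : v.adicValuation (t - ι c) < 1) :
    v.adicValuation (jF N - ι ((c + 27) * (c + 243) ^ 3 / c ^ 3))
      = v.adicValuation (t - ι c) := by
  set P : Kbar[X] := C (c ^ 3) * ((X + C 27) * (X + C 243) ^ 3)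
    - C ((c + 27) * (c + 243) ^ 3) * X ^ 3 with hP
  have hP0 : P.eval c = 0 := by
    simp only [hP, eval_sub, eval_mul, eval_C, eval_pow, eval_add, eval_X]; ring
  have hP1 : P.derivative.eval c ≠ 0 := by
    have : P.derivative.eval c = c ^ 2 * (c + 243) ^ 2 * (c ^ 2 - 486 * c - 19683) := by
      simp only [hP, derivative_sub, derivative_mul, derivative_C, derivative_pow, derivative_add,
        derivative_X, eval_sub, eval_mul, eval_C, eval_pow, eval_add, eval_X, eval_zero,
        eval_one, eval_natCast, zero_mul, zero_add, add_zero, mul_one]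
      push_cast; ring
    rw [this]
    refine mul_ne_zero (mul_ne_zero (pow_ne_zero _ hc0) (pow_ne_zero _ ?_)) hc2
    intro h0; exact hc1 (eq_neg_of_add_eq_zero_left h0)
  have key := val_aeval_of_simple_root v P hP0 hP1 h
  have hcc : ι ((c + 27) * (c + 243) ^ 3 / c ^ 3) * ι c ^ 3 = (ι c + 27) * (ι c + 243) ^ 3 := by
    rw [← map_pow, ← map_mul, div_mul_cancel₀ _ (pow_ne_zero 3 hc0), map_mul, map_pow, map_add,
      map_add, map_ofNat, map_ofNat]
  have hev : aeval t P
      = (jF N - ι ((c + 27) * (c + 243) ^ 3 / c ^ 3)) * t ^ 3 * ι c ^ 3 := by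
    simp only [hP, map_sub, map_mul, map_pow, map_add, aeval_C, aeval_X, map_ofNat]
    rw [sub_mul, sub_mul, hj]
    have : ι ((c + 27) * (c + 243) ^ 3 / c ^ 3) * t ^ 3 * ι c ^ 3
        = (ι ((c + 27) * (c + 243) ^ 3 / c ^ 3) * ι c ^ 3) * t ^ 3 := by ring
    rw [this, hcc]; ring
  rw [hev, map_mul, map_mul, map_pow, map_pow, three_val_t v hc0 h,
    val_algebraMap v hc0] at key
  simpa using key

/-- **AUX-BR, `M = 3`**: `F_N / ℚ̄(t₃)` is unramified above every `c ≠ 0, -27`. -/
theorem unramified_of_ne_three (c : Kbar) (hc0 : c ≠ 0) (hcb : c ≠ -27)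
    (h : 0 < v.ord (t - ι c)) : v.ord (t - ι c) = 1 := by
  have hs : t - ι c ≠ 0 := by
    intro h0; rw [h0] at h; simp at h
  have hlt := val_lt_one_of_ord_pos v h
  have ht1 := three_val_t v hc0 hlt
  rcases eq_or_ne c (-243) with rfl | hc1
  · -- over `j = 0`, `e(t/j) = 3`
    have hu : v.adicValuation (t + 27) = 1 := by
      have := val_aeval_eq_one v (X + C 27 : Kbar[X]) (c := -243) (by norm_num) hlt
      rwa [map_add, aeval_X, aeval_C, map_ofNat] at this
    have h1 : v.adicValuation (jF N - ι 0) = v.adicValuation (t - ι (-243)) ^ 3 := by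
      have := congrArg v.adicValuation hj
      rw [map_mul, map_pow, ht1, one_pow, mul_one, map_mul, map_pow, hu, one_mul] at this
      rw [map_zero, sub_zero, this, map_neg, map_ofNat, sub_neg_eq_add]
    have h2 := ord_eq_mul_of_val_eq_pow v hs 3 h1
    have hpos : 0 < v.ord (jF N - ι 0) := by rw [h2]; positivity
    have h3 := ord_jF_sub_zero_dvd N v hpos
    rw [h2] at h3
    exact eq_one_of_mul_dvd (a := 3) (by norm_num) h (by simpa using h3)
  rcases eq_or_ne (c ^ 2 - 486 * c - 19683) 0 with hc2 | hc2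
  · -- over `j = 1728`, `e(t/j) = 2`
    have hfac : t ^ 2 - 486 * t - 19683 = (t - ι c) * (t + ι (c - 486)) := by
      have : ι (c ^ 2 - 486 * c - 19683) = 0 := by rw [hc2, map_zero]
      rw [map_sub, map_sub, map_mul, map_pow, map_ofNat, map_ofNat] at this
      rw [map_sub, map_ofNat]
      linear_combination this
    have hu : v.adicValuation (t + ι (c - 486)) = 1 := by
      have hne : (X + C (c - 486) : Kbar[X]).eval c ≠ 0 := by
        simp only [eval_add, eval_X, eval_C]
        intro h0
        have hc : c = 243 := by linear_combination h0 / 2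
        rw [hc] at hc2
        norm_num at hc2
      have := val_aeval_eq_one v (X + C (c - 486) : Kbar[X]) hne hlt
      rwa [map_add, aeval_X, aeval_C] at this
    have h1 : v.adicValuation (jF N - ι 1728) = v.adicValuation (t - ι c) ^ 2 := by
      have := congrArg v.adicValuation (three_sub_1728 hj)
      rw [map_mul, map_pow, ht1, one_pow, mul_one, hfac, map_pow, map_mul, hu, mul_one] at this
      exact this
    have h2 := ord_eq_mul_of_val_eq_pow v hs 2 h1
    have hpos : 0 < v.ord (jF N - ι 1728) := by rw [h2]; positivity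
    have h3 := ord_jF_sub_1728_dvd N v hpos
    rw [h2] at h3
    exact eq_one_of_mul_dvd (a := 2) (by norm_num) h (by simpa using h3)
  · -- generic
    have h1 := three_val_generic hj v hc0 hc1 hc2 hlt
    have h2 : v.ord (jF N - ι ((c + 27) * (c + 243) ^ 3 / c ^ 3)) = v.ord (t - ι c) := by
      have := ord_eq_mul_of_val_eq_pow v
        (f := jF N - ι ((c + 27) * (c + 243) ^ 3 / c ^ 3)) hs 1 (by rw [pow_one]; exact h1)
      rwa [Nat.cast_one, one_mul] at this
    have hc27 : c + 27 ≠ 0 := fun h0 => hcb (eq_neg_of_add_eq_zero_left h0)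
    have hc243 : c + 243 ≠ 0 := fun h0 => hc1 (eq_neg_of_add_eq_zero_left h0)
    have hc0' : (c + 27) * (c + 243) ^ 3 / c ^ 3 ≠ 0 :=
      div_ne_zero (mul_ne_zero hc27 (pow_ne_zero _ hc243)) (pow_ne_zero _ hc0)
    have hc1728 : (c + 27) * (c + 243) ^ 3 / c ^ 3 ≠ 1728 := by
      intro h0
      rw [div_eq_iff (pow_ne_zero 3 hc0)] at h0
      have : (c ^ 2 - 486 * c - 19683) ^ 2 = 0 := by linear_combination h0
      exact hc2 (pow_eq_zero_iff (two_ne_zero) |>.mp this)
    have := ord_jF_sub_eq_one N hc0' hc1728 v (by rw [h2]; exact h)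
    rw [h2] at this
    exact this

/-- **AUX-BR, `M = 3`**: at the branch value `β = -27` the ramification index divides `3`. -/
theorem ord_beta_dvd_three (h : 0 < v.ord (t - ι (-27))) : v.ord (t - ι (-27)) ∣ 3 := by
  have hs : t - ι (-27) ≠ 0 := by
    intro h0; rw [h0] at h; simp at h
  have hlt := val_lt_one_of_ord_pos v h
  have ht1 := three_val_t v (by norm_num) hlt
  have hu : v.adicValuation (t + 243) = 1 := by
    have := val_aeval_eq_one v (X + C 243 : Kbar[X]) (c := -27) (by norm_num) hlt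
    rwa [map_add, aeval_X, aeval_C, map_ofNat] at this
  have h1 : v.adicValuation (jF N - ι 0) = v.adicValuation (t - ι (-27)) ^ 1 := by
    have := congrArg v.adicValuation hj
    rw [map_mul, map_pow, ht1, one_pow, mul_one, map_mul, map_pow, hu, one_pow, mul_one] at this
    rw [map_zero, sub_zero, this, pow_one, map_neg, map_ofNat, sub_neg_eq_add]
  have h2 := ord_eq_mul_of_val_eq_pow v hs 1 h1
  rw [Nat.cast_one, one_mul] at h2
  have h3 := ord_jF_sub_zero_dvd N v (by rw [h2]; exact h)
  rwa [h2] at h3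

end Three

end Fermat.Agent.GJ.Aux
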