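import Fermat.Agent.S24.InteriorCounts

/-!
# GATE-J / J1-AUX / AUX-BR, part 1: ramification of `F_N / ℚ̄(j)` at the finite values of `j`

Direct consequences of the T24 orbit lemma (`S24.Interior.Realization.orbit_equiv`,
`S24.InteriorCounts.unramified`): for every place `v` of `F_N = modularFunctionFieldBar N`,

* `v.ord (j - c) = 1` whenever it is positive and `c ≠ 0, 1728`;
* `v.ord (j - 1728) ∣ 2` whenever it is positive;
* `v.ord j ∣ 3` whenever it is positive.
-/

set_option autoImplicit false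

noncomputable section

namespace Fermat.Agent.GJ.Aux.Branch

open AlgebraicCurve MulAction IntermediateField
open Fermat.Agent.S24 Fermat.Agent.S24.InteriorCounts
open scoped MatrixGroups Modular

/-- orbits of a cyclic group generated by `g` have cardinality dividing any exponent `e` with
`g ^ e` acting trivially -/
theorem card_orbit_dvd {I : Type*} [Fintype I] {G : Type*} [Group G] [MulAction G I] (g : G)
    (e : ℕ) (hg : ∀ i : I, g ^ e • i = i) (o : orbitRel.Quotient (Subgroup.zpowers g) I) :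
    Nat.card o.orbit ∣ e := by
  classical
  induction o using Quotient.inductionOn with | _ i => ?_
  change Nat.card (orbitRel.Quotient.orbit (Quotient.mk'' i)) ∣ e
  rw [orbitRel.Quotient.orbit_mk, Nat.card_eq_fintype_card, ← minimalPeriod_eq_card,
    ← period_eq_minimalPeriod]
  exact pow_smul_eq_iff_period_dvd.mp (hg i)

variable (N : ℕ) [NeZero N]

/-- `F_N / ℚ̄(j)` is unramified above every `c ≠ 0, 1728`. -/
theorem ord_j_sub_eq_one (v : Place Kbar (FN N)) (c : Kbar) (h0 : c ≠ 0) (h1 : c ≠ 1728)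
    (h : 0 < v.ord (jF N - algebraMap Kbar (FN N) c)) :
    v.ord (jF N - algebraMap Kbar (FN N) c) = 1 :=
  InteriorCounts.unramified N c h0 h1 ⟨v, h⟩

/-- above `j = 1728` the ramification indices of `F_N / ℚ̄(j)` divide `2`. -/
theorem ord_j_sub_1728_dvd (v : Place Kbar (FN N))
    (h : 0 < v.ord (jF N - algebraMap Kbar (FN N) 1728)) :
    v.ord (jF N - algebraMap Kbar (FN N) 1728) ∣ 2 := by
  haveI := finiteDimensional_adjoin_jF N
  obtain ⟨hfin, hN, hWA⟩ := norm_package N 1728
  haveI := hfin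
  have hcard : Nat.card (Fermat.Agent.S20_helper25.Stab UpperHalfPlane.I) / 2 = 2 := by
    rw [Fermat.Agent.S20_helper25.card_Stab_I]
  have hc' : Fermat.Agent.LevelOne_helper29.jInv UpperHalfPlane.I = (realization N).ι 1728 := by
    rw [realization_ι, map_ofNat]; exact Fermat.Agent.LevelOne_helper29.jInv_I
  have hpow : ModularGroup.S ^ (Nat.card (Fermat.Agent.S20_helper25.Stab UpperHalfPlane.I) / 2) = 1
      ∨ ModularGroup.S ^ (Nat.card (Fermat.Agent.S20_helper25.Stab UpperHalfPlane.I) / 2) = -1 := by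
    rw [hcard]; exact Or.inr Fermat.Agent.S20_helper25.S_sq
  obtain ⟨φ, -, hφ⟩ := (realization N).orbit_equiv hc' Kbar⟮jF N⟯ hN hWA (hprod N)
    (s := ModularGroup.S)
    (Fermat.Agent.S20_helper25.mem_Stab.mp Fermat.Agent.S20_helper25.S_mem_Stab_I) hpow
    (fun _ => by decide) (fun h => by rw [hcard] at h; omega)
  have h1 := hφ (φ.symm ⟨v, h⟩)
  rw [Equiv.apply_symm_apply] at h1
  rw [h1]
  have h2 := card_orbit_dvd (I := I0 N) ModularGroup.S 2
    (fun i => Fermat.Agent.S24.Interior.Realization.pow_smul_coset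
      (Or.inr Fermat.Agent.S20_helper25.S_sq) i)
    (φ.symm ⟨v, h⟩)
  exact_mod_cast h2

/-- above `j = 0` the ramification indices of `F_N / ℚ̄(j)` divide `3`. -/
theorem ord_j_sub_zero_dvd (v : Place Kbar (FN N))
    (h : 0 < v.ord (jF N - algebraMap Kbar (FN N) 0)) :
    v.ord (jF N - algebraMap Kbar (FN N) 0) ∣ 3 := by
  haveI := finiteDimensional_adjoin_jF N
  obtain ⟨hfin, hN, hWA⟩ := norm_package N 0
  haveI := hfin
  have hcard : Nat.card (Fermat.Agent.S20_helper25.Stab UpperHalfPlane.ρ) / 2 = 3 := by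
    rw [Fermat.Agent.S20_helper25.card_Stab_rho]
  have hc' : Fermat.Agent.LevelOne_helper29.jInv UpperHalfPlane.ρ = (realization N).ι 0 := by
    rw [realization_ι, map_zero]; exact Fermat.Agent.LevelOne_helper29.jInv_rho
  have hpow : (ModularGroup.S * ModularGroup.T) ^
        (Nat.card (Fermat.Agent.S20_helper25.Stab UpperHalfPlane.ρ) / 2) = 1
      ∨ (ModularGroup.S * ModularGroup.T) ^
        (Nat.card (Fermat.Agent.S20_helper25.Stab UpperHalfPlane.ρ) / 2) = -1 := by
    rw [hcard]; exact Or.inr Fermat.Agent.S20_helper25.ST_pow_three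
  obtain ⟨φ, -, hφ⟩ := (realization N).orbit_equiv hc' Kbar⟮jF N⟯ hN hWA (hprod N)
    (s := ModularGroup.S * ModularGroup.T)
    (Fermat.Agent.S20_helper25.mem_Stab.mp Fermat.Agent.S20_helper25.ST_mem_Stab_rho) hpow
    (fun h => by rw [hcard] at h; omega) (fun _ => by decide)
  have h1 := hφ (φ.symm ⟨v, h⟩)
  rw [Equiv.apply_symm_apply] at h1
  rw [h1]
  have h2 := card_orbit_dvd (I := I0 N) (ModularGroup.S * ModularGroup.T) 3
    (fun i => Fermat.Agent.S24.Interior.Realization.pow_smul_coset
      (Or.inr Fermat.Agent.S20_helper25.ST_pow_three) i)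
    (φ.symm ⟨v, h⟩)
  exact_mod_cast h2

/-- above `j = 0` the ramification indices divide `3` (stated for `j` itself). -/
theorem ord_j_dvd (v : Place Kbar (FN N)) (h : 0 < v.ord (jF N)) : v.ord (jF N) ∣ 3 := by
  have := ord_j_sub_zero_dvd N v (by rwa [map_zero, sub_zero])
  rwa [map_zero, sub_zero] at this

end Fermat.Agent.GJ.Aux.Branch
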