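import Fermat.Agent.S24.InteriorCounts

/-!
# GATE-J / J1-AUX / AUX-BR, part 1: the T24 ramification facts over `j = 0, 1728` in `ord` form

From the orbit lemma of T24 (`Interior.Realization.orbit_equiv`): at every place `v` of
`F_N = ℚ̄(X₀(N))` with `0 < ord_v (j - 1728)` one has `ord_v (j - 1728) ∣ 2`, and at every place with
`0 < ord_v j` one has `ord_v j ∣ 3`.  Together with `InteriorCounts.unramified` (generic values)
this is the complete branch datum of `F_N / ℚ̄(j)` away from the cusps.
-/

set_option autoImplicit false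

noncomputable section

namespace Fermat.Agent.GJ.Aux

open UpperHalfPlane ModularCurve IntermediateField AlgebraicCurve MulAction
open Fermat.Agent.S24 Fermat.Agent.S24.InteriorCounts
open Fermat.Agent.LevelOne_helper29 (jInv)
open Fermat.Agent.S20_helper25 (Stab mem_Stab)
open scoped MatrixGroups Modular

/-- the cardinality of an orbit of `⟨g⟩` divides every exponent `e` with `g ^ e` acting trivially -/
private theorem card_orbit_zpowers_dvd {G I : Type*} [Group G] [MulAction G I] (g : G) (e : ℕ)
    (hg : ∀ i : I, g ^ e • i = i) (i : I) :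
    Nat.card (MulAction.orbit (Subgroup.zpowers g) i) ∣ e := by
  have h1 : Nat.card (MulAction.orbit (Subgroup.zpowers g) i)
      = Function.minimalPeriod (g • ·) i := by
    rw [Nat.card_congr (MulAction.orbitZPowersEquiv g i), Nat.card_zmod]
  rw [h1]
  apply Function.IsPeriodicPt.minimalPeriod_dvd
  show (fun x : I => g • x)^[e] i = i
  rw [smul_iterate]
  exact hg i

variable (N : ℕ) [NeZero N]

/-- **T24 at `j = 1728`**: the ramification index of every place above `1728` divides `2`. -/
theorem ord_jF_sub_1728_dvd (v : Place Kbar (FN N))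
    (hv : 0 < v.ord (jF N - algebraMap Kbar (FN N) 1728)) :
    v.ord (jF N - algebraMap Kbar (FN N) 1728) ∣ 2 := by
  haveI := finiteDimensional_adjoin_jF N
  obtain ⟨hfin, hN, hWA⟩ := norm_package N 1728
  haveI := hfin
  have hcard : Nat.card (Stab UpperHalfPlane.I) / 2 = 2 := by
    rw [Fermat.Agent.S20_helper25.card_Stab_I]
  have hc' : jInv UpperHalfPlane.I = (realization N).ι (1728 : Kbar) := by
    rw [realization_ι, map_ofNat]; exact Fermat.Agent.LevelOne_helper29.jInv_I
  have hpow : ModularGroup.S ^ (Nat.card (Stab UpperHalfPlane.I) / 2) = 1 ∨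
      ModularGroup.S ^ (Nat.card (Stab UpperHalfPlane.I) / 2) = -1 := by
    rw [hcard]; exact Or.inr Fermat.Agent.S20_helper25.S_sq
  obtain ⟨φ, -, hφ⟩ := (realization N).orbit_equiv hc' Kbar⟮jF N⟯ hN hWA (hprod N)
    (s := ModularGroup.S) (mem_Stab.mp Fermat.Agent.S20_helper25.S_mem_Stab_I) hpow
    (fun _ => by decide) (fun h => by rw [hcard] at h; omega)
  obtain ⟨o, ho⟩ := φ.surjective ⟨v, hv⟩
  have h1 := hφ o
  rw [ho] at h1
  rw [show v.ord (jF N - algebraMap Kbar (FN N) 1728) = (Nat.card o.orbit : ℤ) from h1]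
  induction o using Quotient.inductionOn' with
  | h i =>
    rw [MulAction.orbitRel.Quotient.orbit_mk]
    have := card_orbit_zpowers_dvd (I := I0 N) ModularGroup.S 2
      (fun i => Interior.Realization.pow_smul_coset (N := N) (Or.inr Fermat.Agent.S20_helper25.S_sq) i) i
    exact_mod_cast this

/-- **T24 at `j = 0`**: the ramification index of every place above `0` divides `3`. -/
theorem ord_jF_sub_zero_dvd (v : Place Kbar (FN N))
    (hv : 0 < v.ord (jF N - algebraMap Kbar (FN N) 0)) :
    v.ord (jF N - algebraMap Kbar (FN N) 0) ∣ 3 := by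
  haveI := finiteDimensional_adjoin_jF N
  obtain ⟨hfin, hN, hWA⟩ := norm_package N 0
  haveI := hfin
  have hcard : Nat.card (Stab ρ) / 2 = 3 := by
    rw [Fermat.Agent.S20_helper25.card_Stab_rho]
  have hc' : jInv ρ = (realization N).ι (0 : Kbar) := by
    rw [realization_ι, map_zero]; exact Fermat.Agent.LevelOne_helper29.jInv_rho
  have hpow : (ModularGroup.S * ModularGroup.T) ^ (Nat.card (Stab ρ) / 2) = 1 ∨
      (ModularGroup.S * ModularGroup.T) ^ (Nat.card (Stab ρ) / 2) = -1 := by
    rw [hcard]; exact Or.inr Fermat.Agent.S20_helper25.ST_pow_three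
  obtain ⟨φ, -, hφ⟩ := (realization N).orbit_equiv hc' Kbar⟮jF N⟯ hN hWA (hprod N)
    (s := ModularGroup.S * ModularGroup.T)
    (mem_Stab.mp Fermat.Agent.S20_helper25.ST_mem_Stab_rho) hpow
    (fun h => by rw [hcard] at h; omega) (fun _ => by decide)
  obtain ⟨o, ho⟩ := φ.surjective ⟨v, hv⟩
  have h1 := hφ o
  rw [ho] at h1
  rw [show v.ord (jF N - algebraMap Kbar (FN N) 0) = (Nat.card o.orbit : ℤ) from h1]
  induction o using Quotient.inductionOn' with
  | h i =>
    rw [MulAction.orbitRel.Quotient.orbit_mk]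
    have := card_orbit_zpowers_dvd (I := I0 N) (ModularGroup.S * ModularGroup.T) 3
      (fun i => Interior.Realization.pow_smul_coset (N := N)
        (Or.inr Fermat.Agent.S20_helper25.ST_pow_three) i) i
    exact_mod_cast this

/-- **T24, generic value**: places above `c ∉ {0, 1728}` are unramified. -/
theorem ord_jF_sub_eq_one {c : Kbar} (h0 : c ≠ 0) (h1 : c ≠ 1728) (v : Place Kbar (FN N))
    (hv : 0 < v.ord (jF N - algebraMap Kbar (FN N) c)) :
    v.ord (jF N - algebraMap Kbar (FN N) c) = 1 :=
  InteriorCounts.unramified N c h0 h1 ⟨v, hv⟩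

end Fermat.Agent.GJ.Aux
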