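import Mathlib
import Fermat.Prelude.Def_ModularCurve_ArithmeticGalois
import Fermat.Prelude.Def_ModularCurve_IgusaScheme
import Fermat.Prelude.Def_ModularCurve_JqCoeff

/-!
# GATE-J / J1-AUX / M-DEG (c): the degree over the chart does not grow under base change

Generic statement (Mathlib only).  `K0`, `K` fields, `F0 / K0` and `E / K` field extensions,
`φ : F0 →+* E` compatible with `ι : K0 →+* K`.  If `F0` is finite over `K0(s0)`, the field
`F := K(φ(F0)) ⊆ E` is finite over `K(φ s0)` of degree `≤ [F0 : K0(s0)]`: the `K(φ s0)`-span of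
the `φ`-images of a `K0(s0)`-basis of `F0` is a finite-dimensional subalgebra of a field, hence
a field, containing `K` and `φ(F0)`.

Instance: `F0 = modularFunctionFieldFull N` (with ANY `ℚ`-algebra instance, to be robust against
the `DivisionRing.toRatAlgebra` / `IntermediateField.algebra'` diamond),
`F = laurentBaseChange L F0` (`= modularFunctionFieldBar N` for `L = ℚ̄`), `s0 = jFull N`.
-/

set_option autoImplicit false

noncomputable section

namespace Fermat.Agent.GJ.AuxLevel.DegBar

open IntermediateField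

section Generic

variable {K0 K F0 E : Type*} [Field K0] [Field K] [Field F0] [Field E]
  [Algebra K0 F0] [Algebra K E]
  (φ : F0 →+* E) (ι : K0 →+* K)

/-- the base-changed field `K(φ(F0))` -/
abbrev bcField : IntermediateField K E := adjoin K (Set.range φ)

/-- `φ` with codomain restricted to `K(φ(F0))` -/
def liftHom : F0 →+* bcField (K := K) φ :=
  φ.codRestrict _ (fun x => subset_adjoin K _ ⟨x, rfl⟩)

@[simp] theorem coe_liftHom (x : F0) :
    ((liftHom (K := K) φ x : bcField (K := K) φ) : E) = φ x := rfl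

variable {φ ι}

/-- the images of a `K0(s0)`-basis of `F0` span `K(φ(F0))` over `K(φ s0)` -/
theorem span_liftHom_basis_eq_top (hφ : ∀ c, φ (algebraMap K0 F0 c) = algebraMap K E (ι c))
    (s0 : F0) {κ : Type*} [Finite κ] (b : Module.Basis κ K0⟮s0⟯ F0)
    (s : bcField (K := K) φ) (hs : (s : E) = φ s0) :
    Submodule.span K⟮s⟯ (Set.range fun i => liftHom (K := K) φ (b i)) = ⊤ := by
  classical
  have := Fintype.ofFinite κ
  let F := bcField (K := K) φ
  let ψ : F0 →+* F := liftHom (K := K) φ
  let W : Submodule K⟮s⟯ F := Submodule.span K⟮s⟯ (Set.range fun i => ψ (b i))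
  have hW : W = Submodule.span K⟮s⟯ (Set.range fun i => ψ (b i)) := rfl
  show W = ⊤
  -- (1) ψ maps K0(s0) into K(s)
  have hψs : ψ s0 = s := Subtype.ext hs.symm
  have hM : ∀ x : F0, x ∈ K0⟮s0⟯ → ψ x ∈ K⟮s⟯ := by
    intro x hx
    induction hx using IntermediateField.adjoin_induction with
    | mem x hx =>
        rw [Set.mem_singleton_iff] at hx
        subst hx
        rw [hψs]
        exact mem_adjoin_simple_self K s
    | algebraMap c =>
        have h1 : ψ (algebraMap K0 F0 c) = algebraMap K F (ι c) := Subtype.ext (hφ c)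
        rw [h1]
        exact IntermediateField.algebraMap_mem _ _
    | add x y _ _ hx hy => rw [map_add]; exact add_mem hx hy
    | inv x _ hx => rw [map_inv₀]; exact inv_mem hx
    | mul x y _ _ hx hy => rw [map_mul]; exact mul_mem hx hy
  -- (2) ψ(F0) ⊆ W
  have hWmem : ∀ x : F0, ψ x ∈ W := by
    intro x
    have hx : x = ∑ i, ((b.repr x i : K0⟮s0⟯) : F0) * b i := by
      conv_lhs => rw [← b.sum_repr x]
      refine Finset.sum_congr rfl fun i _ => ?_
      rw [Algebra.smul_def]
      rfl
    rw [hx, map_sum]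
    refine Submodule.sum_mem _ fun i _ => ?_
    rw [map_mul]
    have h1 : ψ ((b.repr x i : K0⟮s0⟯) : F0) * ψ (b i)
        = (⟨ψ ((b.repr x i : K0⟮s0⟯) : F0), hM _ (b.repr x i).2⟩ : K⟮s⟯) • ψ (b i) := by
      rw [Algebra.smul_def]
      rfl
    rw [h1]
    exact Submodule.smul_mem _ _ (Submodule.subset_span ⟨i, rfl⟩)
  -- (3) W is a subalgebra
  have h1W : (1 : F) ∈ W := by
    have := hWmem 1
    rwa [map_one] at this
  have hmulW : ∀ x y : F, x ∈ W → y ∈ W → x * y ∈ W := by
    intro x y hx hy
    have h2 : x * y ∈ W * W := Submodule.mul_mem_mul hx hy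
    have h3 : W * W ≤ W := by
      rw [hW, Submodule.span_mul_span, Submodule.span_le]
      rintro z ⟨u, ⟨i, rfl⟩, v, ⟨j, rfl⟩, rfl⟩
      show ψ (b i) * ψ (b j) ∈ W
      rw [← map_mul]
      exact hWmem _
    exact h3 h2
  let S : Subalgebra K⟮s⟯ F := W.toSubalgebra h1W hmulW
  have hfg : S.toSubmodule.FG := by
    have h4 : S.toSubmodule = W := Submodule.toSubalgebra_toSubmodule W h1W hmulW
    rw [h4]
    exact Submodule.fg_span (Set.finite_range _)
  -- (4) S is a field
  let T : IntermediateField K⟮s⟯ F := S.toIntermediateField (fun x hx =>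
    S.inv_mem_of_algebraic (x := ⟨x, hx⟩) (IsIntegral.of_mem_of_fg S hfg x hx).isAlgebraic)
  have hTW : ∀ x : F, x ∈ T ↔ x ∈ W := fun x => Iff.rfl
  -- (5) T = ⊤
  have hle : adjoin K (Set.range φ) ≤ (T.restrictScalars K).map F.val := by
    refine adjoin_le_iff.2 ?_
    rintro y ⟨x0, rfl⟩
    refine ⟨ψ x0, ?_, rfl⟩
    exact (hTW _).2 (hWmem _)
  rw [eq_top_iff]
  intro x _
  obtain ⟨y, hy, hyx⟩ := hle x.2
  have hyx' : y = x := Subtype.ext hyx
  rw [← hyx']
  exact (hTW y).1 hy

/-- **(c), generic form**: `[K(φ(F0)) : K(φ s0)] ≤ [F0 : K0(s0)]`, with finiteness. -/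
theorem finrank_bcField_le (hφ : ∀ c, φ (algebraMap K0 F0 c) = algebraMap K E (ι c))
    (s0 : F0) [FiniteDimensional K0⟮s0⟯ F0]
    (s : bcField (K := K) φ) (hs : (s : E) = φ s0) :
    FiniteDimensional K⟮s⟯ (bcField (K := K) φ) ∧
      Module.finrank K⟮s⟯ (bcField (K := K) φ) ≤ Module.finrank K0⟮s0⟯ F0 := by
  have h := span_liftHom_basis_eq_top hφ s0 (Module.finBasis K0⟮s0⟯ F0) s hs
  refine ⟨?_, ?_⟩
  · refine Module.finite_def.2 ?_
    rw [← h]
    exact Submodule.fg_span (Set.finite_range _)
  · have := finrank_le_of_span_eq_top h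
    simpa using this

end Generic

section Modular

open ModularCurve ModularCurve.IgusaScheme

variable (L : Type*) [Field L] [Algebra ℚ L] (N : ℕ)

theorem coeffEmb_jq : coeffEmb L jq = jqModC L := by
  rw [← jqModC_rat]
  exact map_jqModC (algebraMap ℚ L)

/-- `coeffEmb` restricted to the rational function field `F_N` -/
def embFull : ↥(modularFunctionFieldFull N) →+* LaurentSeries L where
  toFun x := coeffEmb L (x : LaurentSeries ℚ)
  map_one' := by
    show coeffEmb L ((1 : LaurentSeries ℚ)) = 1
    exact map_one _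
  map_mul' x y := by
    show coeffEmb L ((x : LaurentSeries ℚ) * (y : LaurentSeries ℚ)) = _
    exact map_mul _ _ _
  map_zero' := by
    show coeffEmb L ((0 : LaurentSeries ℚ)) = 0
    exact map_zero _
  map_add' x y := by
    show coeffEmb L ((x : LaurentSeries ℚ) + (y : LaurentSeries ℚ)) = _
    exact map_add _ _ _

@[simp] theorem embFull_apply (x : ↥(modularFunctionFieldFull N)) :
    embFull L N x = coeffEmb L (x : LaurentSeries ℚ) := rfl

theorem range_embFull :
    Set.range (embFull L N) = ⇑(coeffEmb L) '' ((modularFunctionFieldFull N : Set (LaurentSeries ℚ))) := by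
  ext y
  constructor
  · rintro ⟨x, rfl⟩
    exact ⟨(x : LaurentSeries ℚ), x.2, rfl⟩
  · rintro ⟨x, hx, rfl⟩
    exact ⟨⟨x, hx⟩, rfl⟩

theorem bcField_embFull :
    bcField (K := L) (embFull L N) = laurentBaseChange L (modularFunctionFieldFull N) := by
  rw [bcField, range_embFull]
  rfl

/-- **(c), modular form**, for ANY `ℚ`-algebra instance on `F_N`: for any element `s` of
`F_L := laurentBaseChange L F_N` whose expansion is `j` (base-changed),
`[F_L : L(s)] ≤ [F_N : ℚ(j)]`, with finiteness. -/
theorem finrank_laurentBaseChange_le [NeZero N] {inst : Algebra ℚ ↥(modularFunctionFieldFull N)}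
    [FiniteDimensional ℚ⟮jFull N⟯ (modularFunctionFieldFull N)]
    (s : laurentBaseChange L (modularFunctionFieldFull N))
    (hs : (s : LaurentSeries L) = jqModC L) :
    FiniteDimensional L⟮s⟯ (laurentBaseChange L (modularFunctionFieldFull N)) ∧
      Module.finrank L⟮s⟯ (laurentBaseChange L (modularFunctionFieldFull N))
        ≤ Module.finrank ℚ⟮jFull N⟯ (modularFunctionFieldFull N) := by
  have hφ : ∀ c : ℚ, embFull L N (algebraMap ℚ ↥(modularFunctionFieldFull N) c)
      = algebraMap L (LaurentSeries L) (algebraMap ℚ L c) := by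
    intro c
    rw [eq_ratCast, eq_ratCast, map_ratCast, map_ratCast]
  have hs' : (s : LaurentSeries L) = embFull L N (jFull N) := by
    rw [hs]
    rw [embFull_apply, coe_jFull, coeffEmb_jq]
  have hbc := bcField_embFull L N
  have key := finrank_bcField_le (φ := embFull L N) (ι := algebraMap ℚ L) hφ (jFull N)
  rw [hbc] at key
  exact key s hs'

end Modular

end Fermat.Agent.GJ.AuxLevel.DegBar
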