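import Fermat.Agent.GJ.AuxLevel.DegCoreField

/-!
# GATE-J / J1-AUX / M-DEG : the abstract core specialised to `A = O[s] ⊂ L`, `K = k₀(s)`

`O` a UFD (e.g. a DVR) with fraction field `k₀ ⊂ L`, `s ∈ L` transcendental over `O`.
We supply all instance glue needed by `DegCore.lean`:
`Algebra O[s] k₀(s)`, `IsScalarTower`, `IsFractionRing O[s] k₀(s)`, `IsIntegrallyClosed O[s]`,
primality of `ϖ` in `O[s]`, finite multiplicities.
-/

set_option autoImplicit false

noncomputable section

namespace Fermat.Agent.GJ.AuxLevel.Deg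

open Polynomial IntermediateField

section Glue

variable {O k₀ L : Type*} [CommRing O] [IsDomain O] [Field k₀] [Algebra O k₀]
  [IsFractionRing O k₀] [Field L] [Algebra k₀ L] [Algebra O L] [IsScalarTower O k₀ L] (s : L)

omit [IsDomain O] [IsFractionRing O k₀] in
/-- `O[s] ⊆ k₀(s)` -/
theorem adjoin_le_adjoin_simple (x : L) (hx : x ∈ Algebra.adjoin O {s}) : x ∈ k₀⟮s⟯ := by
  induction hx using Algebra.adjoin_induction with
  | mem y hy =>
    rw [Set.mem_singleton_iff] at hy
    rw [hy]
    exact mem_adjoin_simple_self k₀ s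
  | algebraMap r =>
    rw [IsScalarTower.algebraMap_apply O k₀ L]
    exact k₀⟮s⟯.algebraMap_mem _
  | add x y _ _ hx hy => exact add_mem hx hy
  | mul x y _ _ hx hy => exact mul_mem hx hy

/-- the inclusion `O[s] → k₀(s)` -/
def adjoinToSimple : Algebra.adjoin O {s} →+* k₀⟮s⟯ where
  toFun x := ⟨x.1, adjoin_le_adjoin_simple (k₀ := k₀) s x.1 x.2⟩
  map_one' := rfl
  map_mul' _ _ := rfl
  map_zero' := rfl
  map_add' _ _ := rfl

/-- the algebra structure `O[s] → k₀(s)` (not an instance) -/
@[reducible] def adjoinSimpleAlgebra : Algebra (Algebra.adjoin O {s}) k₀⟮s⟯ :=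
  (adjoinToSimple (O := O) (k₀ := k₀) s).toAlgebra

omit [IsDomain O] [IsFractionRing O k₀] in
theorem adjoinSimple_isScalarTower :
    @IsScalarTower (Algebra.adjoin O {s}) k₀⟮s⟯ L
      (adjoinSimpleAlgebra (O := O) (k₀ := k₀) s).toSMul _ _ := by
  let _ := adjoinSimpleAlgebra (O := O) (k₀ := k₀) s
  exact IsScalarTower.of_algebraMap_eq fun x => rfl

/-- `k₀(s)` is the fraction field of `O[s]`. -/
theorem adjoinSimple_isFractionRing :
    @IsFractionRing (Algebra.adjoin O {s}) _ k₀⟮s⟯ _ (adjoinSimpleAlgebra (O := O) (k₀ := k₀) s) := by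
  let _ := adjoinSimpleAlgebra (O := O) (k₀ := k₀) s
  have hinj : Function.Injective (algebraMap (Algebra.adjoin O {s}) k₀⟮s⟯) := by
    intro x y hxy
    apply Subtype.ext
    exact congrArg (fun z : k₀⟮s⟯ => (z : L)) hxy
  have : FaithfulSMul (Algebra.adjoin O {s}) k₀⟮s⟯ :=
    (faithfulSMul_iff_algebraMap_injective _ _).mpr hinj
  apply IsFractionRing.of_field
  intro z
  obtain ⟨r, t, hrt⟩ := (IntermediateField.mem_adjoin_simple_iff k₀ (z : L)).mp z.2
  obtain ⟨br, hbr, hr⟩ := IsLocalization.integerNormalization_spec (nonZeroDivisors O) r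
  obtain ⟨bt, hbt, ht⟩ := IsLocalization.integerNormalization_spec (nonZeroDivisors O) t
  set r' := IsLocalization.integerNormalization (nonZeroDivisors O) r with hr'
  set t' := IsLocalization.integerNormalization (nonZeroDivisors O) t with ht'
  have hbr0 : algebraMap O L br ≠ 0 := by
    rw [IsScalarTower.algebraMap_apply O k₀ L, Ne, map_eq_zero,
      map_eq_zero_iff _ (IsFractionRing.injective O k₀)]
    exact nonZeroDivisors.ne_zero hbr
  have hbt0 : algebraMap O L bt ≠ 0 := by
    rw [IsScalarTower.algebraMap_apply O k₀ L, Ne, map_eq_zero,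
      map_eq_zero_iff _ (IsFractionRing.injective O k₀)]
    exact nonZeroDivisors.ne_zero hbt
  have har : aeval s r' = algebraMap O L br * aeval s r := by
    have := congrArg (aeval s) hr
    rw [Polynomial.aeval_map_algebraMap, ← algebraMap_smul k₀ br r, map_smul, Algebra.smul_def,
      ← IsScalarTower.algebraMap_apply O k₀ L] at this
    exact this
  have hat : aeval s t' = algebraMap O L bt * aeval s t := by
    have := congrArg (aeval s) ht
    rw [Polynomial.aeval_map_algebraMap, ← algebraMap_smul k₀ bt t, map_smul, Algebra.smul_def,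
      ← IsScalarTower.algebraMap_apply O k₀ L] at this
    exact this
  have hmem : ∀ p : O[X], aeval s p ∈ Algebra.adjoin O {s} := fun p => by
    rw [Algebra.adjoin_singleton_eq_range_aeval]
    exact ⟨p, rfl⟩
  refine ⟨⟨algebraMap O L bt * aeval s r', mul_mem (Subalgebra.algebraMap_mem _ _) (hmem r')⟩,
    ⟨algebraMap O L br * aeval s t', mul_mem (Subalgebra.algebraMap_mem _ _) (hmem t')⟩, ?_⟩
  apply Subtype.ext
  have hcoe : ∀ x y : Algebra.adjoin O {s},
      ((algebraMap (Algebra.adjoin O {s}) k₀⟮s⟯ x / algebraMap (Algebra.adjoin O {s}) k₀⟮s⟯ y :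
        k₀⟮s⟯) : L) = (x : L) / (y : L) := fun x y => rfl
  rw [hcoe, hrt]
  simp only
  rw [har, hat]
  by_cases ht0 : aeval s t = 0
  · simp [ht0]
  · field_simp

end Glue

section UFD

variable {O L : Type*} [CommRing O] [IsDomain O] [Field L] [Algebra O L] (s : L)

/-- `O[X] ≃ O[s]` for transcendental `s` -/
def polyEquivAdjoin (hs : Transcendental O s) : O[X] ≃ₐ[O] Algebra.adjoin O {s} :=
  (AlgEquiv.ofInjective (aeval s) (transcendental_iff_injective.mp hs)).trans
    (Subalgebra.equivOfEq _ _ (Algebra.adjoin_singleton_eq_range_aeval O s).symm)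

omit [IsDomain O] in
@[simp] theorem coe_polyEquivAdjoin (hs : Transcendental O s) (p : O[X]) :
    ((polyEquivAdjoin s hs p : Algebra.adjoin O {s}) : L) = aeval s p := rfl

omit [IsDomain O] in
theorem polyEquivAdjoin_C (hs : Transcendental O s) (c : O) :
    polyEquivAdjoin s hs (C c) = algebraMap O (Algebra.adjoin O {s}) c := by
  apply Subtype.ext
  rw [coe_polyEquivAdjoin, aeval_C]
  rfl

omit [IsDomain O] in
theorem polyEquivAdjoin_X (hs : Transcendental O s) :
    polyEquivAdjoin s hs X = ⟨s, Algebra.subset_adjoin rfl⟩ := by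
  apply Subtype.ext
  rw [coe_polyEquivAdjoin, aeval_X]

theorem isIntegrallyClosed_adjoin [UniqueFactorizationMonoid O] (hs : Transcendental O s) :
    IsIntegrallyClosed (Algebra.adjoin O {s}) :=
  IsIntegrallyClosed.of_equiv (polyEquivAdjoin s hs).toRingEquiv

omit [IsDomain O] in
theorem prime_algebraMap_adjoin (hs : Transcendental O s) {ϖ : O} (hϖ : Prime ϖ) :
    Prime (algebraMap O (Algebra.adjoin O {s}) ϖ) := by
  have h1 : Prime (C ϖ : O[X]) := Polynomial.prime_C_iff.mpr hϖ
  have h2 := (MulEquiv.prime_iff (polyEquivAdjoin s hs).toMulEquiv).mpr h1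
  rw [← polyEquivAdjoin_C s hs]
  exact h2

omit [IsDomain O] in
theorem finiteMultiplicity_adjoin [UniqueFactorizationMonoid O] (hs : Transcendental O s) {ϖ : O}
    (hϖ : Prime ϖ) (c : Algebra.adjoin O {s}) (hc : c ≠ 0) :
    FiniteMultiplicity (algebraMap O (Algebra.adjoin O {s}) ϖ) c := by
  have : UniqueFactorizationMonoid (Algebra.adjoin O {s}) :=
    (polyEquivAdjoin s hs).toMulEquiv.uniqueFactorizationMonoid inferInstance
  exact FiniteMultiplicity.of_not_isUnit (prime_algebraMap_adjoin s hs hϖ).not_isUnit hc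

end UFD

section Main

variable {O k₀ L Ω : Type*} [CommRing O] [IsDomain O] [UniqueFactorizationMonoid O] [Field k₀]
  [Algebra O k₀] [IsFractionRing O k₀] [Field L] [Algebra k₀ L] [Algebra O L]
  [IsScalarTower O k₀ L] (s : L) [FiniteDimensional k₀⟮s⟯ L] [Algebra.IsSeparable k₀⟮s⟯ L]
  [CommRing Ω]

/-- **`exists_redIndep_basis` for `A = O[s]`, `K = k₀(s)`.** -/
theorem exists_redIndep_basis_adjoin (hs : Transcendental O s) (ϖ : O) (hϖ : Prime ϖ)
    (red : integralClosure (Algebra.adjoin O {s}) L →+* Ω)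
    (hker : ∀ x : integralClosure (Algebra.adjoin O {s}) L, red x = 0 →
      ∃ y : integralClosure (Algebra.adjoin O {s}) L,
        x = algebraMap (Algebra.adjoin O {s}) (integralClosure (Algebra.adjoin O {s}) L)
          (algebraMap O (Algebra.adjoin O {s}) ϖ) * y) :
    ∃ b : Fin (Module.finrank k₀⟮s⟯ L) → integralClosure (Algebra.adjoin O {s}) L,
      LinearIndependent k₀⟮s⟯ (fun i => (b i : L)) ∧
        RedIndep (algebraMap O (Algebra.adjoin O {s}) ϖ) red b := by
  let _ := adjoinSimpleAlgebra (O := O) (k₀ := k₀) s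
  have := adjoinSimple_isScalarTower (O := O) (k₀ := k₀) s
  have := adjoinSimple_isFractionRing (O := O) (k₀ := k₀) s
  have := isIntegrallyClosed_adjoin s hs
  exact exists_redIndep_basis (K := k₀⟮s⟯) _ (prime_algebraMap_adjoin s hs hϖ)
    (finiteMultiplicity_adjoin s hs hϖ) red hker

end Main

section Residue

variable {O k₀ L Ω κ : Type*} [CommRing O] [IsDomain O] [UniqueFactorizationMonoid O] [Field k₀]
  [Algebra O k₀] [IsFractionRing O k₀] [Field L] [Algebra k₀ L] [Algebra O L]
  [IsScalarTower O k₀ L] (s : L) [FiniteDimensional k₀⟮s⟯ L] [Algebra.IsSeparable k₀⟮s⟯ L]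
  [Field Ω] [Field κ] [Algebra κ Ω]

/-- the reduction of the chart `s` -/
def redChart (red : integralClosure (Algebra.adjoin O {s}) L →+* Ω) : Ω :=
  red (algebraMap (Algebra.adjoin O {s}) (integralClosure (Algebra.adjoin O {s}) L)
    ⟨s, Algebra.subset_adjoin rfl⟩)

omit [UniqueFactorizationMonoid O] [IsDomain O] [Field k₀] [Algebra O k₀] [IsFractionRing O k₀]
  [Algebra k₀ L] [IsScalarTower O k₀ L] [FiniteDimensional k₀⟮s⟯ L]
  [Algebra.IsSeparable k₀⟮s⟯ L] in
/-- `red` on `O[s]` is "reduce the coefficients and evaluate at `red s`". -/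
theorem red_polyEquivAdjoin (hs : Transcendental O s)
    (red : integralClosure (Algebra.adjoin O {s}) L →+* Ω) (ρ : O →+* κ)
    (hρ : ∀ c : O, red (algebraMap (Algebra.adjoin O {s}) (integralClosure (Algebra.adjoin O {s}) L)
      (algebraMap O (Algebra.adjoin O {s}) c)) = algebraMap κ Ω (ρ c)) (p : O[X]) :
    red (algebraMap (Algebra.adjoin O {s}) (integralClosure (Algebra.adjoin O {s}) L)
      (polyEquivAdjoin s hs p)) = aeval (redChart s red) (p.map ρ) := by
  set φ₁ : O[X] →+* Ω := red.comp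
    ((algebraMap (Algebra.adjoin O {s}) (integralClosure (Algebra.adjoin O {s}) L)).comp
      (polyEquivAdjoin s hs).toRingEquiv.toRingHom) with hφ₁
  set φ₂ : O[X] →+* Ω := Polynomial.eval₂RingHom ((algebraMap κ Ω).comp ρ) (redChart s red)
    with hφ₂
  have h12 : φ₁ = φ₂ := by
    apply Polynomial.ringHom_ext
    · intro c
      simp only [hφ₁, hφ₂, RingHom.comp_apply, Polynomial.coe_eval₂RingHom, Polynomial.eval₂_C]
      have : (polyEquivAdjoin s hs).toRingEquiv.toRingHom (C c) =
          algebraMap O (Algebra.adjoin O {s}) c := polyEquivAdjoin_C s hs c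
      rw [this]
      exact hρ c
    · simp only [hφ₁, hφ₂, RingHom.comp_apply, Polynomial.coe_eval₂RingHom, Polynomial.eval₂_X]
      have : (polyEquivAdjoin s hs).toRingEquiv.toRingHom X =
          (⟨s, Algebra.subset_adjoin rfl⟩ : Algebra.adjoin O {s}) := polyEquivAdjoin_X s hs
      rw [this]
      rfl
  have h1 : φ₁ p = red (algebraMap (Algebra.adjoin O {s})
      (integralClosure (Algebra.adjoin O {s}) L) (polyEquivAdjoin s hs p)) := rfl
  rw [← h1, h12, hφ₂, Polynomial.coe_eval₂RingHom, Polynomial.aeval_def, Polynomial.eval₂_map]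

omit [UniqueFactorizationMonoid O] [IsDomain O] [Field k₀] [Algebra O k₀] [IsFractionRing O k₀]
  [Algebra k₀ L] [IsScalarTower O k₀ L] [FiniteDimensional k₀⟮s⟯ L]
  [Algebra.IsSeparable k₀⟮s⟯ L] in
/-- (hlift) for `κ₀ = κ(red s)` -/
theorem hlift_adjoin (hs : Transcendental O s)
    (red : integralClosure (Algebra.adjoin O {s}) L →+* Ω) (ρ : O →+* κ)
    (hρ : ∀ c : O, red (algebraMap (Algebra.adjoin O {s}) (integralClosure (Algebra.adjoin O {s}) L)
      (algebraMap O (Algebra.adjoin O {s}) c)) = algebraMap κ Ω (ρ c))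
    (a : Algebra.adjoin O {s}) :
    ∃ z : κ⟮redChart s red⟯, algebraMap κ⟮redChart s red⟯ Ω z =
      red (algebraMap (Algebra.adjoin O {s}) (integralClosure (Algebra.adjoin O {s}) L) a) := by
  have ha : a = polyEquivAdjoin s hs ((polyEquivAdjoin s hs).symm a) := by simp
  rw [ha, red_polyEquivAdjoin s hs red ρ hρ]
  have hmem : aeval (redChart s red) (((polyEquivAdjoin s hs).symm a).map ρ) ∈
      κ⟮redChart s red⟯ :=
    (IntermediateField.algebra_adjoin_le_adjoin κ {redChart s red})
      (Polynomial.aeval_mem_adjoin_singleton _ _)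
  exact ⟨⟨_, hmem⟩, rfl⟩

omit [UniqueFactorizationMonoid O] [IsDomain O] [Field k₀] [Algebra O k₀] [IsFractionRing O k₀]
  [Algebra k₀ L] [IsScalarTower O k₀ L] [FiniteDimensional k₀⟮s⟯ L]
  [Algebra.IsSeparable k₀⟮s⟯ L] in
/-- (hfrac) for `κ₀ = κ(red s)` -/
theorem hfrac_adjoin (hs : Transcendental O s)
    (red : integralClosure (Algebra.adjoin O {s}) L →+* Ω) (ρ : O →+* κ)
    (hρsurj : Function.Surjective ρ)
    (hρ : ∀ c : O, red (algebraMap (Algebra.adjoin O {s}) (integralClosure (Algebra.adjoin O {s}) L)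
      (algebraMap O (Algebra.adjoin O {s}) c)) = algebraMap κ Ω (ρ c))
    (z : κ⟮redChart s red⟯) :
    ∃ a t : Algebra.adjoin O {s},
      red (algebraMap (Algebra.adjoin O {s}) (integralClosure (Algebra.adjoin O {s}) L) t) ≠ 0 ∧
      algebraMap κ⟮redChart s red⟯ Ω z *
        red (algebraMap (Algebra.adjoin O {s}) (integralClosure (Algebra.adjoin O {s}) L) t) =
        red (algebraMap (Algebra.adjoin O {s}) (integralClosure (Algebra.adjoin O {s}) L) a) := by
  obtain ⟨r, t, hrt⟩ := (IntermediateField.mem_adjoin_simple_iff κ (z : Ω)).mp z.2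
  by_cases ht : aeval (redChart s red) t = 0
  · refine ⟨0, 1, ?_, ?_⟩
    · rw [map_one, map_one]; exact one_ne_zero
    · have hz : algebraMap κ⟮redChart s red⟯ Ω z = 0 := by
        change (z : Ω) = 0
        rw [hrt, ht, div_zero]
      rw [hz, zero_mul, map_zero, map_zero]
  · obtain ⟨r', hr'⟩ := Polynomial.map_surjective ρ hρsurj r
    obtain ⟨t', ht'⟩ := Polynomial.map_surjective ρ hρsurj t
    refine ⟨polyEquivAdjoin s hs r', polyEquivAdjoin s hs t', ?_, ?_⟩
    · rw [red_polyEquivAdjoin s hs red ρ hρ, ht']; exact ht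
    · rw [red_polyEquivAdjoin s hs red ρ hρ, red_polyEquivAdjoin s hs red ρ hρ, ht', hr']
      change (z : Ω) * _ = _
      rw [hrt, div_mul_cancel₀ _ ht]

/-- **Degree preservation for `A = O[s]`**: a `k₀(s)`-basis of `L` made of integral elements whose
reductions form a `κ(red s)`-basis of the residue field `κ(red s)[red B]`. -/
theorem exists_basis_red_adjoin (hs : Transcendental O s) (ϖ : O) (hϖ : Prime ϖ)
    (red : integralClosure (Algebra.adjoin O {s}) L →+* Ω) (ρ : O →+* κ)
    (hρsurj : Function.Surjective ρ)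
    (hρ : ∀ c : O, red (algebraMap (Algebra.adjoin O {s}) (integralClosure (Algebra.adjoin O {s}) L)
      (algebraMap O (Algebra.adjoin O {s}) c)) = algebraMap κ Ω (ρ c))
    (hϖρ : ρ ϖ = 0)
    (hker : ∀ x : integralClosure (Algebra.adjoin O {s}) L, red x = 0 →
      ∃ y : integralClosure (Algebra.adjoin O {s}) L,
        x = algebraMap (Algebra.adjoin O {s}) (integralClosure (Algebra.adjoin O {s}) L)
          (algebraMap O (Algebra.adjoin O {s}) ϖ) * y) :
    ∃ b : Fin (Module.finrank k₀⟮s⟯ L) → integralClosure (Algebra.adjoin O {s}) L,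
      LinearIndependent k₀⟮s⟯ (fun i => (b i : L)) ∧
      LinearIndependent κ⟮redChart s red⟯ (fun i => red (b i)) ∧
      ∀ x : integralClosure (Algebra.adjoin O {s}) L,
        red x ∈ Submodule.span κ⟮redChart s red⟯ (Set.range fun i => red (b i)) := by
  let _ := adjoinSimpleAlgebra (O := O) (k₀ := k₀) s
  have := adjoinSimple_isScalarTower (O := O) (k₀ := k₀) s
  have := adjoinSimple_isFractionRing (O := O) (k₀ := k₀) s
  have := isIntegrallyClosed_adjoin s hs
  have hϖA := prime_algebraMap_adjoin s hs hϖ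
  have hfinA := finiteMultiplicity_adjoin s hs hϖ
  have hϖred : red (algebraMap (Algebra.adjoin O {s}) (integralClosure (Algebra.adjoin O {s}) L)
      (algebraMap O (Algebra.adjoin O {s}) ϖ)) = 0 := by
    rw [hρ ϖ, hϖρ, map_zero]
  obtain ⟨b, hli, hb⟩ := exists_redIndep_basis (K := k₀⟮s⟯) _ hϖA hfinA red hker
  refine ⟨b, hli, ?_, ?_⟩
  · exact linearIndependent_red _ red hϖred (hfrac_adjoin s hs red ρ hρsurj hρ) b hb
  · exact fun x => red_mem_span (K := k₀⟮s⟯) _ hϖA hfinA red hϖred hker
      (hlift_adjoin s hs red ρ hρ) b hli hb x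

/-- **Degree preservation for `A = O[s]`**, `finrank` form. -/
theorem finrank_red_adjoin (hs : Transcendental O s) (ϖ : O) (hϖ : Prime ϖ)
    (red : integralClosure (Algebra.adjoin O {s}) L →+* Ω) (ρ : O →+* κ)
    (hρsurj : Function.Surjective ρ)
    (hρ : ∀ c : O, red (algebraMap (Algebra.adjoin O {s}) (integralClosure (Algebra.adjoin O {s}) L)
      (algebraMap O (Algebra.adjoin O {s}) c)) = algebraMap κ Ω (ρ c))
    (hϖρ : ρ ϖ = 0)
    (hker : ∀ x : integralClosure (Algebra.adjoin O {s}) L, red x = 0 →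
      ∃ y : integralClosure (Algebra.adjoin O {s}) L,
        x = algebraMap (Algebra.adjoin O {s}) (integralClosure (Algebra.adjoin O {s}) L)
          (algebraMap O (Algebra.adjoin O {s}) ϖ) * y) :
    Module.finrank κ⟮redChart s red⟯
      (IntermediateField.adjoin κ⟮redChart s red⟯ (Set.range red)) =
      Module.finrank k₀⟮s⟯ L := by
  let _ := adjoinSimpleAlgebra (O := O) (k₀ := k₀) s
  have := adjoinSimple_isScalarTower (O := O) (k₀ := k₀) s
  have := adjoinSimple_isFractionRing (O := O) (k₀ := k₀) s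
  have := isIntegrallyClosed_adjoin s hs
  have hϖred : red (algebraMap (Algebra.adjoin O {s}) (integralClosure (Algebra.adjoin O {s}) L)
      (algebraMap O (Algebra.adjoin O {s}) ϖ)) = 0 := by
    rw [hρ ϖ, hϖρ, map_zero]
  exact finrank_intermediateField_adjoin_range_red (K := k₀⟮s⟯) _
    (prime_algebraMap_adjoin s hs hϖ) (finiteMultiplicity_adjoin s hs hϖ) red hϖred hker
    (hfrac_adjoin s hs red ρ hρsurj hρ) (hlift_adjoin s hs red ρ hρ)

end Residue

end Fermat.Agent.GJ.AuxLevel.Deg
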