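import Fermat.Agent.GJ.AuxLevel.DegCore

/-!
# GATE-J / J1-AUX / M-DEG : degree preservation, field-level corollaries (Mathlib only)

Setting of `DegCore.lean`, plus a field `κ₀` with `Algebra κ₀ Ω` which is "the fraction field of
`red A` inside `Ω`":

* `hfrac : ∀ z : κ₀, ∃ a s : A, red s ≠ 0 ∧ algebraMap κ₀ Ω z * red s = red a`
* `hlift : ∀ a : A, ∃ z : κ₀, algebraMap κ₀ Ω z = red a`

Then for a reduction-independent basis `b` (from `exists_redIndep_basis`):

* `linearIndependent_red` : the `red (b i)` are `κ₀`-linearly independent;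
* `red_mem_span` : `red x ∈ span κ₀ (range (red ∘ b))` for every integral `x`;
* `adjoin_range_red_toSubmodule` : `κ₀[red B] = span κ₀ (range (red ∘ b))`;
* `finrank_adjoin_range_red` : `[κ₀[red B] : κ₀] = [L : K]`;
* `isField_adjoin_range_red`, and for a field `Ω`: `finrank_intermediateField_adjoin_range_red`.
-/

set_option autoImplicit false

noncomputable section

namespace Fermat.Agent.GJ.AuxLevel.Deg

section DomainTarget

variable {A K L Ω κ₀ : Type*} [CommRing A] [IsDomain A] [IsIntegrallyClosed A] [Field K]
  [Algebra A K] [IsFractionRing A K] [Field L] [Algebra K L] [Algebra A L] [IsScalarTower A K L]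
  [FiniteDimensional K L] [Algebra.IsSeparable K L] [CommRing Ω] [IsDomain Ω]
  [Field κ₀] [Algebra κ₀ Ω]

omit [IsDomain A] [IsIntegrallyClosed A] in
/-- **(GE)** reduction independence gives linear independence over the residue base field. -/
theorem linearIndependent_red (ϖ : A) (red : integralClosure A L →+* Ω)
    (hϖred : red (algebraMap A (integralClosure A L) ϖ) = 0)
    (hfrac : ∀ z : κ₀, ∃ a s : A, red (algebraMap A (integralClosure A L) s) ≠ 0 ∧
      algebraMap κ₀ Ω z * red (algebraMap A (integralClosure A L) s) =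
        red (algebraMap A (integralClosure A L) a))
    {ι : Type*} [Fintype ι] (b : ι → integralClosure A L) (hb : RedIndep ϖ red b) :
    LinearIndependent κ₀ (fun i => red (b i)) := by
  classical
  rw [Fintype.linearIndependent_iff]
  intro g hg i
  choose a s hs has using hfrac
  -- common denominator
  set P : Ω := ∏ j, red (algebraMap A (integralClosure A L) (s (g j))) with hP
  have hP0 : P ≠ 0 := Finset.prod_ne_zero_iff.mpr fun j _ => hs (g j)
  set c : ι → A := fun i => a (g i) * ∏ j ∈ Finset.univ.erase i, s (g j) with hc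
  have hci : ∀ i, red (algebraMap A (integralClosure A L) (c i)) = algebraMap κ₀ Ω (g i) * P := by
    intro i
    rw [hc]
    simp only [map_mul, map_prod]
    rw [← has (g i), mul_assoc, hP, ← Finset.mul_prod_erase Finset.univ
      (fun j => red (algebraMap A (integralClosure A L) (s (g j)))) (Finset.mem_univ i)]
  have hsum : ∑ i, red (algebraMap A (integralClosure A L) (c i)) * red (b i) = 0 := by
    have : ∑ i, red (algebraMap A (integralClosure A L) (c i)) * red (b i) =
        P * ∑ i, g i • red (b i) := by
      rw [Finset.mul_sum]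
      refine Finset.sum_congr rfl fun i _ => ?_
      rw [hci i, Algebra.smul_def]
      ring
    rw [this, hg, mul_zero]
  obtain ⟨d, hd⟩ := hb c hsum i
  have h0 : red (algebraMap A (integralClosure A L) (c i)) = 0 := by
    rw [hd, map_mul, map_mul, hϖred, zero_mul]
  rw [hci i] at h0
  have h1 : algebraMap κ₀ Ω (g i) = 0 := (mul_eq_zero.mp h0).resolve_right hP0
  exact (map_eq_zero_iff _ (algebraMap κ₀ Ω).injective).mp h1

omit [Algebra.IsSeparable K L] in
/-- **(LE)** every reduction of an integral element lies in the `κ₀`-span of the reductions of a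
reduction-independent basis. -/
theorem red_mem_span (ϖ : A) (hϖ : Prime ϖ)
    (hfin : ∀ c : A, c ≠ 0 → FiniteMultiplicity ϖ c)
    (red : integralClosure A L →+* Ω)
    (hϖred : red (algebraMap A (integralClosure A L) ϖ) = 0)
    (hker : ∀ x : integralClosure A L, red x = 0 →
      ∃ y : integralClosure A L, x = algebraMap A (integralClosure A L) ϖ * y)
    (hlift : ∀ a : A, ∃ z : κ₀, algebraMap κ₀ Ω z = red (algebraMap A (integralClosure A L) a))
    (b : Fin (Module.finrank K L) → integralClosure A L)
    (hli : LinearIndependent K (fun i => (b i : L))) (hb : RedIndep ϖ red b)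
    (x : integralClosure A L) :
    red x ∈ Submodule.span κ₀ (Set.range fun i => red (b i)) := by
  classical
  obtain ⟨s, hs, c, hc⟩ := exists_smul_eq_sum ϖ hϖ hfin red hϖred b hli hb x
  have hs0 : red (algebraMap A (integralClosure A L) s) ≠ 0 := fun h0 =>
    hs (dvd_of_red_algebraMap_eq_zero K ϖ hϖ red hker s h0)
  choose z hz using hlift
  have hzs : z s ≠ 0 := by
    intro h0
    apply hs0
    rw [← hz s, h0, map_zero]
  have hx : red x = ∑ i, ((z s)⁻¹ * z (c i)) • red (b i) := by
    have h1 := congrArg red hc
    rw [map_mul, map_sum] at h1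
    have hzsΩ : algebraMap κ₀ Ω (z s) ≠ 0 := by rw [hz s]; exact hs0
    apply mul_left_cancel₀ hzsΩ
    rw [hz s, h1, Finset.mul_sum]
    refine Finset.sum_congr rfl fun i _ => ?_
    rw [Algebra.smul_def, ← mul_assoc, ← hz s, ← map_mul, mul_inv_cancel_left₀ hzs, hz (c i),
      map_mul]
  rw [hx]
  exact Submodule.sum_mem _ fun i _ =>
    Submodule.smul_mem _ _ (Submodule.subset_span ⟨i, rfl⟩)

omit [Algebra.IsSeparable K L] in
/-- the `κ₀`-algebra generated by `red B` is the `κ₀`-span of the reductions of the basis. -/
theorem adjoin_range_red_toSubmodule (ϖ : A) (hϖ : Prime ϖ)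
    (hfin : ∀ c : A, c ≠ 0 → FiniteMultiplicity ϖ c)
    (red : integralClosure A L →+* Ω)
    (hϖred : red (algebraMap A (integralClosure A L) ϖ) = 0)
    (hker : ∀ x : integralClosure A L, red x = 0 →
      ∃ y : integralClosure A L, x = algebraMap A (integralClosure A L) ϖ * y)
    (hlift : ∀ a : A, ∃ z : κ₀, algebraMap κ₀ Ω z = red (algebraMap A (integralClosure A L) a))
    (b : Fin (Module.finrank K L) → integralClosure A L)
    (hli : LinearIndependent K (fun i => (b i : L))) (hb : RedIndep ϖ red b) :
    Subalgebra.toSubmodule (Algebra.adjoin κ₀ (Set.range red)) =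
      Submodule.span κ₀ (Set.range fun i => red (b i)) := by
  have hcl : (Submonoid.closure (Set.range red) : Set Ω) = Set.range red := by
    have h := Submonoid.closure_eq (MonoidHom.mrange (red : integralClosure A L →* Ω))
    have h2 : ((MonoidHom.mrange (red : integralClosure A L →* Ω)) : Set Ω) = Set.range red := by
      ext y
      simp
    rw [h2] at h
    rw [h]
    exact h2
  rw [Algebra.adjoin_eq_span, hcl]
  apply le_antisymm
  · rw [Submodule.span_le]
    rintro _ ⟨x, rfl⟩
    exact red_mem_span ϖ hϖ hfin red hϖred hker hlift b hli hb x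
  · apply Submodule.span_mono
    rintro _ ⟨i, rfl⟩
    exact ⟨b i, rfl⟩

/-- **Degree preservation**: `[κ₀[red B] : κ₀] = [L : K]`. -/
theorem finrank_adjoin_range_red (ϖ : A) (hϖ : Prime ϖ)
    (hfin : ∀ c : A, c ≠ 0 → FiniteMultiplicity ϖ c)
    (red : integralClosure A L →+* Ω)
    (hϖred : red (algebraMap A (integralClosure A L) ϖ) = 0)
    (hker : ∀ x : integralClosure A L, red x = 0 →
      ∃ y : integralClosure A L, x = algebraMap A (integralClosure A L) ϖ * y)
    (hfrac : ∀ z : κ₀, ∃ a s : A, red (algebraMap A (integralClosure A L) s) ≠ 0 ∧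
      algebraMap κ₀ Ω z * red (algebraMap A (integralClosure A L) s) =
        red (algebraMap A (integralClosure A L) a))
    (hlift : ∀ a : A, ∃ z : κ₀, algebraMap κ₀ Ω z = red (algebraMap A (integralClosure A L) a)) :
    Module.finrank κ₀ (Algebra.adjoin κ₀ (Set.range red)) = Module.finrank K L := by
  obtain ⟨b, hli, hb⟩ := exists_redIndep_basis (K := K) ϖ hϖ hfin red hker
  have h1 := adjoin_range_red_toSubmodule ϖ hϖ hfin red hϖred hker hlift b hli hb
  have h2 : Module.finrank κ₀ (Algebra.adjoin κ₀ (Set.range red)) =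
      Module.finrank κ₀ (Subalgebra.toSubmodule (Algebra.adjoin κ₀ (Set.range red))) := rfl
  rw [h2, h1, finrank_span_eq_card (linearIndependent_red ϖ red hϖred hfrac b hb)]
  simp

variable (K) in
include K in
/-- `κ₀[red B]` is finite dimensional over `κ₀`. -/
theorem finite_adjoin_range_red (ϖ : A) (hϖ : Prime ϖ)
    (hfin : ∀ c : A, c ≠ 0 → FiniteMultiplicity ϖ c)
    (red : integralClosure A L →+* Ω)
    (hϖred : red (algebraMap A (integralClosure A L) ϖ) = 0)
    (hker : ∀ x : integralClosure A L, red x = 0 →
      ∃ y : integralClosure A L, x = algebraMap A (integralClosure A L) ϖ * y)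
    (hlift : ∀ a : A, ∃ z : κ₀, algebraMap κ₀ Ω z = red (algebraMap A (integralClosure A L) a)) :
    Module.Finite κ₀ (Algebra.adjoin κ₀ (Set.range red)) := by
  obtain ⟨b, hli, hb⟩ := exists_redIndep_basis (K := K) ϖ hϖ hfin red hker
  have h1 := adjoin_range_red_toSubmodule ϖ hϖ hfin red hϖred hker hlift b hli hb
  have hfg : (Subalgebra.toSubmodule (Algebra.adjoin κ₀ (Set.range red))).FG := by
    rw [h1]
    exact Submodule.fg_span (Set.finite_range _)
  exact Module.Finite.of_fg hfg

variable (K) in
include K in
/-- `κ₀[red B]` is a field. -/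
theorem isField_adjoin_range_red (ϖ : A) (hϖ : Prime ϖ)
    (hfin : ∀ c : A, c ≠ 0 → FiniteMultiplicity ϖ c)
    (red : integralClosure A L →+* Ω)
    (hϖred : red (algebraMap A (integralClosure A L) ϖ) = 0)
    (hker : ∀ x : integralClosure A L, red x = 0 →
      ∃ y : integralClosure A L, x = algebraMap A (integralClosure A L) ϖ * y)
    (hlift : ∀ a : A, ∃ z : κ₀, algebraMap κ₀ Ω z = red (algebraMap A (integralClosure A L) a)) :
    IsField (Algebra.adjoin κ₀ (Set.range red)) := by
  have := finite_adjoin_range_red K ϖ hϖ hfin red hϖred hker hlift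
  exact isField_of_isIntegral_of_isField' (R := κ₀) (Field.toIsField κ₀)

end DomainTarget

section FieldTarget

variable {A K L Ω κ₀ : Type*} [CommRing A] [IsDomain A] [IsIntegrallyClosed A] [Field K]
  [Algebra A K] [IsFractionRing A K] [Field L] [Algebra K L] [Algebra A L] [IsScalarTower A K L]
  [FiniteDimensional K L] [Algebra.IsSeparable K L] [Field Ω] [Field κ₀] [Algebra κ₀ Ω]

variable (K) in
include K in
/-- for a field target, the field generated by `κ₀` and `red B` is the algebra generated. -/
theorem intermediateField_adjoin_range_red_toSubalgebra (ϖ : A) (hϖ : Prime ϖ)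
    (hfin : ∀ c : A, c ≠ 0 → FiniteMultiplicity ϖ c)
    (red : integralClosure A L →+* Ω)
    (hϖred : red (algebraMap A (integralClosure A L) ϖ) = 0)
    (hker : ∀ x : integralClosure A L, red x = 0 →
      ∃ y : integralClosure A L, x = algebraMap A (integralClosure A L) ϖ * y)
    (hlift : ∀ a : A, ∃ z : κ₀, algebraMap κ₀ Ω z = red (algebraMap A (integralClosure A L) a)) :
    (IntermediateField.adjoin κ₀ (Set.range red)).toSubalgebra =
      Algebra.adjoin κ₀ (Set.range red) := by
  have hfinite := finite_adjoin_range_red K ϖ hϖ hfin red hϖred hker hlift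
  apply IntermediateField.adjoin_toSubalgebra_of_isAlgebraic
  intro y hy
  have h1 : IsIntegral κ₀ (⟨y, Algebra.subset_adjoin hy⟩ : Algebra.adjoin κ₀ (Set.range red)) :=
    Algebra.IsIntegral.isIntegral _
  have h2 : IsIntegral κ₀ y := by
    have := h1.map (Algebra.adjoin κ₀ (Set.range red)).val
    simpa using this
  exact h2.isAlgebraic

/-- **Degree preservation**, field form: `[κ₀(red B) : κ₀] = [L : K]`. -/
theorem finrank_intermediateField_adjoin_range_red (ϖ : A) (hϖ : Prime ϖ)
    (hfin : ∀ c : A, c ≠ 0 → FiniteMultiplicity ϖ c)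
    (red : integralClosure A L →+* Ω)
    (hϖred : red (algebraMap A (integralClosure A L) ϖ) = 0)
    (hker : ∀ x : integralClosure A L, red x = 0 →
      ∃ y : integralClosure A L, x = algebraMap A (integralClosure A L) ϖ * y)
    (hfrac : ∀ z : κ₀, ∃ a s : A, red (algebraMap A (integralClosure A L) s) ≠ 0 ∧
      algebraMap κ₀ Ω z * red (algebraMap A (integralClosure A L) s) =
        red (algebraMap A (integralClosure A L) a))
    (hlift : ∀ a : A, ∃ z : κ₀, algebraMap κ₀ Ω z = red (algebraMap A (integralClosure A L) a)) :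
    Module.finrank κ₀ (IntermediateField.adjoin κ₀ (Set.range red)) = Module.finrank K L := by
  rw [← IntermediateField.finrank_eq_finrank_subalgebra,
    intermediateField_adjoin_range_red_toSubalgebra K ϖ hϖ hfin red hϖred hker hlift]
  exact finrank_adjoin_range_red ϖ hϖ hfin red hϖred hker hfrac hlift

end FieldTarget

end Fermat.Agent.GJ.AuxLevel.Deg
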